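/-
Program B, node B7.5 (C1)/(C2), part 1: function theory on a circle of an annulus, at K-level.

`F / K` a function field, `A` a valuation subring of `K` with residue field `k`, `T` a set of places
(the tube of a node), `u : F` an annulus coordinate on `T`.

* `TubeUnit A T ε` : `ε` is regular with value `≡ 1` at every place of `T`;
* `AnnulusCore A T` : THE CONTRACT — `u` maps `T` bijectively onto the open annulus
  `|thick| < |c| < 1`, `u - u(P)` has a simple zero at `P`, and every `y ≠ 0` factors as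
  `c · u^b · ∏_{Q ∈ S} (u - u(Q))^(n Q) · (tube unit)` with `S ⊆ T` finite;
* `IsRed C a y ȳ` : `ȳ ∈ k(X)` is the reduction of `y` on the circle `|u(P)| = |a|`: for all but
  finitely many residue classes `c̄` of circle points `P`, `y` is regular at `P` with integral value
  and `ȳ(c̄) = residue of y(P)`;
* closure properties of `IsRed` (constants, sums, products, inverses, `u / a ↦ X`, tube units ↦ 1)
  and uniqueness of the reduction (`IsRed.unique`: the residue field is infinite).
-/
import Mathlib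
import Fermat.Agent.BR.Centre
import Fermat.Agent.BR.P1Places
import Fermat.Agent.BR.POneGenus

set_option autoImplicit false

noncomputable section

namespace Fermat.Agent.BR.Circle

open AlgebraicCurve IsLocalRing Fermat.Agent.Red Fermat.Agent.BR.InertiaRed
  Fermat.Agent.BR.AnnulusRed Fermat.Agent.BR.P1 Fermat.Agent.BR.Centre

variable {K F : Type*} [Field K] [Field F] [Algebra K F]

/-- `ε` is regular with value congruent to `1` at every place of `T`. -/
def TubeUnit (A : ValuationSubring K) (T : Set (Place K F)) (ε : F) : Prop :=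
  ∀ P ∈ T, ∃ d : K, IsValueAt P ε d ∧ A.valuation (d - 1) < 1

/-- The K-level contract for the tube `T` of a node: annulus coordinate, tube bijection, simple
zeros, factorisation. -/
structure AnnulusCore (A : ValuationSubring K) (T : Set (Place K F)) where
  /-- the annulus coordinate -/
  u : F
  /-- the thickness element: the tube is `|thick| < |u| < 1` -/
  thick : K
  thick_ne : thick ≠ 0
  thick_lt : A.valuation thick < 1
  val_mem : ∀ P ∈ T, ∃ c : K, IsValueAt P u c ∧ A.valuation thick < A.valuation c ∧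
    A.valuation c < 1
  bij : ∀ c : K, A.valuation thick < A.valuation c → A.valuation c < 1 →
    ∃! P, P ∈ T ∧ IsValueAt P u c
  simple : ∀ P ∈ T, P.ord (u - algebraMap K F (evalAt P u)) = 1
  factor : ∀ y : F, y ≠ 0 → ∃ (S : Finset (Place K F)) (n : Place K F → ℤ) (b : ℤ) (c : K),
    (∀ Q ∈ S, Q ∈ T) ∧ c ≠ 0 ∧
      TubeUnit A T (y * (c • (u ^ b *
        ∏ Q ∈ S, (u - algebraMap K F (evalAt Q u)) ^ n Q))⁻¹)

section Red

variable {A : ValuationSubring K} [IsAlgClosed (ResidueField A)] {T : Set (Place K F)}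
  (C : AnnulusCore A T)

local notation "k" => ResidueField A

/-- `ȳ` is the reduction of `y` on the circle of gauge `a`. -/
def IsRed (a : K) (y : F) (yb : RatFunc k) : Prop :=
  ∃ E : Finset k, ∀ P ∈ T, A.valuation (evalAt P C.u) = A.valuation a → ubar A C.u a P ∉ E →
    ∃ (d : K) (hd : d ∈ A), IsValueAt P y d ∧
      IsValueAt (placeAt k (ubar A C.u a P)) yb (residue A ⟨d, hd⟩)

variable {C} {a : K}

theorem IsRed.add {y y' : F} {yb yb' : RatFunc k} (h : IsRed C a y yb) (h' : IsRed C a y' yb') :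
    IsRed C a (y + y') (yb + yb') := by
  classical
  obtain ⟨E, hE⟩ := h
  obtain ⟨E', hE'⟩ := h'
  refine ⟨E ∪ E', fun P hP hv hn => ?_⟩
  rw [Finset.mem_union, not_or] at hn
  obtain ⟨d, hd, h1, h2⟩ := hE P hP hv hn.1
  obtain ⟨d', hd', h1', h2'⟩ := hE' P hP hv hn.2
  refine ⟨d + d', A.add_mem _ _ hd hd', h1.add h1', ?_⟩
  have := h2.add h2'
  rwa [← map_add] at this

theorem IsRed.mul {y y' : F} {yb yb' : RatFunc k} (h : IsRed C a y yb) (h' : IsRed C a y' yb') :
    IsRed C a (y * y') (yb * yb') := by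
  classical
  obtain ⟨E, hE⟩ := h
  obtain ⟨E', hE'⟩ := h'
  refine ⟨E ∪ E', fun P hP hv hn => ?_⟩
  rw [Finset.mem_union, not_or] at hn
  obtain ⟨d, hd, h1, h2⟩ := hE P hP hv hn.1
  obtain ⟨d', hd', h1', h2'⟩ := hE' P hP hv hn.2
  refine ⟨d * d', A.mul_mem _ _ hd hd', h1.mul h1', ?_⟩
  have := h2.mul h2'
  rwa [← map_mul] at this

theorem isRed_const {c : K} (hc : c ∈ A) :
    IsRed C a (algebraMap K F c) (algebraMap k (RatFunc k) (residue A ⟨c, hc⟩)) :=
  ⟨∅, fun P _ _ _ => ⟨c, hc, isValueAt_algebraMap P c, isValueAt_algebraMap _ _⟩⟩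

theorem isRed_zero : IsRed C a (0 : F) 0 :=
  ⟨∅, fun P _ _ _ => ⟨0, A.zero_mem, isValueAt_zero P, by
    have h0 : residue A (⟨0, A.zero_mem⟩ : A) = 0 := map_zero _
    rw [h0]; exact isValueAt_zero _⟩⟩

theorem isRed_one : IsRed C a (1 : F) 1 :=
  ⟨∅, fun P _ _ _ => ⟨1, A.one_mem, isValueAt_one P, by
    have h1 : residue A (⟨1, A.one_mem⟩ : A) = 1 := map_one _
    rw [h1]; exact isValueAt_one _⟩⟩

theorem IsRed.neg {y : F} {yb : RatFunc k} (h : IsRed C a y yb) : IsRed C a (-y) (-yb) := by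
  obtain ⟨E, hE⟩ := h
  refine ⟨E, fun P hP hv hn => ?_⟩
  obtain ⟨d, hd, h1, h2⟩ := hE P hP hv hn
  refine ⟨-d, A.neg_mem _ hd, h1.neg, ?_⟩
  have := h2.neg
  rwa [← map_neg] at this

theorem isRed_tubeUnit {ε : F} (hε : TubeUnit A T ε) : IsRed C a ε 1 := by
  refine ⟨∅, fun P hP _ _ => ?_⟩
  obtain ⟨d, h1, h2⟩ := hε P hP
  have hd1 : d - 1 ∈ A := (A.valuation_le_one_iff _).mp h2.le
  have hd : d ∈ A := by
    have := A.add_mem _ _ hd1 A.one_mem
    simpa using this
  refine ⟨d, hd, h1, ?_⟩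
  have hres : residue A ⟨d, hd⟩ = 1 := by
    have h3 : residue A (⟨d - 1, hd1⟩ : A) = 0 := by
      rw [residue_eq_zero_iff]
      exact (A.valuation_lt_one_iff _).mpr h2
    have h4 : (⟨d, hd⟩ : A) = ⟨d - 1, hd1⟩ + 1 := by
      apply Subtype.ext
      simp
    rw [h4, map_add, h3, zero_add, map_one]
  rw [hres]
  exact isValueAt_one _

/-! ### the coordinate, circle points -/

omit [IsAlgClosed (ResidueField A)] in
/-- On the tube, `evalAt P u` is the value of `u`. -/
theorem isValueAt_evalAt_u (C : AnnulusCore A T) {P : Place K F} (hP : P ∈ T) :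
    IsValueAt P C.u (evalAt P C.u) ∧ A.valuation C.thick < A.valuation (evalAt P C.u) ∧
      A.valuation (evalAt P C.u) < 1 := by
  obtain ⟨c, h1, h2, h3⟩ := C.val_mem P hP
  rw [evalAt_eq_of_isValueAt h1]
  exact ⟨h1, h2, h3⟩

omit [IsAlgClosed (ResidueField A)] in
theorem ubar_eq_residue (C : AnnulusCore A T) {P : Place K F}
    (hv : A.valuation (evalAt P C.u) = A.valuation a) (ha : a ≠ 0) :
    ∃ h : evalAt P C.u / a ∈ A, ubar A C.u a P = residue A ⟨evalAt P C.u / a, h⟩ := by
  have h1 : A.valuation (evalAt P C.u / a) = 1 := valuation_div_eq_one A ha hv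
  have h : evalAt P C.u / a ∈ A := mem_of_valuation_eq_one A h1
  exact ⟨h, resOf_of_mem A h⟩

/-- `u / a` reduces to the coordinate `X` of the exceptional component. -/
theorem isRed_coord (ha : a ≠ 0) : IsRed C a (a⁻¹ • C.u) RatFunc.X := by
  refine ⟨∅, fun P hP hv _ => ?_⟩
  obtain ⟨h1, -, -⟩ := isValueAt_evalAt_u C hP
  obtain ⟨h, hub⟩ := ubar_eq_residue C hv ha
  refine ⟨evalAt P C.u / a, h, ?_, ?_⟩
  · have := h1.smul a⁻¹
    rwa [inv_mul_eq_div] at this
  · rw [← hub, isValueAt_iff]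
    right
    rw [RatFunc.algebraMap_eq_C, ord_placeAt_X_sub]
    exact one_pos

omit [IsAlgClosed (ResidueField A)] in
/-- Every residue class `c̄ ≠ 0` is the class of a point of the circle of gauge `a`. -/
theorem exists_circle_point (C : AnnulusCore A T) (ha1 : A.valuation C.thick < A.valuation a)
    (ha2 : A.valuation a < 1) (cb : ResidueField A) (hcb : cb ≠ 0) :
    ∃ P ∈ T, A.valuation (evalAt P C.u) = A.valuation a ∧ ubar A C.u a P = cb := by
  obtain ⟨c, rfl⟩ := residue_surjective cb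
  have hc1 : A.valuation (c : K) = 1 := by
    have hu : IsUnit c := by
      by_contra hnu
      exact hcb ((residue_eq_zero_iff _).mpr ((mem_maximalIdeal _).mpr hnu))
    exact (A.valuation_eq_one_iff c).mp hu
  have ha0 : a ≠ 0 := by
    rintro rfl
    rw [map_zero] at ha1
    exact not_lt_zero ha1
  have hv : A.valuation (a * c) = A.valuation a := by rw [map_mul, hc1, mul_one]
  obtain ⟨P, ⟨hP, hPu⟩, -⟩ := C.bij (a * c) (by rw [hv]; exact ha1) (by rw [hv]; exact ha2)
  refine ⟨P, hP, ?_, ?_⟩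
  · rw [evalAt_eq_of_isValueAt hPu, hv]
  · unfold ubar angRes
    rw [evalAt_eq_of_isValueAt hPu, mul_div_cancel_left₀ _ ha0, resOf_of_mem A c.2]

/-! ### zeros of a rational function, inverses, uniqueness -/

/-- A nonzero rational function vanishes at finitely many points `X = c̄`. -/
theorem finite_zeros {yb : RatFunc k} (hyb : yb ≠ 0) :
    {cb : k | 0 < (placeAt k cb).ord yb}.Finite := by
  obtain ⟨D, hD, -⟩ := (POne.riemannPkg_ratFunc k).principal.exists_divisor yb hyb
  have hsub : (placeAt k) '' {cb : k | 0 < (placeAt k cb).ord yb} ⊆ (D.support : Set _) := by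
    rintro _ ⟨cb, hcb, rfl⟩
    rw [Finset.mem_coe, Finsupp.mem_support_iff, hD]
    exact (ne_of_gt hcb)
  exact Set.Finite.of_finite_image (D.support.finite_toSet.subset hsub)
    (placeAt_injective.injOn)

theorem IsRed.inv {y : F} {yb : RatFunc k} (h : IsRed C a y yb) (hyb : yb ≠ 0) :
    IsRed C a y⁻¹ yb⁻¹ := by
  classical
  obtain ⟨E, hE⟩ := h
  refine ⟨E ∪ (finite_zeros hyb).toFinset, fun P hP hv hn => ?_⟩
  rw [Finset.mem_union, not_or, Set.Finite.mem_toFinset, Set.mem_ofPred_eq, not_lt] at hn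
  obtain ⟨d, hd, h1, h2⟩ := hE P hP hv hn.1
  have hres : residue A ⟨d, hd⟩ ≠ 0 := by
    intro h0
    rw [h0, isValueAt_zero_iff, adicValuation_lt_one_iff] at h2
    rcases h2 with h2 | h2
    · exact hyb h2
    · exact absurd h2 (not_lt.mpr hn.2)
  have hdu : IsUnit (⟨d, hd⟩ : A) := by
    by_contra hnu
    exact hres ((residue_eq_zero_iff _).mpr ((mem_maximalIdeal _).mpr hnu))
  have hd0 : d ≠ 0 := by
    rintro rfl
    exact hres (map_zero _)
  have hdinv : d⁻¹ ∈ A := by
    have h3 : A.valuation d = 1 := (A.valuation_eq_one_iff ⟨d, hd⟩).mp hdu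
    exact mem_of_valuation_eq_one A (by rw [map_inv₀, h3, inv_one])
  refine ⟨d⁻¹, hdinv, IsValueAt.inv h1 hd0, ?_⟩
  have h4 : residue A ⟨d⁻¹, hdinv⟩ = (residue A ⟨d, hd⟩)⁻¹ := by
    apply eq_inv_of_mul_eq_one_left
    rw [← map_mul]
    have : (⟨d⁻¹, hdinv⟩ : A) * ⟨d, hd⟩ = 1 := Subtype.ext (inv_mul_cancel₀ hd0)
    rw [this, map_one]
  rw [h4]
  exact IsValueAt.inv h2 hres

/-- **Uniqueness of the reduction** (the residue field is infinite). -/
theorem IsRed.unique (ha1 : A.valuation C.thick < A.valuation a) (ha2 : A.valuation a < 1)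
    {y : F} {yb yb' : RatFunc k} (h : IsRed C a y yb) (h' : IsRed C a y yb') : yb = yb' := by
  classical
  by_contra hne
  have hsub : yb - yb' ≠ 0 := sub_ne_zero.mpr hne
  obtain ⟨E, hE⟩ := h
  obtain ⟨E', hE'⟩ := h'
  have hfin : (({0} : Set k) ∪ E ∪ E' ∪ {cb : k | 0 < (placeAt k cb).ord (yb - yb')}).Finite :=
    (((Set.finite_singleton 0).union E.finite_toSet).union E'.finite_toSet).union
      (finite_zeros hsub)
  obtain ⟨cb, hcb⟩ := hfin.exists_notMem (s := _)
  simp only [Set.mem_union, Set.mem_singleton_iff, Finset.mem_coe, Set.mem_ofPred_eq, not_or,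
    not_lt] at hcb
  obtain ⟨⟨⟨hcb0, hcbE⟩, hcbE'⟩, hord⟩ := hcb
  obtain ⟨P, hP, hv, hub⟩ := exists_circle_point C ha1 ha2 cb hcb0
  obtain ⟨d, hd, h1, h2⟩ := hE P hP hv (by rw [hub]; exact hcbE)
  obtain ⟨d', hd', h1', h2'⟩ := hE' P hP hv (by rw [hub]; exact hcbE')
  have hdd : d = d' := h1.unique h1'
  subst hdd
  have h3 := h2.sub h2'
  rw [sub_self, hub, isValueAt_zero_iff, adicValuation_lt_one_iff] at h3
  rcases h3 with h3 | h3
  · exact hsub h3
  · exact absurd h3 (not_lt.mpr hord)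

omit [IsAlgClosed (ResidueField A)] in
theorem gauge_ne_zero {C : AnnulusCore A T} (ha1 : A.valuation C.thick < A.valuation a) :
    a ≠ 0 := by
  rintro rfl
  rw [map_zero] at ha1
  exact not_lt_zero ha1

/-- A function with nonzero reduction is nonzero. -/
theorem IsRed.ne_zero (ha1 : A.valuation C.thick < A.valuation a) (ha2 : A.valuation a < 1)
    {z : F} {zb : RatFunc k} (h : IsRed C a z zb) (hzb : zb ≠ 0) : z ≠ 0 := by
  rintro rfl
  exact hzb (h.unique ha1 ha2 isRed_zero)

/-! ### constants times circle units; the key lemma -/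

/-- `y` is a nonzero constant times a function with nonzero reduction on the circle. -/
def IsGen (C : AnnulusCore A T) (a : K) (y : F) : Prop :=
  ∃ (γ : K) (z : F) (zb : RatFunc k), γ ≠ 0 ∧ zb ≠ 0 ∧ IsRed C a z zb ∧ y = γ • z

theorem IsGen.ne_zero (ha1 : A.valuation C.thick < A.valuation a) (ha2 : A.valuation a < 1)
    {y : F} (h : IsGen C a y) : y ≠ 0 := by
  obtain ⟨γ, z, zb, hγ, hzb, hz, rfl⟩ := h
  exact smul_ne_zero hγ (hz.ne_zero ha1 ha2 hzb)

theorem IsGen.mul {y y' : F} (h : IsGen C a y) (h' : IsGen C a y') : IsGen C a (y * y') := by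
  obtain ⟨γ, z, zb, hγ, hzb, hz, rfl⟩ := h
  obtain ⟨γ', z', zb', hγ', hzb', hz', rfl⟩ := h'
  exact ⟨γ * γ', z * z', zb * zb', mul_ne_zero hγ hγ', mul_ne_zero hzb hzb', hz.mul hz',
    by rw [smul_mul_smul_comm]⟩

theorem IsGen.inv {y : F} (h : IsGen C a y) : IsGen C a y⁻¹ := by
  obtain ⟨γ, z, zb, hγ, hzb, hz, rfl⟩ := h
  refine ⟨γ⁻¹, z⁻¹, zb⁻¹, inv_ne_zero hγ, inv_ne_zero hzb, hz.inv hzb, ?_⟩
  rw [Algebra.smul_def, Algebra.smul_def, mul_inv, map_inv₀]

theorem isGen_one : IsGen C a (1 : F) :=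
  ⟨1, 1, 1, one_ne_zero, one_ne_zero, isRed_one, by rw [one_smul]⟩

theorem IsGen.pow {y : F} (h : IsGen C a y) (n : ℕ) : IsGen C a (y ^ n) := by
  induction n with
  | zero => rw [pow_zero]; exact isGen_one
  | succ n ih => rw [pow_succ]; exact ih.mul h

theorem IsGen.zpow {y : F} (h : IsGen C a y) (n : ℤ) : IsGen C a (y ^ n) := by
  cases n with
  | ofNat n => rw [Int.ofNat_eq_natCast, zpow_natCast]; exact h.pow n
  | negSucc n => rw [zpow_negSucc]; exact (h.pow (n + 1)).inv

theorem IsGen.prod {ι : Type*} (s : Finset ι) (f : ι → F) (h : ∀ i ∈ s, IsGen C a (f i)) :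
    IsGen C a (∏ i ∈ s, f i) := by
  classical
  induction s using Finset.induction_on with
  | empty => rw [Finset.prod_empty]; exact isGen_one
  | insert i s hi ih =>
    rw [Finset.prod_insert hi]
    exact (h i (Finset.mem_insert_self i s)).mul
      (ih fun j hj => h j (Finset.mem_insert_of_mem hj))

theorem isGen_const {c : K} (hc : c ≠ 0) : IsGen C a (algebraMap K F c) :=
  ⟨c, 1, 1, hc, one_ne_zero, isRed_one, by rw [Algebra.smul_def, mul_one]⟩

theorem IsGen.smul {y : F} (h : IsGen C a y) {c : K} (hc : c ≠ 0) : IsGen C a (c • y) := by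
  rw [Algebra.smul_def]
  exact (isGen_const hc).mul h

theorem isGen_tubeUnit {ε : F} (hε : TubeUnit A T ε) : IsGen C a ε :=
  ⟨1, ε, 1, one_ne_zero, one_ne_zero, isRed_tubeUnit hε, by rw [one_smul]⟩

theorem isGen_coord (ha : a ≠ 0) : IsGen C a C.u :=
  ⟨a, a⁻¹ • C.u, RatFunc.X, ha, RatFunc.X_ne_zero, isRed_coord ha, by
    rw [smul_smul, mul_inv_cancel₀ ha, one_smul]⟩

omit [IsAlgClosed (ResidueField A)] in
theorem ratFunc_X_sub_C_ne_zero (b : k) : (RatFunc.X : RatFunc k) - RatFunc.C b ≠ 0 := by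
  have h : (RatFunc.X : RatFunc k) - RatFunc.C b =
      algebraMap (Polynomial k) (RatFunc k) (Polynomial.X - Polynomial.C b) := by
    rw [map_sub, RatFunc.algebraMap_X, RatFunc.algebraMap_C]
  rw [h]
  exact (map_ne_zero_iff _ (RatFunc.algebraMap_injective k)).mpr (Polynomial.X_sub_C_ne_zero b)

/-- `u - c` is a constant times a circle unit, for every constant `c ≠ 0` of the annulus…
in fact for every `c : K`. -/
theorem isGen_coord_sub (ha : a ≠ 0) (c : K) : IsGen C a (C.u - algebraMap K F c) := by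
  rcases le_or_gt (A.valuation c) (A.valuation a) with hle | hgt
  · -- `u - c = a • (u/a - c/a)`, reduction `X - \bar{c/a}`
    have hca : c / a ∈ A := by
      rw [← A.valuation_le_one_iff, map_div₀]
      exact div_le_one_of_le₀ hle zero_le
    refine ⟨a, a⁻¹ • C.u - algebraMap K F (c / a),
      RatFunc.X - RatFunc.C (residue A ⟨c / a, hca⟩), ha, ratFunc_X_sub_C_ne_zero _, ?_, ?_⟩
    · have h := (isRed_coord (C := C) ha).add (isRed_const (C := C) (a := a) hca).neg
      rwa [← sub_eq_add_neg, ← sub_eq_add_neg, RatFunc.algebraMap_eq_C] at h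
    · rw [smul_sub, smul_smul, mul_inv_cancel₀ ha, one_smul, Algebra.smul_def, ← map_mul,
        mul_div_cancel₀ _ ha]
  · -- `u - c = (-c) • (1 - (a/c) • (u/a))`, reduction `1`
    have hc0 : c ≠ 0 := by
      rintro rfl
      rw [map_zero] at hgt
      exact not_lt_zero hgt
    have hac : A.valuation (a / c) < 1 := by
      rw [map_div₀]
      exact (div_lt_one₀ (lt_of_le_of_lt zero_le hgt)).mpr hgt
    have hac' : a / c ∈ A := (A.valuation_le_one_iff _).mp hac.le
    have hres : residue A ⟨a / c, hac'⟩ = 0 := by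
      rw [residue_eq_zero_iff]
      exact (A.valuation_lt_one_iff _).mpr hac
    refine ⟨-c, 1 - algebraMap K F (a / c) * (a⁻¹ • C.u), 1, neg_ne_zero.mpr hc0, one_ne_zero,
      ?_, ?_⟩
    · have h := (isRed_one (C := C) (a := a)).add
        ((isRed_const (C := C) (a := a) hac').mul (isRed_coord (C := C) ha)).neg
      rw [hres, map_zero, zero_mul, neg_zero, add_zero, ← sub_eq_add_neg] at h
      exact h
    · rw [Algebra.smul_def, Algebra.smul_def, ← mul_assoc (algebraMap K F (a / c)), ← map_mul,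
        div_mul_eq_mul_div, mul_inv_cancel₀ ha, map_neg, one_div]
      have hcF : algebraMap K F c ≠ 0 := (map_ne_zero _).mpr hc0
      rw [map_inv₀]
      field_simp
      ring

/-- **Key lemma.** Every nonzero function is a nonzero constant times a function with nonzero
reduction on the circle of gauge `a`. -/
theorem isGen_of_ne_zero (ha1 : A.valuation C.thick < A.valuation a) (ha2 : A.valuation a < 1)
    {y : F} (hy : y ≠ 0) : IsGen C a y := by
  have ha : a ≠ 0 := gauge_ne_zero ha1
  obtain ⟨S, n, b, c, -, hc, hε⟩ := C.factor y hy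
  set g : F := c • (C.u ^ b * ∏ Q ∈ S, (C.u - algebraMap K F (evalAt Q C.u)) ^ n Q) with hg
  have hgen : IsGen C a g :=
    (((isGen_coord ha).zpow b).mul
      (IsGen.prod S _ fun Q _ => (isGen_coord_sub ha _).zpow (n Q))).smul hc
  have hg0 : g ≠ 0 := hgen.ne_zero ha1 ha2
  have hy' : y = (y * g⁻¹) * g := by
    rw [mul_assoc, inv_mul_cancel₀ hg0, mul_one]
  rw [hy']
  exact (isGen_tubeUnit hε).mul hgen

/-! ### the valuation ring of the circle and its residue map -/

section Ring

variable (C) (a)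
variable (ha1 : A.valuation C.thick < A.valuation a) (ha2 : A.valuation a < 1)

include ha1 ha2

/-- A nonzero function or its inverse has a reduction on the circle. -/
theorem exists_isRed_or_inv {y : F} (hy : y ≠ 0) :
    (∃ yb, IsRed C a y yb) ∨ (∃ yb, IsRed C a y⁻¹ yb) := by
  obtain ⟨γ, z, zb, hγ, hzb, hz, rfl⟩ := isGen_of_ne_zero ha1 ha2 hy
  rcases le_or_gt (A.valuation γ) 1 with hle | hgt
  · left
    have hγA : γ ∈ A := (A.valuation_le_one_iff _).mp hle
    rw [Algebra.smul_def]
    exact ⟨_, (isRed_const hγA).mul hz⟩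
  · right
    have hγA : γ⁻¹ ∈ A := by
      rw [← A.valuation_le_one_iff, map_inv₀]
      exact inv_le_one_of_one_le₀ hgt.le
    rw [Algebra.smul_def, mul_inv, ← map_inv₀]
    exact ⟨_, (isRed_const hγA).mul (hz.inv hzb)⟩

/-- **The valuation ring of the circle of gauge `a`**: the functions that have a reduction on the
circle `|u(P)| = |a|` (equivalently: with integral values at all but finitely many residue classes
of circle points). -/
def circleRing : ValuationSubring F where
  carrier := {y | ∃ yb, IsRed C a y yb}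
  mul_mem' := fun ⟨yb, h⟩ ⟨yb', h'⟩ => ⟨yb * yb', h.mul h'⟩
  one_mem' := ⟨1, isRed_one⟩
  add_mem' := fun ⟨yb, h⟩ ⟨yb', h'⟩ => ⟨yb + yb', h.add h'⟩
  zero_mem' := ⟨0, isRed_zero⟩
  neg_mem' := fun ⟨yb, h⟩ => ⟨-yb, h.neg⟩
  mem_or_inv_mem' := fun y => by
    rcases eq_or_ne y 0 with rfl | hy
    · exact Or.inl ⟨0, isRed_zero⟩
    · exact exists_isRed_or_inv C a ha1 ha2 hy

theorem mem_circleRing_iff {y : F} : y ∈ circleRing C a ha1 ha2 ↔ ∃ yb, IsRed C a y yb := Iff.rfl

/-- The reduction of a function of the circle ring, as a function. -/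
def circleResFun (y : circleRing C a ha1 ha2) : RatFunc k := Classical.choose y.2

theorem isRed_circleResFun (y : circleRing C a ha1 ha2) :
    IsRed C a (y : F) (circleResFun C a ha1 ha2 y) := Classical.choose_spec y.2

theorem circleResFun_eq {y : circleRing C a ha1 ha2} {yb : RatFunc k} (h : IsRed C a (y : F) yb) :
    circleResFun C a ha1 ha2 y = yb :=
  (isRed_circleResFun C a ha1 ha2 y).unique ha1 ha2 h

/-- **The residue map of the circle of gauge `a`** onto `k(X)`, `X` the reduction of `u / a`. -/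
def circleRes : circleRing C a ha1 ha2 →+* RatFunc k where
  toFun := circleResFun C a ha1 ha2
  map_one' := circleResFun_eq C a ha1 ha2 (y := 1) isRed_one
  map_mul' x y := circleResFun_eq C a ha1 ha2 (y := x * y)
    ((isRed_circleResFun C a ha1 ha2 x).mul (isRed_circleResFun C a ha1 ha2 y))
  map_zero' := circleResFun_eq C a ha1 ha2 (y := 0) isRed_zero
  map_add' x y := circleResFun_eq C a ha1 ha2 (y := x + y)
    ((isRed_circleResFun C a ha1 ha2 x).add (isRed_circleResFun C a ha1 ha2 y))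

theorem isRed_circleRes (y : circleRing C a ha1 ha2) :
    IsRed C a (y : F) (circleRes C a ha1 ha2 y) := isRed_circleResFun C a ha1 ha2 y

theorem circleRes_eq {y : circleRing C a ha1 ha2} {yb : RatFunc k} (h : IsRed C a (y : F) yb) :
    circleRes C a ha1 ha2 y = yb := circleResFun_eq C a ha1 ha2 h

theorem circleRes_mk {y : F} {yb : RatFunc k} (h : IsRed C a y yb) :
    circleRes C a ha1 ha2 ⟨y, ⟨yb, h⟩⟩ = yb := circleRes_eq C a ha1 ha2 h

end Ring

end Red

end Fermat.Agent.BR.Circle
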