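import Mathlib
import Fermat.Agent.BR.DVRLattice

/-!
# Program B (BADRED), node (C6): assembly of `approx` for a component from unramified forms

Abstract assembly behind the best-approximation axiom `approx` of `SS.SemistableSetup` for the
exceptional components `circleRing a` (and for any other unit ball of the same kind).

`B : ResBall A π` is an abstract unit ball (`O ⊆ F`, `res : O →+* R`).  The three inputs are

* `CoordBounded B` — the `K`-level coordinate bound (shape of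
  `EvalBound.exists_bound_of_eval`): for a `K`-independent family `w`, the coordinates of the
  elements of `O ∩ span w` are bounded by one constant;
* `Red.IsRankOne A`;
* a cover of `F` by *full-residue unramified forms* `IsUnramForm B K' F' ϖ`: `K'` a discretely
  valued subfield of `K` with uniformizer `ϖ` and with the same residue field as `A`
  (`fullRes`), `F' ⊇ K'` a subfield of `F` on which the value group of the unit ball is
  generated by `ϖ` (`unit`: every nonzero element of `F'` is a power of `ϖ` times an element of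
  `O` with nonzero residue).

Output: `approx_of_unramForms : B.Approx`, via `DVRLattice.approx_of_fields`.
-/

set_option autoImplicit false

namespace Fermat.Agent.BR.ApproxAssembly

open Fermat.Agent.Red Fermat.Agent.BR Fermat.Agent.BR.DVRLattice

variable {K F k R : Type*} [Field K] [Field F] [Algebra K F] [Field k] [CommRing R]
  [Algebra k R] {A : ValuationSubring K} {π : A →+* k}

/-- The `K`-level coordinate bound: for every `K`-independent family `w` the coordinates of the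
elements of `O ∩ span w` are bounded by a constant. -/
def CoordBounded (B : ResBall (F := F) (R := R) A π) : Prop :=
  ∀ {n : ℕ} (w : Fin n → F), LinearIndependent K w →
    ∃ C : K, C ≠ 0 ∧ ∀ c : Fin n → K, (∑ j, c j • w j) ∈ B.O →
      ∀ j, A.valuation (c j) ≤ A.valuation C

/-- A full-residue unramified form of the unit ball `B`. -/
structure IsUnramForm (B : ResBall (F := F) (R := R) A π) (K' : Subfield K) (F' : Subfield F)
    (ϖ : K) : Prop where
  dvr : IsDVRSubfield A K' ϖ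
  fullRes : ∀ (a : K) (ha : a ∈ A), ∃ (a' : K) (ha' : a' ∈ A), a' ∈ K' ∧ π ⟨a', ha'⟩ = π ⟨a, ha⟩
  algebraMap_mem : ∀ c ∈ K', algebraMap K F c ∈ F'
  unit : ∀ x ∈ F', x ≠ 0 → ∃ n : ℤ, ϖ ^ n • x ∈ B.O ∧ B.resF (ϖ ^ n • x) ≠ 0

section

variable {B : ResBall (F := F) (R := R) A π} {K' : Subfield K} {F' : Subfield F} {ϖ : K}

theorem zpow_mem_of_nonneg (hϖ : ϖ ∈ A) {n : ℤ} (hn : 0 ≤ n) : ϖ ^ n ∈ A := by
  obtain ⟨m, rfl⟩ := Int.eq_ofNat_of_zero_le hn
  rw [zpow_natCast]
  exact pow_mem hϖ m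

theorem IsUnramForm.abs (h : IsUnramForm B K' F' ϖ) {x : F} (hx : x ∈ F') :
    ∃ N : ℕ, ϖ ^ N • x ∈ B.O := by
  by_cases hx0 : x = 0
  · exact ⟨0, by rw [hx0, smul_zero]; exact B.O.zero_mem⟩
  obtain ⟨n, hn, -⟩ := h.unit x hx hx0
  have hϖ0 : ϖ ≠ 0 := h.dvr.isModulus.ne_zero
  refine ⟨n.toNat, ?_⟩
  have h1 : (ϖ ^ n.toNat : K) = ϖ ^ ((n.toNat : ℤ) - n) * ϖ ^ n := by
    rw [← zpow_add₀ hϖ0, sub_add_cancel, zpow_natCast]
  rw [h1, mul_smul]
  exact B.smul_mem (zpow_mem_of_nonneg h.dvr.isModulus.mem (by have := Int.self_le_toNat n; omega)) hn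

theorem IsUnramForm.unr (h : IsUnramForm B K' F' ϖ) {x : F} (hx : x ∈ F') (hxO : x ∈ B.O)
    (hres : B.resF x = 0) : ∃ z ∈ B.O, x = ϖ • z := by
  by_cases hx0 : x = 0
  · exact ⟨0, B.O.zero_mem, by rw [hx0, smul_zero]⟩
  obtain ⟨n, hn, hne⟩ := h.unit x hx hx0
  have hϖ0 : ϖ ≠ 0 := h.dvr.isModulus.ne_zero
  have hϖA : ϖ ∈ A := h.dvr.isModulus.mem
  have hneg : n < 0 := by
    by_contra hnn
    rw [not_lt] at hnn
    apply hne
    rw [B.resF_smul (zpow_mem_of_nonneg hϖA hnn) hxO, hres, smul_zero]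
  refine ⟨ϖ ^ (-n - 1) • (ϖ ^ n • x), B.smul_mem (zpow_mem_of_nonneg hϖA (by omega)) hn, ?_⟩
  rw [smul_smul, smul_smul]
  have h1 : ϖ * ϖ ^ (-n - 1) * ϖ ^ n = 1 := by
    rw [mul_assoc, ← zpow_add₀ hϖ0, ← zpow_one_add₀ hϖ0]
    have : (1 + (-n - 1 + n) : ℤ) = 0 := by ring
    rw [this, zpow_zero]
  rw [h1, one_smul]

theorem IsUnramForm.indep (h : IsUnramForm B K' F' ϖ) {m : ℕ} (u : Fin m → F)
    (hu : ∀ (a : Fin m → K) (ha : ∀ j, a j ∈ A), (∀ j, a j ∈ K') →
      ∑ j, π ⟨a j, ha j⟩ • B.resF (u j) = 0 → ∀ j, π ⟨a j, ha j⟩ = 0)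
    (hπ : Function.Surjective π) :
    LinearIndependent k fun j => B.resF (u j) := by
  rw [Fintype.linearIndependent_iff]
  intro g hg j
  have hch : ∀ j, ∃ (a' : K) (ha' : a' ∈ A), a' ∈ K' ∧ π ⟨a', ha'⟩ = g j := by
    intro j
    obtain ⟨⟨a, ha⟩, hag⟩ := hπ (g j)
    obtain ⟨a', ha', ha'K, he⟩ := h.fullRes a ha
    exact ⟨a', ha', ha'K, he.trans hag⟩
  choose a ha haK hag using hch
  have := hu a ha haK (by simpa only [hag] using hg) j
  rw [hag] at this
  exact this

theorem IsUnramForm.isDVRForm (h : IsUnramForm B K' F' ϖ) (hπ : Function.Surjective π) :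
    IsDVRForm B K' F' ϖ where
  dvr := h.dvr
  algebraMap_mem := h.algebraMap_mem
  abs := fun _ hx => h.abs hx
  unr := fun _ hx hxO hres => h.unr hx hxO hres
  indep := fun u _ _ hu => h.indep u hu hπ

end

/-- rank one: powers of a modulus absorb every constant. -/
theorem exists_pow_mul_mem_of_isRankOne (hA : IsRankOne A) {ϖ : K} (hϖ : IsModulus A ϖ) (C : K) :
    ∃ N : ℕ, ϖ ^ N * C ∈ A := by
  by_cases hC : C ∈ A
  · exact ⟨0, by simpa using hC⟩
  have hCi : C⁻¹ ∈ A := (A.mem_or_inv_mem C).resolve_left hC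
  have hC0 : C ≠ 0 := by
    rintro rfl
    exact hC A.zero_mem
  have hnu : ¬ IsUnit (⟨ϖ, hϖ.mem⟩ : A) := by
    intro hu
    obtain ⟨⟨b, hb⟩, hbu⟩ := hu.exists_right_inv
    have hb' : ϖ * b = 1 := congrArg Subtype.val hbu
    have : ϖ⁻¹ = b := inv_eq_of_mul_eq_one_right hb'
    exact hϖ.inv_not_mem (this ▸ hb)
  obtain ⟨N, ⟨d, hd⟩, hdvd⟩ := hA ⟨ϖ, hϖ.mem⟩ hnu ⟨C⁻¹, hCi⟩
    (by intro h0; exact inv_ne_zero hC0 (congrArg Subtype.val h0))
  refine ⟨N, ?_⟩
  have h1 : ϖ ^ N = C⁻¹ * d := by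
    have := congrArg Subtype.val hdvd
    simpa using this
  rw [h1, mul_comm C⁻¹, mul_assoc, inv_mul_cancel₀ hC0, mul_one]
  exact hd

/-- **(C6), abstract assembly.**  Best approximation for a unit ball which is bounded in
coordinates over `K` and covered by full-residue unramified forms. -/
theorem approx_of_unramForms {B : ResBall (F := F) (R := R) A π} (hπ : Function.Surjective π)
    (hA : IsRankOne A) (hbdd : CoordBounded B)
    (hcov : ∀ s : Finset F, ∃ (K' : Subfield K) (F' : Subfield F) (ϖ : K),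
      IsUnramForm B K' F' ϖ ∧ ∀ x ∈ s, x ∈ F') :
    B.Approx := by
  classical
  refine approx_of_fields (B := B) ?_
  intro n w hli
  obtain ⟨K', F', ϖ, hF, hs⟩ := hcov (Finset.univ.image w)
  refine ⟨K', F', ϖ, hF.isDVRForm hπ, fun i => hs _ (Finset.mem_image_of_mem w (Finset.mem_univ i)),
    ?_⟩
  obtain ⟨C, -, hC⟩ := hbdd w hli
  obtain ⟨N, hN⟩ := exists_pow_mul_mem_of_isRankOne hA hF.dvr.isModulus C
  refine ⟨N, fun c _ hcO i => ?_⟩
  have h1 := hC c hcO i
  rw [← A.valuation_le_one_iff] at hN ⊢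
  rw [map_mul] at hN ⊢
  exact le_trans (mul_le_mul' le_rfl h1) hN

end Fermat.Agent.BR.ApproxAssembly
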