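import Mathlib
import Fermat.Agent.BR.Circle.Defs
import Fermat.Agent.BR.Circle.ApproxAssembly

/-!
# Program B (BADRED), node (C6): `approx` for the circle ring

`circleBall C a` : the circle ring `circleRing C a` with its residue map `circleRes C a` as an
abstract unit ball (`ResBall`), and the best-approximation property in the exact shape of the field
`approx` of `Refine.ChainFamily` / `SS.SemistableSetup`, from

* `ApproxAssembly.CoordBounded (circleBall C a)` (maximum principle on the circle, `Circle/Bound`),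
* a cover of `F` by full-residue unramified forms (`IsCircleForm`: the generic value on the circle
  of every nonzero element of `F'` is a power of the uniformizer `ϖ` of `K'`).
-/

set_option autoImplicit false

namespace Fermat.Agent.BR.CircleApprox

open AlgebraicCurve IsLocalRing Fermat.Agent.Red Fermat.Agent.BR Fermat.Agent.BR.DVRLattice
  Fermat.Agent.BR.ApproxAssembly Fermat.Agent.BR.Circle

variable {K F : Type*} [Field K] [Field F] [Algebra K F]
variable {A : ValuationSubring K} [IsAlgClosed (ResidueField A)] {T : Set (Place K F)}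
  (C : AnnulusCore A T) (a : K)
  (ha1 : A.valuation C.thick < A.valuation a) (ha2 : A.valuation a < 1)

local notation "k" => ResidueField A

omit [IsAlgClosed (ResidueField A)] in
theorem residue_eq_zero_of_inv_not_mem {c : K} (hc : c ∈ A) (hci : c⁻¹ ∉ A) :
    residue A ⟨c, hc⟩ = 0 := by
  rw [residue_eq_zero_iff, mem_maximalIdeal, mem_nonunits_iff]
  intro hu
  obtain ⟨⟨b, hb⟩, hbu⟩ := hu.exists_right_inv
  have hb' : c * b = 1 := congrArg Subtype.val hbu
  exact hci ((inv_eq_of_mul_eq_one_right hb') ▸ hb)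

/-- The circle ring with its residue map as an abstract unit ball. -/
noncomputable def circleBall : ResBall (F := F) (R := RatFunc k) A (residue A) where
  O := (circleRing C a ha1 ha2).toSubring
  res := circleRes C a ha1 ha2
  algebraMap_mem := fun _ hc => ⟨_, isRed_const hc⟩
  res_algebraMap := fun _ hc => circleRes_eq C a ha1 ha2 (isRed_const hc)
  pi_eq_zero := fun _ hc hci => residue_eq_zero_of_inv_not_mem hc hci

theorem mem_circleBall_iff {y : F} :
    y ∈ (circleBall C a ha1 ha2).O ↔ y ∈ circleRing C a ha1 ha2 := Iff.rfl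

theorem circleBall_resF_of_isRed {y : F} {yb : RatFunc k} (h : IsRed C a y yb) :
    (circleBall C a ha1 ha2).resF y = yb := by
  have hy : y ∈ (circleBall C a ha1 ha2).O := ⟨yb, h⟩
  rw [ResBall.resF_of_mem _ hy]
  exact circleRes_eq C a ha1 ha2 h

/-- A full-residue unramified form for the circle of gauge `a`, in terms of reductions: the
generic value on the circle of every nonzero element of `F'` is a power of `ϖ`. -/
structure IsCircleForm (K' : Subfield K) (F' : Subfield F) (ϖ : K) : Prop where
  dvr : IsDVRSubfield A K' ϖ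
  fullRes : ∀ (c : K) (hc : c ∈ A), ∃ (c' : K) (hc' : c' ∈ A), c' ∈ K' ∧
    residue A ⟨c', hc'⟩ = residue A ⟨c, hc⟩
  algebraMap_mem : ∀ c ∈ K', algebraMap K F c ∈ F'
  unit : ∀ x ∈ F', x ≠ 0 → ∃ (n : ℤ) (zb : RatFunc k), zb ≠ 0 ∧ IsRed C a (ϖ ^ n • x) zb

variable {C a}

theorem IsCircleForm.isUnramForm {K' : Subfield K} {F' : Subfield F} {ϖ : K}
    (h : IsCircleForm C a K' F' ϖ) : IsUnramForm (circleBall C a ha1 ha2) K' F' ϖ where
  dvr := h.dvr
  fullRes := h.fullRes
  algebraMap_mem := h.algebraMap_mem
  unit := fun x hx hx0 => by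
    obtain ⟨n, zb, hzb, hred⟩ := h.unit x hx hx0
    refine ⟨n, ⟨zb, hred⟩, ?_⟩
    rw [circleBall_resF_of_isRed C a ha1 ha2 hred]
    exact hzb

variable (C a)

/-- **(C6)** Best approximation for the circle ring, in the exact shape of the field `approx` of
`Refine.ChainFamily` / `SS.SemistableSetup`. -/
theorem circleRing_approx (hA : IsRankOne A) (hbdd : CoordBounded (circleBall C a ha1 ha2))
    (hcov : ∀ s : Finset F, ∃ (K' : Subfield K) (F' : Subfield F) (ϖ : K),
      IsCircleForm C a K' F' ϖ ∧ ∀ x ∈ s, x ∈ F') :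
    ∀ V : Submodule K F, Module.Finite K V → ∀ y : F, y ∉ V →
      ∃ w ∈ V, ∃ c : K, c ≠ 0 ∧ ∃ h : c • (y - w) ∈ circleRing C a ha1 ha2,
        ∀ z : circleRing C a ha1 ha2, (z : F) ∈ V →
          circleRes C a ha1 ha2 z ≠ circleRes C a ha1 ha2 ⟨c • (y - w), h⟩ := by
  have happ : (circleBall C a ha1 ha2).Approx :=
    approx_of_unramForms residue_surjective hA hbdd (fun s => by
      obtain ⟨K', F', ϖ, hF, hs⟩ := hcov s
      exact ⟨K', F', ϖ, hF.isUnramForm ha1 ha2, hs⟩)
  intro V hV y hy
  obtain ⟨w, hw, c, hc, h, hne⟩ := happ V hV y hy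
  exact ⟨w, hw, c, hc, h, fun z hz => hne z hz⟩

end Fermat.Agent.BR.CircleApprox
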