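/-
Program B, node B7.5 (C3): the per-component axioms of `SS.SemistableSetup` for the valuation ring
`circleRing C a` of a circle and its residue map `circleRes C a` (`BR/Circle/Defs.lean`).

* `circleRes_eq_zero_iff` : `circleRes x = 0 ↔ ¬ IsUnit x`;
* `algebraMap_mem_circleRing_iff`, `circleRes_algebraMap` : constants;
* `circleRes_coord` : `circleRes (u / a) = X`;
* `circleRes_surjective`;
* `coord_mem_circleRing_iff`, `circleRing_ne` : circles of different radii have different rings.
-/
import Mathlib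
import Fermat.Agent.BR.Circle.Defs

set_option autoImplicit false

noncomputable section

namespace Fermat.Agent.BR.Circle

open AlgebraicCurve IsLocalRing Fermat.Agent.Red Fermat.Agent.BR.InertiaRed
  Fermat.Agent.BR.AnnulusRed Fermat.Agent.BR.P1 Fermat.Agent.BR.Centre

variable {K F : Type*} [Field K] [Field F] [Algebra K F]
variable {A : ValuationSubring K} [IsAlgClosed (ResidueField A)] {T : Set (Place K F)}
  (C : AnnulusCore A T) (a : K)
  (ha1 : A.valuation C.thick < A.valuation a) (ha2 : A.valuation a < 1)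

local notation "k" => ResidueField A

include ha1 ha2

/-- There is a circle point whose residue class avoids a given finite set. -/
theorem exists_generic_point (E : Finset k) :
    ∃ P ∈ T, A.valuation (evalAt P C.u) = A.valuation a ∧ ubar A C.u a P ∉ E := by
  classical
  have hfin : (({0} : Set k) ∪ E).Finite := (Set.finite_singleton 0).union E.finite_toSet
  obtain ⟨cb, hcb⟩ := hfin.exists_notMem (s := _)
  simp only [Set.mem_union, Set.mem_singleton_iff, Finset.mem_coe, not_or] at hcb
  obtain ⟨P, hP, hv, hub⟩ := exists_circle_point C ha1 ha2 cb hcb.1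
  exact ⟨P, hP, hv, by rw [hub]; exact hcb.2⟩

theorem algebraMap_mem_circleRing_iff (c : K) :
    algebraMap K F c ∈ circleRing C a ha1 ha2 ↔ c ∈ A := by
  constructor
  · rintro ⟨yb, E, hE⟩
    obtain ⟨P, hP, hv, hn⟩ := exists_generic_point C a ha1 ha2 E
    obtain ⟨d, hd, h1, -⟩ := hE P hP hv hn
    rw [(isValueAt_algebraMap P c).unique h1]
    exact hd
  · intro hc
    exact ⟨_, isRed_const hc⟩

theorem circleRes_algebraMap (c : K) (hc : c ∈ A)
    (hc' : algebraMap K F c ∈ circleRing C a ha1 ha2) :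
    circleRes C a ha1 ha2 ⟨algebraMap K F c, hc'⟩ =
      algebraMap k (RatFunc k) (residue A ⟨c, hc⟩) :=
  circleRes_eq C a ha1 ha2 (isRed_const hc)

theorem coord_mem_circleRing : a⁻¹ • C.u ∈ circleRing C a ha1 ha2 :=
  ⟨_, isRed_coord (gauge_ne_zero ha1)⟩

theorem circleRes_coord :
    circleRes C a ha1 ha2 ⟨a⁻¹ • C.u, coord_mem_circleRing C a ha1 ha2⟩ = RatFunc.X :=
  circleRes_eq C a ha1 ha2 (isRed_coord (gauge_ne_zero ha1))

theorem circleRes_eq_zero_iff (x : circleRing C a ha1 ha2) :
    circleRes C a ha1 ha2 x = 0 ↔ ¬ IsUnit x := by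
  constructor
  · intro h0 hu
    obtain ⟨x', hx'⟩ := hu.exists_right_inv
    have := congrArg (circleRes C a ha1 ha2) hx'
    rw [map_mul, h0, zero_mul, map_one] at this
    exact zero_ne_one this
  · intro hnu
    rcases eq_or_ne (x : F) 0 with hx0 | hx0
    · have : x = 0 := Subtype.ext hx0
      rw [this, map_zero]
    · obtain ⟨γ, z, zb, hγ, hzb, hz, hxz⟩ := isGen_of_ne_zero (C := C) ha1 ha2 hx0
      rcases lt_or_ge (A.valuation γ) 1 with hlt | hge
      · have hγA : γ ∈ A := (A.valuation_le_one_iff _).mp hlt.le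
        have hres : residue A ⟨γ, hγA⟩ = 0 := by
          rw [residue_eq_zero_iff]
          exact (A.valuation_lt_one_iff _).mpr hlt
        have hred : IsRed C a (x : F) 0 := by
          have h := (isRed_const (C := C) (a := a) hγA).mul hz
          rwa [hres, map_zero, zero_mul, ← Algebra.smul_def, ← hxz] at h
        exact circleRes_eq C a ha1 ha2 hred
      · exfalso
        apply hnu
        have hγA : γ⁻¹ ∈ A := by
          rw [← A.valuation_le_one_iff, map_inv₀]
          exact inv_le_one_of_one_le₀ hge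
        have hinv : (x : F)⁻¹ ∈ circleRing C a ha1 ha2 := by
          rw [hxz, Algebra.smul_def, mul_inv, ← map_inv₀]
          exact ⟨_, (isRed_const hγA).mul (hz.inv hzb)⟩
        exact IsUnit.of_mul_eq_one (⟨(x : F)⁻¹, hinv⟩ : circleRing C a ha1 ha2)
          (Subtype.ext (mul_inv_cancel₀ hx0))

theorem circleRes_surjective : Function.Surjective (circleRes C a ha1 ha2) := by
  have hpoly : ∀ p : Polynomial k, ∃ y, circleRes C a ha1 ha2 y =
      algebraMap (Polynomial k) (RatFunc k) p := by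
    intro p
    induction p using Polynomial.induction_on with
    | C cb =>
      obtain ⟨c, rfl⟩ := residue_surjective cb
      refine ⟨⟨algebraMap K F c, (algebraMap_mem_circleRing_iff C a ha1 ha2 _).mpr c.2⟩, ?_⟩
      rw [circleRes_algebraMap C a ha1 ha2 (c : K) c.2, RatFunc.algebraMap_C,
        RatFunc.algebraMap_eq_C]
    | add p q hp hq =>
      obtain ⟨y, hy⟩ := hp
      obtain ⟨y', hy'⟩ := hq
      exact ⟨y + y', by rw [map_add, map_add, hy, hy']⟩
    | monomial n cb ih =>
      obtain ⟨y, hy⟩ := ih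
      refine ⟨y * ⟨a⁻¹ • C.u, coord_mem_circleRing C a ha1 ha2⟩, ?_⟩
      rw [map_mul, hy, circleRes_coord, pow_succ, ← mul_assoc, map_mul (algebraMap _ _) _
        Polynomial.X, RatFunc.algebraMap_X]
  intro f
  obtain ⟨yn, hyn⟩ := hpoly f.num
  obtain ⟨yd, hyd⟩ := hpoly f.denom
  have hd0 : circleRes C a ha1 ha2 yd ≠ 0 := by
    rw [hyd]
    exact (map_ne_zero_iff _ (RatFunc.algebraMap_injective k)).mpr f.denom_ne_zero
  have hu : IsUnit yd := by
    by_contra hnu
    exact hd0 ((circleRes_eq_zero_iff C a ha1 ha2 yd).mpr hnu)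
  obtain ⟨yd', hyd'⟩ := hu.exists_right_inv
  refine ⟨yn * yd', ?_⟩
  have h1 : circleRes C a ha1 ha2 yd * circleRes C a ha1 ha2 yd' = 1 := by
    rw [← map_mul, hyd', map_one]
  have h2 : circleRes C a ha1 ha2 yd' = (algebraMap (Polynomial k) (RatFunc k) f.denom)⁻¹ := by
    rw [← hyd]
    exact eq_inv_of_mul_eq_one_right h1
  rw [map_mul, hyn, h2, ← div_eq_mul_inv, RatFunc.num_div_denom]

/-- `u / a` is a unit of the circle ring of gauge `a`. -/
theorem isUnit_coord :
    IsUnit (⟨a⁻¹ • C.u, coord_mem_circleRing C a ha1 ha2⟩ : circleRing C a ha1 ha2) := by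
  by_contra hnu
  have h := (circleRes_eq_zero_iff C a ha1 ha2 _).mpr hnu
  rw [circleRes_coord] at h
  exact RatFunc.X_ne_zero h

theorem coord_inv_mem_circleRing : (a⁻¹ • C.u)⁻¹ ∈ circleRing C a ha1 ha2 :=
  ⟨_, (isRed_coord (gauge_ne_zero ha1)).inv RatFunc.X_ne_zero⟩

omit ha1 ha2 in
theorem coord_ne_zero (C : AnnulusCore A T) (a : K)
    (ha1 : A.valuation C.thick < A.valuation a) (ha2 : A.valuation a < 1) : C.u ≠ 0 :=
  (isGen_coord (C := C) (a := a) (gauge_ne_zero ha1)).ne_zero ha1 ha2

/-- The coordinate `u / a` of the circle of gauge `a` lies in the circle ring of gauge `a'` iff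
`|a'| ≤ |a|`. -/
theorem coord_mem_circleRing_iff (a' : K) (ha1' : A.valuation C.thick < A.valuation a')
    (ha2' : A.valuation a' < 1) :
    a⁻¹ • C.u ∈ circleRing C a' ha1' ha2' ↔ A.valuation a' ≤ A.valuation a := by
  have ha0 : a ≠ 0 := gauge_ne_zero ha1
  have ha0' : a' ≠ 0 := gauge_ne_zero ha1'
  have hu0 : C.u ≠ 0 := coord_ne_zero C a ha1 ha2
  have hw0 : a'⁻¹ • C.u ≠ 0 := smul_ne_zero (inv_ne_zero ha0') hu0
  have e : a⁻¹ • C.u = algebraMap K F (a' / a) * (a'⁻¹ • C.u) := by
    rw [← Algebra.smul_def, smul_smul, div_mul_eq_mul_div, mul_inv_cancel₀ ha0', one_div]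
  have hle : A.valuation a' ≤ A.valuation a ↔ a' / a ∈ A := by
    rw [← A.valuation_le_one_iff, map_div₀,
      div_le_one₀ (zero_lt_iff.mpr ((Valuation.ne_zero_iff _).mpr ha0))]
  rw [hle]
  constructor
  · intro h
    have h2 : algebraMap K F (a' / a) ∈ circleRing C a' ha1' ha2' := by
      have h3 : algebraMap K F (a' / a) = (a⁻¹ • C.u) * (a'⁻¹ • C.u)⁻¹ := by
        rw [e, mul_assoc, mul_inv_cancel₀ hw0, mul_one]
      rw [h3]
      exact (circleRing C a' ha1' ha2').mul_mem _ _ h
        (coord_inv_mem_circleRing C a' ha1' ha2')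
    exact (algebraMap_mem_circleRing_iff C a' ha1' ha2' _).mp h2
  · intro h
    rw [e]
    exact (circleRing C a' ha1' ha2').mul_mem _ _
      ((algebraMap_mem_circleRing_iff C a' ha1' ha2' _).mpr h)
      (coord_mem_circleRing C a' ha1' ha2')

theorem coord_inv_mem_circleRing_iff (a' : K) (ha1' : A.valuation C.thick < A.valuation a')
    (ha2' : A.valuation a' < 1) :
    (a⁻¹ • C.u)⁻¹ ∈ circleRing C a' ha1' ha2' ↔ A.valuation a ≤ A.valuation a' := by
  have ha0 : a ≠ 0 := gauge_ne_zero ha1
  have ha0' : a' ≠ 0 := gauge_ne_zero ha1'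
  have hu0 : C.u ≠ 0 := coord_ne_zero C a ha1 ha2
  have hw0 : a'⁻¹ • C.u ≠ 0 := smul_ne_zero (inv_ne_zero ha0') hu0
  have e : (a⁻¹ • C.u)⁻¹ = algebraMap K F (a / a') * (a'⁻¹ • C.u)⁻¹ := by
    rw [Algebra.smul_def, Algebra.smul_def, mul_inv, mul_inv, ← map_inv₀, ← map_inv₀, inv_inv,
      inv_inv, ← mul_assoc, ← map_mul, div_mul_cancel₀ _ ha0']
  have hle : A.valuation a ≤ A.valuation a' ↔ a / a' ∈ A := by
    rw [← A.valuation_le_one_iff, map_div₀,
      div_le_one₀ (zero_lt_iff.mpr ((Valuation.ne_zero_iff _).mpr ha0'))]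
  rw [hle]
  constructor
  · intro h
    have h2 : algebraMap K F (a / a') ∈ circleRing C a' ha1' ha2' := by
      have h3 : algebraMap K F (a / a') = (a⁻¹ • C.u)⁻¹ * (a'⁻¹ • C.u) := by
        rw [e, mul_assoc, inv_mul_cancel₀ hw0, mul_one]
      rw [h3]
      exact (circleRing C a' ha1' ha2').mul_mem _ _ h (coord_mem_circleRing C a' ha1' ha2')
    exact (algebraMap_mem_circleRing_iff C a' ha1' ha2' _).mp h2
  · intro h
    rw [e]
    exact (circleRing C a' ha1' ha2').mul_mem _ _
      ((algebraMap_mem_circleRing_iff C a' ha1' ha2' _).mpr h)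
      (coord_inv_mem_circleRing C a' ha1' ha2')

/-- Circles of different radii have different valuation rings. -/
theorem circleRing_ne (a' : K) (ha1' : A.valuation C.thick < A.valuation a')
    (ha2' : A.valuation a' < 1) (hne : A.valuation a ≠ A.valuation a') :
    circleRing C a ha1 ha2 ≠ circleRing C a' ha1' ha2' := by
  intro heq
  have h1 := (coord_mem_circleRing_iff C a ha1 ha2 a' ha1' ha2').mp
    (heq ▸ coord_mem_circleRing C a ha1 ha2)
  have h2 := (coord_inv_mem_circleRing_iff C a ha1 ha2 a' ha1' ha2').mp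
    (heq ▸ coord_inv_mem_circleRing C a ha1 ha2)
  exact hne (le_antisymm h2 h1)

end Fermat.Agent.BR.Circle
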