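/-
Program B, node B7.5 (C2'): the explicit reduction of the factorisation on a circle.

For the circle of gauge `a` and a constant `c : K`:
* `cstOf A a c` : the normalising constant of `u - c` (`a` if `|c| ≤ |a|`, `-c` otherwise);
* `redOf A a c` : the reduction of `(u - c) / cstOf A a c` (`X - \bar{c/a}` if `|c| ≤ |a|`, `1` otherwise);
* `isRed_coord_sub`;
* `IsRed.pow`, `IsRed.zpow`, `IsRed.prod`, `IsRed.smul`;
* `factorFun`, `factorCst`, `factorRed`, `isRed_of_factor` : if `y = factorFun C S n b c · (tube unit)`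
  then `y / factorCst` reduces to `factorRed = X ^ b * ∏ redOf ^ n Q`;
* `mem_circleRing_iff_of_factor`, `circleRes_of_factor`.
-/
import Mathlib
import Fermat.Agent.BR.Circle.Basic

set_option autoImplicit false

noncomputable section

namespace Fermat.Agent.BR.Circle

open AlgebraicCurve IsLocalRing Fermat.Agent.Red Fermat.Agent.BR.InertiaRed
  Fermat.Agent.BR.AnnulusRed Fermat.Agent.BR.P1 Fermat.Agent.BR.Centre

variable {K F : Type*} [Field K] [Field F] [Algebra K F]

section Cst

variable (A : ValuationSubring K)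

open Classical in
/-- The normalising constant of `u - c` on the circle of gauge `a`. -/
def cstOf (a c : K) : K := if A.valuation c ≤ A.valuation a then a else -c

open Classical in
/-- The reduction of `(u - c) / cstOf A a c` on the circle of gauge `a`. -/
def redOf (a c : K) : RatFunc (ResidueField A) :=
  if A.valuation c ≤ A.valuation a then RatFunc.X - RatFunc.C (angRes A c a) else 1

variable {A} {a c : K}

theorem cstOf_of_le (h : A.valuation c ≤ A.valuation a) : cstOf A a c = a := if_pos h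

theorem cstOf_of_gt (h : A.valuation a < A.valuation c) : cstOf A a c = -c :=
  if_neg (not_le.mpr h)

theorem redOf_of_le (h : A.valuation c ≤ A.valuation a) :
    redOf A a c = RatFunc.X - RatFunc.C (angRes A c a) := if_pos h

theorem redOf_of_gt (h : A.valuation a < A.valuation c) : redOf A a c = 1 :=
  if_neg (not_le.mpr h)

theorem angRes_eq_zero_of_lt (h : A.valuation c < A.valuation a) : angRes A c a = 0 := by
  unfold angRes
  apply resOf_eq_zero
  rw [map_div₀]
  exact (div_lt_one₀ (lt_of_le_of_lt zero_le h)).mpr h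

theorem redOf_of_lt (h : A.valuation c < A.valuation a) : redOf A a c = RatFunc.X := by
  rw [redOf_of_le h.le, angRes_eq_zero_of_lt h, map_zero, sub_zero]

theorem cstOf_ne_zero (ha : a ≠ 0) : cstOf A a c ≠ 0 := by
  rcases le_or_gt (A.valuation c) (A.valuation a) with h | h
  · rw [cstOf_of_le h]; exact ha
  · rw [cstOf_of_gt h, neg_ne_zero]
    rintro rfl
    rw [map_zero] at h
    exact not_lt_zero h

theorem redOf_ne_zero (A : ValuationSubring K) (a c : K) : redOf A a c ≠ 0 := by
  rcases le_or_gt (A.valuation c) (A.valuation a) with h | h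
  · rw [redOf_of_le h]; exact ratFunc_X_sub_C_ne_zero _
  · rw [redOf_of_gt h]; exact one_ne_zero

theorem valuation_cstOf (A : ValuationSubring K) (a c : K) :
    A.valuation (cstOf A a c) = max (A.valuation a) (A.valuation c) := by
  rcases le_or_gt (A.valuation c) (A.valuation a) with h | h
  · rw [cstOf_of_le h, max_eq_left h]
  · rw [cstOf_of_gt h, Valuation.map_neg, max_eq_right h.le]

end Cst

section Red

variable {A : ValuationSubring K} [IsAlgClosed (ResidueField A)] {T : Set (Place K F)}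
  {C : AnnulusCore A T} {a : K}

local notation "k" => ResidueField A

/-- The explicit reduction of `u - c` on the circle of gauge `a`. -/
theorem isRed_coord_sub (ha : a ≠ 0) (c : K) :
    IsRed C a ((cstOf A a c)⁻¹ • (C.u - algebraMap K F c)) (redOf A a c) := by
  rcases le_or_gt (A.valuation c) (A.valuation a) with hle | hgt
  · rw [cstOf_of_le hle, redOf_of_le hle]
    have hca : c / a ∈ A := by
      rw [← A.valuation_le_one_iff, map_div₀]
      exact div_le_one_of_le₀ hle zero_le
    have h := (isRed_coord (C := C) ha).add (isRed_const (C := C) (a := a) hca).neg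
    rw [← sub_eq_add_neg, ← sub_eq_add_neg, RatFunc.algebraMap_eq_C] at h
    have h1 : a⁻¹ • (C.u - algebraMap K F c) = a⁻¹ • C.u - algebraMap K F (c / a) := by
      rw [smul_sub, Algebra.smul_def a⁻¹ (algebraMap K F c), ← map_mul, inv_mul_eq_div]
    have h2 : angRes A c a = residue A ⟨c / a, hca⟩ := by
      unfold angRes
      exact resOf_of_mem A hca
    rw [h1, h2]
    exact h
  · rw [cstOf_of_gt hgt, redOf_of_gt hgt]
    have hc0 : c ≠ 0 := by
      rintro rfl
      rw [map_zero] at hgt
      exact not_lt_zero hgt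
    have hac : A.valuation (a / c) < 1 := by
      rw [map_div₀]
      exact (div_lt_one₀ (lt_of_le_of_lt zero_le hgt)).mpr hgt
    have hac' : a / c ∈ A := (A.valuation_le_one_iff _).mp hac.le
    have hres : residue A ⟨a / c, hac'⟩ = 0 := by
      rw [residue_eq_zero_iff]
      exact (A.valuation_lt_one_iff _).mpr hac
    have h := (isRed_one (C := C) (a := a)).add
      ((isRed_const (C := C) (a := a) hac').mul (isRed_coord (C := C) ha)).neg
    rw [hres, map_zero, zero_mul, neg_zero, add_zero, ← sub_eq_add_neg] at h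
    have h1 : (-c)⁻¹ • (C.u - algebraMap K F c) =
        1 - algebraMap K F (a / c) * (a⁻¹ • C.u) := by
      have hcF : algebraMap K F c ≠ 0 := (map_ne_zero _).mpr hc0
      have haF : algebraMap K F a ≠ 0 := (map_ne_zero _).mpr ha
      rw [Algebra.smul_def, Algebra.smul_def, map_inv₀, map_neg, map_div₀, map_inv₀]
      field_simp
      ring
    rw [h1]
    exact h

theorem IsRed.pow {y : F} {yb : RatFunc k} (h : IsRed C a y yb) (n : ℕ) :
    IsRed C a (y ^ n) (yb ^ n) := by
  induction n with
  | zero => rw [pow_zero, pow_zero]; exact isRed_one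
  | succ n ih => rw [pow_succ, pow_succ]; exact ih.mul h

theorem IsRed.zpow {y : F} {yb : RatFunc k} (h : IsRed C a y yb) (hyb : yb ≠ 0) (n : ℤ) :
    IsRed C a (y ^ n) (yb ^ n) := by
  cases n with
  | ofNat n => rw [Int.ofNat_eq_natCast, zpow_natCast, zpow_natCast]; exact h.pow n
  | negSucc n =>
    rw [zpow_negSucc, zpow_negSucc]
    exact (h.pow (n + 1)).inv (pow_ne_zero _ hyb)

theorem IsRed.prod {ι : Type*} (s : Finset ι) (f : ι → F) (fb : ι → RatFunc k)
    (h : ∀ i ∈ s, IsRed C a (f i) (fb i)) : IsRed C a (∏ i ∈ s, f i) (∏ i ∈ s, fb i) := by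
  classical
  induction s using Finset.induction_on with
  | empty => rw [Finset.prod_empty, Finset.prod_empty]; exact isRed_one
  | insert i s hi ih =>
    rw [Finset.prod_insert hi, Finset.prod_insert hi]
    exact (h i (Finset.mem_insert_self i s)).mul
      (ih fun j hj => h j (Finset.mem_insert_of_mem hj))

theorem IsRed.smul {y : F} {yb : RatFunc k} {c : K} (hc : c ∈ A) (h : IsRed C a y yb) :
    IsRed C a (c • y) (RatFunc.C (residue A ⟨c, hc⟩) * yb) := by
  rw [Algebra.smul_def, ← RatFunc.algebraMap_eq_C]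
  exact (isRed_const hc).mul h

/-! ### the factorisation -/

/-- The monomial part of the factorisation (the expression inside `AnnulusCore.factor`). -/
def factorFun (C : AnnulusCore A T) (S : Finset (Place K F)) (n : Place K F → ℤ) (b : ℤ)
    (c : K) : F :=
  c • (C.u ^ b * ∏ Q ∈ S, (C.u - algebraMap K F (evalAt Q C.u)) ^ n Q)

/-- The constant of the factorisation on the circle of gauge `a`. -/
def factorCst (C : AnnulusCore A T) (a : K) (S : Finset (Place K F)) (n : Place K F → ℤ) (b : ℤ)
    (c : K) : K :=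
  c * (a ^ b * ∏ Q ∈ S, cstOf A a (evalAt Q C.u) ^ n Q)

/-- The reduction of the factorisation on the circle of gauge `a`. -/
def factorRed (C : AnnulusCore A T) (a : K) (S : Finset (Place K F)) (n : Place K F → ℤ)
    (b : ℤ) : RatFunc k :=
  RatFunc.X ^ b * ∏ Q ∈ S, redOf A a (evalAt Q C.u) ^ n Q

omit [IsAlgClosed (ResidueField A)] in
theorem factorCst_ne_zero (ha : a ≠ 0) {S : Finset (Place K F)} {n : Place K F → ℤ} {b : ℤ}
    {c : K} (hc : c ≠ 0) : factorCst C a S n b c ≠ 0 := by
  unfold factorCst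
  refine mul_ne_zero hc (mul_ne_zero (zpow_ne_zero _ ha) ?_)
  rw [Finset.prod_ne_zero_iff]
  exact fun Q _ => zpow_ne_zero _ (cstOf_ne_zero ha)

omit [IsAlgClosed (ResidueField A)] in
theorem factorRed_ne_zero (C : AnnulusCore A T) (a : K) (S : Finset (Place K F))
    (n : Place K F → ℤ) (b : ℤ) : factorRed C a S n b ≠ 0 := by
  unfold factorRed
  refine mul_ne_zero (zpow_ne_zero _ RatFunc.X_ne_zero) ?_
  rw [Finset.prod_ne_zero_iff]
  exact fun Q _ => zpow_ne_zero _ (redOf_ne_zero A a _)

/-- The reduction of the monomial part. -/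
theorem isRed_factorFun (ha : a ≠ 0) (S : Finset (Place K F)) (n : Place K F → ℤ) (b : ℤ)
    {c : K} (hc : c ≠ 0) :
    IsRed C a ((factorCst C a S n b c)⁻¹ • factorFun C S n b c) (factorRed C a S n b) := by
  have h1 : IsRed C a ((a⁻¹ • C.u) ^ b) (RatFunc.X ^ b) :=
    (isRed_coord ha).zpow RatFunc.X_ne_zero b
  have h2 : IsRed C a
      (∏ Q ∈ S, ((cstOf A a (evalAt Q C.u))⁻¹ • (C.u - algebraMap K F (evalAt Q C.u))) ^ n Q)
      (∏ Q ∈ S, redOf A a (evalAt Q C.u) ^ n Q) :=
    IsRed.prod S _ _ fun Q _ => (isRed_coord_sub ha _).zpow (redOf_ne_zero A a _) (n Q)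
  have h3 := h1.mul h2
  have heq : (factorCst C a S n b c)⁻¹ • factorFun C S n b c =
      (a⁻¹ • C.u) ^ b *
        ∏ Q ∈ S, ((cstOf A a (evalAt Q C.u))⁻¹ •
          (C.u - algebraMap K F (evalAt Q C.u))) ^ n Q := by
    unfold factorCst factorFun
    have hcF : algebraMap K F c ≠ 0 := (map_ne_zero _).mpr hc
    have haF : algebraMap K F a ≠ 0 := (map_ne_zero _).mpr ha
    have hprod : ∏ Q ∈ S, ((cstOf A a (evalAt Q C.u))⁻¹ •
          (C.u - algebraMap K F (evalAt Q C.u))) ^ n Q =
        (algebraMap K F (∏ Q ∈ S, cstOf A a (evalAt Q C.u) ^ n Q))⁻¹ *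
          ∏ Q ∈ S, (C.u - algebraMap K F (evalAt Q C.u)) ^ n Q := by
      rw [map_prod, ← Finset.prod_inv_distrib, ← Finset.prod_mul_distrib]
      refine Finset.prod_congr rfl fun Q _ => ?_
      rw [Algebra.smul_def, mul_zpow, map_inv₀, inv_zpow, map_zpow₀]
    have hpP : algebraMap K F (∏ Q ∈ S, cstOf A a (evalAt Q C.u) ^ n Q) ≠ 0 := by
      rw [map_ne_zero, Finset.prod_ne_zero_iff]
      exact fun Q _ => zpow_ne_zero _ (cstOf_ne_zero ha)
    rw [hprod, Algebra.smul_def, Algebra.smul_def, Algebra.smul_def, mul_zpow, map_inv₀,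
      map_mul, map_mul, map_zpow₀, map_inv₀, inv_zpow]
    field_simp
  rw [heq]
  exact h3

/-- **The explicit reduction of a factorised function.** -/
theorem isRed_of_factor (ha : a ≠ 0) {S : Finset (Place K F)} {n : Place K F → ℤ} {b : ℤ}
    {c : K} (hc : c ≠ 0) {y : F} (hε : TubeUnit A T (y * (factorFun C S n b c)⁻¹)) :
    IsRed C a ((factorCst C a S n b c)⁻¹ • y) (factorRed C a S n b) := by
  have h1 := (isRed_tubeUnit (C := C) (a := a) hε).mul (isRed_factorFun (C := C) ha S n b hc)
  rw [one_mul] at h1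
  by_cases hT : T.Nonempty
  swap
  · exact ⟨∅, fun P hP _ _ => absurd ⟨P, hP⟩ hT⟩
  obtain ⟨P₀, hP₀⟩ := hT
  have hg0 : factorFun C S n b c ≠ 0 := by
    intro h0
    obtain ⟨d, hd1, hd2⟩ := hε P₀ hP₀
    rw [h0, inv_zero, mul_zero] at hd1
    have hd0 : d = 0 := hd1.unique (isValueAt_zero P₀)
    rw [hd0, zero_sub, Valuation.map_neg, map_one] at hd2
    exact lt_irrefl _ hd2
  have heq : (factorCst C a S n b c)⁻¹ • y =
      y * (factorFun C S n b c)⁻¹ * ((factorCst C a S n b c)⁻¹ • factorFun C S n b c) := by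
    rw [Algebra.smul_def, Algebra.smul_def]
    field_simp
  rw [heq]
  exact h1

/-! ### membership in the circle ring and the residue, from the factorisation -/

section Ring

variable (ha1 : A.valuation C.thick < A.valuation a) (ha2 : A.valuation a < 1)

include ha1 ha2

/-- If `z` has a nonzero reduction, then `γ • z` lies in the circle ring iff `|γ| ≤ 1`. -/
theorem smul_mem_circleRing_iff {z : F} {zb : RatFunc k} (hz : IsRed C a z zb) (hzb : zb ≠ 0)
    (γ : K) : γ • z ∈ circleRing C a ha1 ha2 ↔ A.valuation γ ≤ 1 := by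
  constructor
  · rintro ⟨yb, hyb⟩
    by_contra hgt
    rw [not_le] at hgt
    have hγ0 : γ ≠ 0 := by
      rintro rfl
      rw [map_zero] at hgt
      exact not_lt_zero hgt
    have hlt : A.valuation γ⁻¹ < 1 := by
      rw [map_inv₀]
      exact inv_lt_one_of_one_lt₀ hgt
    have hγA : γ⁻¹ ∈ A := (A.valuation_le_one_iff _).mp hlt.le
    have hres : residue A ⟨γ⁻¹, hγA⟩ = 0 := by
      rw [residue_eq_zero_iff]
      exact (A.valuation_lt_one_iff _).mpr hlt
    have h1 := hyb.smul hγA
    rw [smul_smul, inv_mul_cancel₀ hγ0, one_smul, hres, map_zero, zero_mul] at h1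
    exact hzb (hz.unique ha1 ha2 h1)
  · intro hle
    exact ⟨_, hz.smul ((A.valuation_le_one_iff _).mp hle)⟩

/-- The residue of `γ • z` when `z` has reduction `zb`. -/
theorem circleRes_smul {z : F} {zb : RatFunc k} (hz : IsRed C a z zb) {γ : K} (hγ : γ ∈ A)
    (hy : γ • z ∈ circleRing C a ha1 ha2) :
    circleRes C a ha1 ha2 ⟨γ • z, hy⟩ = RatFunc.C (residue A ⟨γ, hγ⟩) * zb :=
  circleRes_eq C a ha1 ha2 (hz.smul hγ)

theorem mem_circleRing_iff_of_factor {S : Finset (Place K F)} {n : Place K F → ℤ} {b : ℤ}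
    {c : K} (hc : c ≠ 0) {y : F} (hε : TubeUnit A T (y * (factorFun C S n b c)⁻¹)) :
    y ∈ circleRing C a ha1 ha2 ↔ A.valuation (factorCst C a S n b c) ≤ 1 := by
  have ha : a ≠ 0 := gauge_ne_zero ha1
  have h1 := isRed_of_factor (C := C) ha hc hε
  have h2 := smul_mem_circleRing_iff ha1 ha2 h1 (factorRed_ne_zero C a S n b)
    (factorCst C a S n b c)
  rwa [smul_smul, mul_inv_cancel₀ (factorCst_ne_zero ha hc), one_smul] at h2

theorem circleRes_of_factor {S : Finset (Place K F)} {n : Place K F → ℤ} {b : ℤ}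
    {c : K} (hc : c ≠ 0) {y : F} (hε : TubeUnit A T (y * (factorFun C S n b c)⁻¹))
    (hy : y ∈ circleRing C a ha1 ha2) (hγ : factorCst C a S n b c ∈ A) :
    circleRes C a ha1 ha2 ⟨y, hy⟩ =
      RatFunc.C (residue A ⟨factorCst C a S n b c, hγ⟩) * factorRed C a S n b := by
  have ha : a ≠ 0 := gauge_ne_zero ha1
  have h1 := (isRed_of_factor (C := C) ha hc hε).smul hγ
  rw [smul_smul, mul_inv_cancel₀ (factorCst_ne_zero ha hc), one_smul] at h1
  exact circleRes_eq C a ha1 ha2 h1

/-- Every nonzero function: the data of the factorisation, packaged. -/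
theorem exists_factor_data {y : F} (hy : y ≠ 0) :
    ∃ (S : Finset (Place K F)) (n : Place K F → ℤ) (b : ℤ) (c : K),
      (∀ Q ∈ S, Q ∈ T) ∧ c ≠ 0 ∧ TubeUnit A T (y * (factorFun C S n b c)⁻¹) ∧
      IsRed C a ((factorCst C a S n b c)⁻¹ • y) (factorRed C a S n b) ∧
      (y ∈ circleRing C a ha1 ha2 ↔ A.valuation (factorCst C a S n b c) ≤ 1) := by
  obtain ⟨S, n, b, c, hS, hc, hε⟩ := C.factor y hy
  exact ⟨S, n, b, c, hS, hc, hε, isRed_of_factor (gauge_ne_zero ha1) hc hε,
    mem_circleRing_iff_of_factor ha1 ha2 hc hε⟩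

end Ring

end Red

end Fermat.Agent.BR.Circle
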