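/-
Program B, node B7.5: THE CONTRACT `AnnulusChart S₀ e` between the local engines (B7.1–B7.3, B6.6)
and the chain assembly (`Refine.ChainFamily`).

`S₀` a semistable setup, `e` a node, `tube S₀ e` its tube.  An `AnnulusChart S₀ e` consists of
* the K-level core (`AnnulusCore A (tube S₀ e)`: annulus coordinate `u`, thickness, tube bijection,
  simple zeros), with the factorisation in the STRONG form: the unit factor is `≡ 1` on the tube
  AND at the two branches of the node (`NodeUnit S₀ e`);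
* the orientation: `u` is a unit on the component `src e`, its residue has a simple zero at the
  branch `s₁ e`; `thick / u` is a unit on `tgt e`, its residue has a simple zero at `s₂ e`;
* `comp` : `src e`, `tgt e` are the only components (two-component models).

Results: `AnnulusChart.toCore`, `AnnulusChart.factor'`, `isUnit_u_src`, `isUnit_v_tgt`,
`circleRing_ne_O` (the rings of the circles are different from the rings of the components of
`S₀`), `Separated S₀ e e'` and `circleRing_ne_of_separated` (circles of different nodes).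
-/
import Mathlib
import Fermat.Agent.BR.Circle.Factor
import Fermat.Agent.BR.Refine.Chain

set_option autoImplicit false

noncomputable section

namespace Fermat.Agent.BR.Circle

open AlgebraicCurve IsLocalRing Fermat.Agent.Red Fermat.Agent.BR.InertiaRed
  Fermat.Agent.BR.AnnulusRed Fermat.Agent.BR.P1 Fermat.Agent.BR.Centre Fermat.Agent.BR.SS
  Fermat.Agent.BR.Refine

variable {K : Type} {F : Type*} [Field K] [Field F] [Algebra K F]
  {A : ValuationSubring K} [IsAlgClosed (ResidueField A)]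
  {ι₀ : Type} {Ft₀ : ι₀ → Type} [∀ v, Field (Ft₀ v)] [∀ v, Algebra (ResidueField A) (Ft₀ v)]
  {ν₀ : Type}

/-- `ε` is congruent to `1` on the tube of the node `e` and at its two branches. -/
def NodeUnit (S₀ : SemistableSetup (F := F) A (residue A) ι₀ Ft₀ ν₀) (e : ν₀) (ε : F) : Prop :=
  TubeUnit A (tube S₀ e) ε ∧
  (∃ h : ε ∈ S₀.O (S₀.src e), IsValueAt (S₀.s₁ e) (S₀.res (S₀.src e) ⟨ε, h⟩) 1) ∧
  (∃ h : ε ∈ S₀.O (S₀.tgt e), IsValueAt (S₀.s₂ e) (S₀.res (S₀.tgt e) ⟨ε, h⟩) 1)

/-- **The contract.** An annulus chart of the node `e` of the semistable setup `S₀`. -/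
structure AnnulusChart (S₀ : SemistableSetup (F := F) A (residue A) ι₀ Ft₀ ν₀) (e : ν₀) where
  /-- the annulus coordinate -/
  u : F
  /-- the thickness element: the tube is `|thick| < |u| < 1` -/
  thick : K
  thick_ne : thick ≠ 0
  thick_lt : A.valuation thick < 1
  val_mem : ∀ P ∈ tube S₀ e, ∃ c : K, IsValueAt P u c ∧ A.valuation thick < A.valuation c ∧
    A.valuation c < 1
  bij : ∀ c : K, A.valuation thick < A.valuation c → A.valuation c < 1 →
    ∃! P, P ∈ tube S₀ e ∧ IsValueAt P u c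
  simple : ∀ P ∈ tube S₀ e, P.ord (u - algebraMap K F (evalAt P u)) = 1
  factor : ∀ y : F, y ≠ 0 → ∃ (S : Finset (Place K F)) (n : Place K F → ℤ) (b : ℤ) (c : K),
    (∀ Q ∈ S, Q ∈ tube S₀ e) ∧ c ≠ 0 ∧
      NodeUnit S₀ e (y * (c • (u ^ b *
        ∏ Q ∈ S, (u - algebraMap K F (evalAt Q u)) ^ n Q))⁻¹)
  /-- `u` is integral on the component `src e` … -/
  u_src : u ∈ S₀.O (S₀.src e)
  /-- … and its residue has a simple zero at the branch `s₁ e` -/
  ord_src : (S₀.s₁ e).ord (S₀.res (S₀.src e) ⟨u, u_src⟩) = 1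
  /-- `thick / u` is integral on the component `tgt e` … -/
  v_tgt : thick • u⁻¹ ∈ S₀.O (S₀.tgt e)
  /-- … and its residue has a simple zero at the branch `s₂ e` -/
  ord_tgt : (S₀.s₂ e).ord (S₀.res (S₀.tgt e) ⟨thick • u⁻¹, v_tgt⟩) = 1
  /-- the components through the node are the only ones -/
  comp : ∀ v, v = S₀.src e ∨ v = S₀.tgt e

namespace AnnulusChart

variable {S₀ : SemistableSetup (F := F) A (residue A) ι₀ Ft₀ ν₀} {e : ν₀}
  (ch : AnnulusChart S₀ e)

/-- The K-level core of an annulus chart. -/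
def toCore : AnnulusCore A (tube S₀ e) where
  u := ch.u
  thick := ch.thick
  thick_ne := ch.thick_ne
  thick_lt := ch.thick_lt
  val_mem := ch.val_mem
  bij := ch.bij
  simple := ch.simple
  factor := fun y hy => by
    obtain ⟨S, n, b, c, hS, hc, hε⟩ := ch.factor y hy
    exact ⟨S, n, b, c, hS, hc, hε.1⟩

omit [IsAlgClosed (ResidueField A)] in
@[simp] theorem toCore_u : ch.toCore.u = ch.u := rfl

omit [IsAlgClosed (ResidueField A)] in
@[simp] theorem toCore_thick : ch.toCore.thick = ch.thick := rfl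

omit [IsAlgClosed (ResidueField A)] in
/-- The strong factorisation, in terms of `factorFun`. -/
theorem factor' {y : F} (hy : y ≠ 0) :
    ∃ (S : Finset (Place K F)) (n : Place K F → ℤ) (b : ℤ) (c : K),
      (∀ Q ∈ S, Q ∈ tube S₀ e) ∧ c ≠ 0 ∧
        NodeUnit S₀ e (y * (factorFun ch.toCore S n b c)⁻¹) :=
  ch.factor y hy

omit [IsAlgClosed (ResidueField A)] in
theorem res_u_src_ne_zero : S₀.res (S₀.src e) ⟨ch.u, ch.u_src⟩ ≠ 0 := by
  intro h0
  have h1 := ch.ord_src
  rw [h0, Place.ord_zero] at h1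
  exact zero_ne_one h1

omit [IsAlgClosed (ResidueField A)] in
theorem res_v_tgt_ne_zero : S₀.res (S₀.tgt e) ⟨ch.thick • ch.u⁻¹, ch.v_tgt⟩ ≠ 0 := by
  intro h0
  have h1 := ch.ord_tgt
  rw [h0, Place.ord_zero] at h1
  exact zero_ne_one h1

omit [IsAlgClosed (ResidueField A)] in
/-- `u` is a unit on the component `src e`. -/
theorem isUnit_u_src : IsUnit (⟨ch.u, ch.u_src⟩ : S₀.O (S₀.src e)) := by
  by_contra hnu
  exact ch.res_u_src_ne_zero ((S₀.res_eq_zero_iff _ _).mpr hnu)

omit [IsAlgClosed (ResidueField A)] in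
/-- `thick / u` is a unit on the component `tgt e`. -/
theorem isUnit_v_tgt : IsUnit (⟨ch.thick • ch.u⁻¹, ch.v_tgt⟩ : S₀.O (S₀.tgt e)) := by
  by_contra hnu
  exact ch.res_v_tgt_ne_zero ((S₀.res_eq_zero_iff _ _).mpr hnu)

omit [IsAlgClosed (ResidueField A)] in
theorem u_inv_mem_src : ch.u⁻¹ ∈ S₀.O (S₀.src e) := by
  obtain ⟨w, hw⟩ := ch.isUnit_u_src.exists_right_inv
  have h1 : ch.u * (w : F) = 1 := congrArg Subtype.val hw
  have h2 : ch.u⁻¹ = (w : F) := (eq_inv_of_mul_eq_one_right h1).symm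
  rw [h2]
  exact w.2

omit [IsAlgClosed (ResidueField A)] in
theorem v_inv_mem_tgt : (ch.thick • ch.u⁻¹)⁻¹ ∈ S₀.O (S₀.tgt e) := by
  obtain ⟨w, hw⟩ := ch.isUnit_v_tgt.exists_right_inv
  have h1 : (ch.thick • ch.u⁻¹) * (w : F) = 1 := congrArg Subtype.val hw
  have h2 : (ch.thick • ch.u⁻¹)⁻¹ = (w : F) := (eq_inv_of_mul_eq_one_right h1).symm
  rw [h2]
  exact w.2

variable (a : K) (ha1 : A.valuation ch.thick < A.valuation a) (ha2 : A.valuation a < 1)

/-- The valuation ring of the circle of gauge `a` of the node `e`. -/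
def circle : ValuationSubring F := circleRing ch.toCore a ha1 ha2

/-- The residue map of the circle of gauge `a` of the node `e`. -/
def circleResidue : ch.circle a ha1 ha2 →+* RatFunc (ResidueField A) :=
  circleRes ch.toCore a ha1 ha2

include ha1 ha2 in
theorem u_ne_zero : ch.u ≠ 0 := coord_ne_zero ch.toCore a ha1 ha2

/-- **The rings of the circles are different from the rings of the components of `S₀`.** -/
theorem circleRing_ne_O (v : ι₀) : circleRing ch.toCore a ha1 ha2 ≠ S₀.O v := by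
  have ha0 : a ≠ 0 := gauge_ne_zero (C := ch.toCore) ha1
  have hu0 : ch.u ≠ 0 := ch.u_ne_zero a ha1 ha2
  intro heq
  rcases ch.comp v with rfl | rfl
  · -- `a⁻¹ • u` lies in the circle ring but not in the ring of `src e`
    have h1 : a⁻¹ • ch.u ∈ S₀.O (S₀.src e) := by
      rw [← heq]
      exact coord_mem_circleRing ch.toCore a ha1 ha2
    have h2 := (S₀.O (S₀.src e)).mul_mem _ _ h1 ch.u_inv_mem_src
    have h3 : a⁻¹ • ch.u * ch.u⁻¹ = algebraMap K F a⁻¹ := by
      rw [Algebra.smul_def, mul_assoc, mul_inv_cancel₀ hu0, mul_one]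
    rw [h3, S₀.algebraMap_mem_iff, ← A.valuation_le_one_iff, map_inv₀] at h2
    have h4 : 1 ≤ A.valuation a := by
      have h5 := (inv_le_one₀ (lt_of_le_of_ne zero_le
        ((Valuation.ne_zero_iff _).mpr ha0).symm)).mp h2
      exact h5
    exact absurd ha2 (not_lt.mpr h4)
  · -- `a • u⁻¹` lies in the circle ring but not in the ring of `tgt e`
    have h1 : (a⁻¹ • ch.u)⁻¹ ∈ S₀.O (S₀.tgt e) := by
      rw [← heq]
      exact coord_inv_mem_circleRing ch.toCore a ha1 ha2
    have h2 := (S₀.O (S₀.tgt e)).mul_mem _ _ h1 ch.v_inv_mem_tgt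
    have h3 : (a⁻¹ • ch.u)⁻¹ * (ch.thick • ch.u⁻¹)⁻¹ = algebraMap K F (a / ch.thick) := by
      have haF : algebraMap K F a ≠ 0 := (map_ne_zero _).mpr ha0
      have htF : algebraMap K F ch.thick ≠ 0 := (map_ne_zero _).mpr ch.thick_ne
      rw [Algebra.smul_def, Algebra.smul_def, map_inv₀, map_div₀]
      field_simp
    rw [h3, S₀.algebraMap_mem_iff, ← A.valuation_le_one_iff, map_div₀] at h2
    have h4 : A.valuation a ≤ A.valuation ch.thick := by
      have hpos : 0 < A.valuation ch.thick :=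
        lt_of_le_of_ne zero_le ((Valuation.ne_zero_iff _).mpr ch.thick_ne).symm
      exact (div_le_one₀ hpos).mp h2
    exact absurd ha1 (not_lt.mpr h4)

end AnnulusChart

/-! ### circles of different nodes -/

/-- The nodes `e`, `e'` are separated by a function: small on the tube of `e`, of absolute value
one on the tube of `e'` (e.g. an element of the maximal ideal of the local ring at `e` which is
congruent to `1` at `e'`). -/
def Separated (S₀ : SemistableSetup (F := F) A (residue A) ι₀ Ft₀ ν₀) (e e' : ν₀) : Prop :=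
  ∃ f : F, (∀ P ∈ tube S₀ e, ∃ d : K, IsValueAt P f d ∧ A.valuation d < 1) ∧
    (∀ P ∈ tube S₀ e', ∃ d : K, IsValueAt P f d ∧ A.valuation d = 1)

section Sep

variable {T T' : Set (Place K F)} (C : AnnulusCore A T) (C' : AnnulusCore A T')
  (a a' : K) (ha1 : A.valuation C.thick < A.valuation a) (ha2 : A.valuation a < 1)
  (ha1' : A.valuation C'.thick < A.valuation a') (ha2' : A.valuation a' < 1)

/-- A function with small values on the tube has reduction `0` on every circle. -/
theorem isRed_zero_of_small {f : F}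
    (hf : ∀ P ∈ T, ∃ d : K, IsValueAt P f d ∧ A.valuation d < 1) : IsRed C a f 0 := by
  refine ⟨∅, fun P hP _ _ => ?_⟩
  obtain ⟨d, h1, h2⟩ := hf P hP
  have hd : d ∈ A := (A.valuation_le_one_iff _).mp h2.le
  refine ⟨d, hd, h1, ?_⟩
  have hres : residue A ⟨d, hd⟩ = 0 := by
    rw [residue_eq_zero_iff]
    exact (A.valuation_lt_one_iff _).mpr h2
  rw [hres]
  exact isValueAt_zero _

include ha1' ha2' in
/-- A function with values of absolute value one on the tube is a unit of every circle ring. -/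
theorem isUnit_of_unit_values {f : F}
    (hf : ∀ P ∈ T', ∃ d : K, IsValueAt P f d ∧ A.valuation d = 1) :
    ∃ h : f ∈ circleRing C' a' ha1' ha2', IsUnit (⟨f, h⟩ : circleRing C' a' ha1' ha2') := by
  -- a reduction of `f` or of `f⁻¹` is nonzero
  have key : ∀ g : F, (∀ P ∈ T', ∃ d : K, IsValueAt P g d ∧ A.valuation d = 1) →
      ∀ gb, IsRed C' a' g gb → gb ≠ 0 := by
    intro g hg gb hgb h0
    subst h0
    obtain ⟨E, hE⟩ := hgb
    obtain ⟨P, hP, hv, hn⟩ := exists_generic_point C' a' ha1' ha2' E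
    obtain ⟨d, hd, h1, h2⟩ := hE P hP hv hn
    obtain ⟨d', h1', h2'⟩ := hg P hP
    have hdd : d = d' := h1.unique h1'
    subst hdd
    have h3 : residue A ⟨d, hd⟩ = 0 := (isValueAt_zero _).unique h2 |>.symm
    rw [residue_eq_zero_iff] at h3
    have h4 := (A.valuation_lt_one_iff _).mp h3
    rw [h2'] at h4
    exact lt_irrefl _ h4
  have hf0 : f ≠ 0 := by
    rintro rfl
    obtain ⟨P, hP, -, -⟩ := exists_generic_point C' a' ha1' ha2' ∅
    obtain ⟨d, h1, h2⟩ := hf P hP
    have hd0 : d = 0 := h1.unique (isValueAt_zero P)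
    rw [hd0, map_zero] at h2
    exact zero_ne_one h2
  have hinv : ∀ P ∈ T', ∃ d : K, IsValueAt P f⁻¹ d ∧ A.valuation d = 1 := by
    intro P hP
    obtain ⟨d, h1, h2⟩ := hf P hP
    have hd0 : d ≠ 0 := by
      rintro rfl
      rw [map_zero] at h2
      exact zero_ne_one h2
    exact ⟨d⁻¹, IsValueAt.inv h1 hd0, by rw [map_inv₀, h2, inv_one]⟩
  rcases exists_isRed_or_inv C' a' ha1' ha2' hf0 with ⟨fb, hfb⟩ | ⟨fb, hfb⟩
  · have hfb0 : fb ≠ 0 := key f hf fb hfb
    refine ⟨⟨fb, hfb⟩, ?_⟩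
    by_contra hnu
    have h1 := (circleRes_eq_zero_iff C' a' ha1' ha2' _).mpr hnu
    rw [circleRes_mk C' a' ha1' ha2' hfb] at h1
    exact hfb0 h1
  · have hfb0 : fb ≠ 0 := key f⁻¹ hinv fb hfb
    have hmem : f ∈ circleRing C' a' ha1' ha2' := by
      have h1 := hfb.inv hfb0
      rw [inv_inv] at h1
      exact ⟨_, h1⟩
    refine ⟨hmem, ?_⟩
    by_contra hnu
    have h1 := (circleRes_eq_zero_iff C' a' ha1' ha2' _).mpr hnu
    have h2 := hfb.inv hfb0
    rw [inv_inv] at h2
    rw [circleRes_eq C' a' ha1' ha2' (y := ⟨f, hmem⟩) h2] at h1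
    exact inv_ne_zero hfb0 h1

include ha1 ha2 ha1' ha2' in
/-- **Circles of separated tubes have different rings.** -/
theorem circleRing_ne_of_separated
    (hsep : ∃ f : F, (∀ P ∈ T, ∃ d : K, IsValueAt P f d ∧ A.valuation d < 1) ∧
      (∀ P ∈ T', ∃ d : K, IsValueAt P f d ∧ A.valuation d = 1)) :
    circleRing C a ha1 ha2 ≠ circleRing C' a' ha1' ha2' := by
  obtain ⟨f, hf, hf'⟩ := hsep
  intro heq
  obtain ⟨hmem', hu'⟩ := isUnit_of_unit_values C' a' ha1' ha2' hf'
  have hred : IsRed C a f 0 := isRed_zero_of_small C a hf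
  have hmem : f ∈ circleRing C a ha1 ha2 := ⟨0, hred⟩
  have h0 : circleRes C a ha1 ha2 ⟨f, hmem⟩ = 0 := circleRes_mk C a ha1 ha2 hred
  have hnu : ¬ IsUnit (⟨f, hmem⟩ : circleRing C a ha1 ha2) :=
    (circleRes_eq_zero_iff C a ha1 ha2 _).mp h0
  apply hnu
  -- transport the unit along the equality of the rings
  obtain ⟨w, hw⟩ := hu'.exists_right_inv
  have hw1 : f * (w : F) = 1 := congrArg Subtype.val hw
  have hwmem : (w : F) ∈ circleRing C a ha1 ha2 := by
    rw [heq]
    exact w.2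
  exact IsUnit.of_mul_eq_one (⟨(w : F), hwmem⟩ : circleRing C a ha1 ha2) (Subtype.ext hw1)

end Sep

end Fermat.Agent.BR.Circle
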