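/-
Program B, node B7.5 (C7): the assembly `AnnulusChart`s ⟹ `Refine.ChainProvider S₀`.

`CircleInputs S₀` : an annulus chart for every node, separation of the nodes, and — as fields, in
the exact shapes of the corresponding fields of `Refine.ChainFamily` — the deliverables of the
blocks (C4) conservation on a circle, (C5) matching on the sub-annuli, (C6) best approximation for
the circle rings.  `CircleInputs.chainProvider : Refine.ChainProvider S₀`; the exceptional
component at the position `|a|` of the annulus of `e` is `circleRing (ch e).toCore a`.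
-/
import Mathlib
import Fermat.Agent.BR.Circle.Chart
import Fermat.Agent.BR.Refine.Final

set_option autoImplicit false

noncomputable section

namespace Fermat.Agent.BR.Circle

open AlgebraicCurve IsLocalRing Fermat.Agent.Red Fermat.Agent.BR.InertiaRed
  Fermat.Agent.BR.AnnulusRed Fermat.Agent.BR.P1 Fermat.Agent.BR.Centre Fermat.Agent.BR.SS
  Fermat.Agent.BR.Refine

variable {K : Type} {F : Type*} [Field K] [Field F] [Algebra K F]
  {A : ValuationSubring K} [IsAlgClosed (ResidueField A)]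
  {ι₀ : Type} {Ft₀ : ι₀ → Type} [∀ v, Field (Ft₀ v)] [∀ v, Algebra (ResidueField A) (Ft₀ v)]
  {ν₀ : Type}

local notation "k" => ResidueField A

/-! ### the shapes of the deliverables (C4), (C5), (C6) -/

section Shapes

variable {T : Set (Place K F)} (C : AnnulusCore A T) (a : K)
  (ha1 : A.valuation C.thick < A.valuation a) (ha2 : A.valuation a < 1)

/-- (C6) best approximation for the ring of a circle. -/
def ApproxAt : Prop :=
  ∀ (V : Submodule K F), Module.Finite K V → ∀ y : F, y ∉ V →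
    ∃ w ∈ V, ∃ c : K, c ≠ 0 ∧ ∃ h : c • (y - w) ∈ circleRing C a ha1 ha2,
      ∀ z : circleRing C a ha1 ha2, (z : F) ∈ V →
        circleRes C a ha1 ha2 z ≠ circleRes C a ha1 ha2 ⟨c • (y - w), h⟩

/-- (C4) conservation on a circle. -/
def ConservationAt : Prop :=
  ∀ (y : circleRing C a ha1 ha2), circleRes C a ha1 ha2 y ≠ 0 →
    ∀ D : Divisor K F, (∀ P, D P = P.ord (y : F)) →
    ∀ Q : Place k (RatFunc k), Q ≠ placeAt k 0 → Q ≠ placeInfty k →
      Finsupp.mapDomain (redExc A T C.u a) D (some Q) = Q.ord (circleRes C a ha1 ha2 y)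

variable (a' : K) (ha1' : A.valuation C.thick < A.valuation a') (ha2' : A.valuation a' < 1)

/-- (C5) matching between two circles of the same annulus (`|a'| < |a|`). -/
def MatchMidAt : Prop :=
  ∀ (y : F) (h₁ : y ∈ circleRing C a ha1 ha2) (h₂ : y ∈ circleRing C a' ha1' ha2'),
    (∀ P ∈ T, A.valuation a' < A.valuation (evalAt P C.u) →
      A.valuation (evalAt P C.u) < A.valuation a → 0 ≤ P.ord y) →
    ∃ c : k, IsValueAt (placeAt k 0) (circleRes C a ha1 ha2 ⟨y, h₁⟩) c ∧
      IsValueAt (placeInfty k) (circleRes C a' ha1' ha2' ⟨y, h₂⟩) c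

/-- (C5) units between two circles of the same annulus (`|a'| < |a|`). -/
def UnitMidAt : Prop :=
  ∀ (y : F) (h₁ : y ∈ circleRing C a ha1 ha2) (_h₂ : y ∈ circleRing C a' ha1' ha2'),
    (∀ P ∈ T, A.valuation a' < A.valuation (evalAt P C.u) →
      A.valuation (evalAt P C.u) < A.valuation a → 0 ≤ P.ord y) →
    (∃ c : k, c ≠ 0 ∧ IsValueAt (placeAt k 0) (circleRes C a ha1 ha2 ⟨y, h₁⟩) c) →
    ∀ P ∈ T, A.valuation a' < A.valuation (evalAt P C.u) →
      A.valuation (evalAt P C.u) < A.valuation a → P.ord y = 0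

end Shapes

section ShapesChart

variable {S₀ : SemistableSetup (F := F) A (residue A) ι₀ Ft₀ ν₀} {e : ν₀}
  (ch : AnnulusChart S₀ e) (a : K)
  (ha1 : A.valuation ch.toCore.thick < A.valuation a) (ha2 : A.valuation a < 1)

/-- (C5) matching between the component `src e` and the first circle. -/
def MatchFirstAt : Prop :=
  ∀ (y : F) (h₁ : y ∈ S₀.O (S₀.src e)) (h₂ : y ∈ circleRing ch.toCore a ha1 ha2),
    (∀ P ∈ tube S₀ e, A.valuation a < A.valuation (evalAt P ch.u) → 0 ≤ P.ord y) →
    ∃ c : k, IsValueAt (S₀.s₁ e) (S₀.res (S₀.src e) ⟨y, h₁⟩) c ∧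
      IsValueAt (placeInfty k) (circleRes ch.toCore a ha1 ha2 ⟨y, h₂⟩) c

/-- (C5) units between the component `src e` and the first circle. -/
def UnitFirstAt : Prop :=
  ∀ (y : F) (h₁ : y ∈ S₀.O (S₀.src e)) (_h₂ : y ∈ circleRing ch.toCore a ha1 ha2),
    (∀ P ∈ tube S₀ e, A.valuation a < A.valuation (evalAt P ch.u) → 0 ≤ P.ord y) →
    (∃ c : k, c ≠ 0 ∧ IsValueAt (S₀.s₁ e) (S₀.res (S₀.src e) ⟨y, h₁⟩) c) →
    ∀ P ∈ tube S₀ e, A.valuation a < A.valuation (evalAt P ch.u) → P.ord y = 0

/-- (C5) matching between the last circle and the component `tgt e`. -/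
def MatchLastAt : Prop :=
  ∀ (y : F) (h₁ : y ∈ circleRing ch.toCore a ha1 ha2) (h₂ : y ∈ S₀.O (S₀.tgt e)),
    (∀ P ∈ tube S₀ e, A.valuation (evalAt P ch.u) < A.valuation a → 0 ≤ P.ord y) →
    ∃ c : k, IsValueAt (placeAt k 0) (circleRes ch.toCore a ha1 ha2 ⟨y, h₁⟩) c ∧
      IsValueAt (S₀.s₂ e) (S₀.res (S₀.tgt e) ⟨y, h₂⟩) c

/-- (C5) units between the last circle and the component `tgt e`. -/
def UnitLastAt : Prop :=
  ∀ (y : F) (h₁ : y ∈ circleRing ch.toCore a ha1 ha2) (_h₂ : y ∈ S₀.O (S₀.tgt e)),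
    (∀ P ∈ tube S₀ e, A.valuation (evalAt P ch.u) < A.valuation a → 0 ≤ P.ord y) →
    (∃ c : k, c ≠ 0 ∧ IsValueAt (placeAt k 0) (circleRes ch.toCore a ha1 ha2 ⟨y, h₁⟩) c) →
    ∀ P ∈ tube S₀ e, A.valuation (evalAt P ch.u) < A.valuation a → P.ord y = 0

end ShapesChart

/-! ### the inputs and the assembly -/

/-- The inputs of the chain provider: annulus charts, separation of the nodes, and the
deliverables (C4), (C5), (C6) for all admissible gauges. -/
structure CircleInputs (S₀ : SemistableSetup (F := F) A (residue A) ι₀ Ft₀ ν₀) where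
  /-- the annulus charts -/
  ch : ∀ e, AnnulusChart S₀ e
  sep : ∀ e e', e ≠ e' → Separated S₀ e e'
  approx : ∀ e a ha1 ha2, ApproxAt (ch e).toCore a ha1 ha2
  conservation : ∀ e a ha1 ha2, ConservationAt (ch e).toCore a ha1 ha2
  match_first : ∀ e a ha1 ha2, MatchFirstAt (ch e) a ha1 ha2
  unit_first : ∀ e a ha1 ha2, UnitFirstAt (ch e) a ha1 ha2
  match_mid : ∀ e a ha1 ha2 a' ha1' ha2', A.valuation a' < A.valuation a →
    MatchMidAt (ch e).toCore a ha1 ha2 a' ha1' ha2'
  unit_mid : ∀ e a ha1 ha2 a' ha1' ha2', A.valuation a' < A.valuation a →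
    UnitMidAt (ch e).toCore a ha1 ha2 a' ha1' ha2'
  match_last : ∀ e a ha1 ha2, MatchLastAt (ch e) a ha1 ha2
  unit_last : ∀ e a ha1 ha2, UnitLastAt (ch e) a ha1 ha2

namespace CircleInputs

variable {S₀ : SemistableSetup (F := F) A (residue A) ι₀ Ft₀ ν₀} (I : CircleInputs S₀)

/-- The admissible gauges of the annulus of `e`. -/
def adm (e : ν₀) (a : K) : Prop :=
  A.valuation (I.ch e).toCore.thick < A.valuation a ∧ A.valuation a < 1

variable (n : ν₀ → ℕ) (a : ∀ e, Fin (n e) → K) (hadm : ∀ e i, I.adm e (a e i))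
  (hanti : ∀ e, StrictAnti fun i => A.valuation (a e i))

/-- The ring of the level `x` of the chain. -/
def levelRing (x : Σ e, Fin (n e)) : ValuationSubring F :=
  circleRing (I.ch x.1).toCore (a x.1 x.2) (hadm x.1 x.2).1 (hadm x.1 x.2).2

/-- The residue map of the level `x` of the chain. -/
def levelRes (x : Σ e, Fin (n e)) : I.levelRing n a hadm x →+* RatFunc k :=
  circleRes (I.ch x.1).toCore (a x.1 x.2) (hadm x.1 x.2).1 (hadm x.1 x.2).2

include hanti in
theorem levelRing_injective : Function.Injective (I.levelRing n a hadm) := by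
  rintro ⟨e, i⟩ ⟨e', i'⟩ h
  by_cases hee : e = e'
  · subst hee
    by_cases hii : i = i'
    · rw [hii]
    · exfalso
      have hne : A.valuation (a e i) ≠ A.valuation (a e i') :=
        fun hv => hii ((hanti e).injective hv)
      exact circleRing_ne (I.ch e).toCore (a e i) (hadm e i).1 (hadm e i).2 (a e i')
        (hadm e i').1 (hadm e i').2 hne h
  · exfalso
    exact circleRing_ne_of_separated (I.ch e).toCore (I.ch e').toCore (a e i) (a e' i')
      (hadm e i).1 (hadm e i).2 (hadm e' i').1 (hadm e' i').2 (I.sep e e' hee) h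

/-- **The chain family** on the gauges `a`. -/
def chainFamily : ChainFamily S₀ where
  u := fun e => (I.ch e).u
  n := n
  a := a
  a_ne := fun e i => gauge_ne_zero (C := (I.ch e).toCore) (hadm e i).1
  a_anti := hanti
  O := I.levelRing n a hadm
  res := I.levelRes n a hadm
  res_surjective := fun x =>
    circleRes_surjective (I.ch x.1).toCore (a x.1 x.2) (hadm x.1 x.2).1 (hadm x.1 x.2).2
  res_eq_zero_iff := fun x y =>
    circleRes_eq_zero_iff (I.ch x.1).toCore (a x.1 x.2) (hadm x.1 x.2).1 (hadm x.1 x.2).2 y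
  algebraMap_mem_iff := fun x c =>
    algebraMap_mem_circleRing_iff (I.ch x.1).toCore (a x.1 x.2) (hadm x.1 x.2).1
      (hadm x.1 x.2).2 c
  res_algebraMap := fun x c hc hc' =>
    circleRes_algebraMap (I.ch x.1).toCore (a x.1 x.2) (hadm x.1 x.2).1 (hadm x.1 x.2).2 c hc hc'
  approx := fun x => I.approx x.1 (a x.1 x.2) (hadm x.1 x.2).1 (hadm x.1 x.2).2
  O_injective := I.levelRing_injective n a hadm hanti
  O_ne := fun x v =>
    (I.ch x.1).circleRing_ne_O (a x.1 x.2) (hadm x.1 x.2).1 (hadm x.1 x.2).2 v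
  conservation := fun e i => I.conservation e (a e i) (hadm e i).1 (hadm e i).2
  match_first := fun e h0 => I.match_first e (a e ⟨0, h0⟩) (hadm e _).1 (hadm e _).2
  unit_first := fun e h0 => I.unit_first e (a e ⟨0, h0⟩) (hadm e _).1 (hadm e _).2
  match_mid := fun e i hi =>
    I.match_mid e (a e i) (hadm e i).1 (hadm e i).2 (a e ⟨i.1 + 1, hi⟩) (hadm e _).1 (hadm e _).2
      (hanti e (Fin.mk_lt_mk.mpr (Nat.lt_succ_self i.1) : i < ⟨i.1 + 1, hi⟩))
  unit_mid := fun e i hi =>
    I.unit_mid e (a e i) (hadm e i).1 (hadm e i).2 (a e ⟨i.1 + 1, hi⟩) (hadm e _).1 (hadm e _).2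
      (hanti e (Fin.mk_lt_mk.mpr (Nat.lt_succ_self i.1) : i < ⟨i.1 + 1, hi⟩))
  match_last := fun e i _ => I.match_last e (a e i) (hadm e i).1 (hadm e i).2
  unit_last := fun e i _ => I.unit_last e (a e i) (hadm e i).1 (hadm e i).2

/-- **The chain provider** of a family of annulus charts. -/
def chainProvider : ChainProvider S₀ where
  u := fun e => (I.ch e).u
  adm := I.adm
  adm_ne := fun e a h => gauge_ne_zero (C := (I.ch e).toCore) h.1
  adm_tube := fun e P hP => by
    obtain ⟨-, h2, h3⟩ := isValueAt_evalAt_u (I.ch e).toCore hP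
    exact ⟨h2, h3⟩
  chain := fun n a hadm hanti =>
    ⟨I.chainFamily n a hadm hanti, rfl, rfl, fun _ _ => rfl⟩

@[simp] theorem chainProvider_u (e : ν₀) : I.chainProvider.u e = (I.ch e).u := rfl

end CircleInputs

end Fermat.Agent.BR.Circle
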