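/-
Program B (bad reduction), block B7, node B7.BDD, file 2 (helper20): the maximum principle on a
circle of an annulus and the boundedness (bdd) of the circle ring in finite-dimensional subspaces.

Setting of `BR/Circle/Defs.lean` (helper16): `C : AnnulusCore A T`, gauge `a` with
`|thick| < |a| < 1`, `circleRing C a` the valuation ring of the circle `|u(P)| = |a|`.

* `FactorData C y` : the data `(S, n, b, c)` of a factorisation `y = ε · c · u^b · ∏ (u - u(Q))^(n Q)`
  (`AnnulusCore.factor`); `FactorData.exists_isValueAt` (off `S` the function has a nonzero value),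
  `FactorData.not_isValueAt` (at `Q ∈ S` with `n Q < 0` it has no value);
* `gam A a c` : the generic size of `u - c` on the circle (`a` if `|c| ≤ |a|`, `-c` otherwise);
  `isUnitRed_coord_sub` : `(u - c) / gam a c` has a nonzero reduction on the circle;
  `intAt_coord_sub`, `unitAt_coord_sub` : its value at a circle point is integral, and a unit outside
  the residue class of `c`;
* `mem_of_smul_mem_circleRing` : `γ • z ∈ circleRing`, `z` with nonzero reduction `⟹ γ ∈ A`;
* `exists_integral_value` : **maximum principle** — `y ∈ circleRing C a` with no pole in the residue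
  class of the circle point `P` has an integral value at `P`;
* `circleRing_bdd` : **(bdd)** — for a `K`-independent family `w`, the coordinates of the elements
  of `circleRing C a ∩ span w` are bounded (`EvalBound.exists_bound_of_eval` at the circle points of
  the pole-free residue classes); `circleRing_bdd_pow` : the shape of `DVRLattice` (`hbdd`).
-/
import Mathlib
import Fermat.Agent.BR.Circle.Defs
import Fermat.Agent.BR.EvalBound

set_option autoImplicit false

noncomputable section

namespace Fermat.Agent.BR.Circle.Bound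

open AlgebraicCurve IsLocalRing Fermat.Agent.Red Fermat.Agent.BR.InertiaRed
  Fermat.Agent.BR.AnnulusRed Fermat.Agent.BR.P1 Fermat.Agent.BR.Centre Fermat.Agent.BR.Circle

variable {K F : Type*} [Field K] [Field F] [Algebra K F]

/-! ### values of integer powers, finite products, finite sums -/

theorem isValueAt_zpow {P : Place K F} {h : F} {c : K} (hc : IsValueAt P h c) (hc0 : c ≠ 0)
    (n : ℤ) : IsValueAt P (h ^ n) (c ^ n) := by
  cases n with
  | ofNat n => rw [Int.ofNat_eq_natCast, zpow_natCast, zpow_natCast]; exact hc.pow n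
  | negSucc n =>
    rw [zpow_negSucc, zpow_negSucc]
    exact IsValueAt.inv (hc.pow (n + 1)) (pow_ne_zero _ hc0)

theorem isValueAt_prod {ι : Type*} {P : Place K F} (s : Finset ι) (f : ι → F) (g : ι → K)
    (h : ∀ i ∈ s, IsValueAt P (f i) (g i)) : IsValueAt P (∏ i ∈ s, f i) (∏ i ∈ s, g i) := by
  classical
  induction s using Finset.induction_on with
  | empty => simpa using isValueAt_one P
  | insert i s hi ih =>
    rw [Finset.prod_insert hi, Finset.prod_insert hi]
    exact (h i (Finset.mem_insert_self i s)).mul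
      (ih fun j hj => h j (Finset.mem_insert_of_mem hj))

theorem isValueAt_sum {ι : Type*} {P : Place K F} (s : Finset ι) (f : ι → F) (g : ι → K)
    (h : ∀ i ∈ s, IsValueAt P (f i) (g i)) : IsValueAt P (∑ i ∈ s, f i) (∑ i ∈ s, g i) := by
  classical
  induction s using Finset.induction_on with
  | empty => simpa using isValueAt_zero P
  | insert i s hi ih =>
    rw [Finset.sum_insert hi, Finset.sum_insert hi]
    exact (h i (Finset.mem_insert_self i s)).add
      (ih fun j hj => h j (Finset.mem_insert_of_mem hj))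

/-- A value congruent to `1` is nonzero. -/
theorem ne_zero_of_valuation_sub_one_lt {A : ValuationSubring K} {d : K}
    (h : A.valuation (d - 1) < 1) : d ≠ 0 := by
  rintro rfl
  rw [zero_sub, Valuation.map_neg, map_one] at h
  exact lt_irrefl _ h

/-- A value congruent to `1` has valuation `1`. -/
theorem valuation_eq_one_of_sub_one_lt {A : ValuationSubring K} {d : K}
    (h : A.valuation (d - 1) < 1) : A.valuation d = 1 := by
  have h1 : d = 1 + (d - 1) := by ring
  rw [h1, Valuation.map_add_eq_of_lt_left, map_one]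
  rw [map_one]
  exact h

/-! ### the values of a factorisation at the places of the tube -/

section Factor

variable {A : ValuationSubring K} {T : Set (Place K F)} (C : AnnulusCore A T)

/-- Two places of the tube with the same value of `u` coincide. -/
theorem eq_of_evalAt_eq {P Q : Place K F} (hP : P ∈ T) (hQ : Q ∈ T)
    (h : evalAt P C.u = evalAt Q C.u) : P = Q := by
  obtain ⟨h1, h2, h3⟩ := isValueAt_evalAt_u C hP
  obtain ⟨h1', -, -⟩ := isValueAt_evalAt_u C hQ
  obtain ⟨R, -, hR⟩ := C.bij (evalAt P C.u) h2 h3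
  rw [hR P ⟨hP, h1⟩, hR Q ⟨hQ, by rw [h]; exact h1'⟩]

/-- the monomial part of a factorisation -/
def mono (S : Finset (Place K F)) (n : Place K F → ℤ) (b : ℤ) (c : K) : F :=
  c • (C.u ^ b * ∏ Q ∈ S, (C.u - algebraMap K F (evalAt Q C.u)) ^ n Q)

/-- At a place of the tube outside `S` the monomial part has a nonzero value. -/
theorem exists_isValueAt_mono {S : Finset (Place K F)} (n : Place K F → ℤ) (b : ℤ) {c : K}
    (hS : ∀ Q ∈ S, Q ∈ T) (hc : c ≠ 0) {P : Place K F} (hP : P ∈ T) (hPS : P ∉ S) :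
    ∃ e : K, e ≠ 0 ∧ IsValueAt P (mono C S n b c) e := by
  obtain ⟨h1, h2, -⟩ := isValueAt_evalAt_u C hP
  have hu0 : evalAt P C.u ≠ 0 := by
    intro h0
    rw [h0, map_zero] at h2
    exact not_lt_zero h2
  have hne : ∀ Q ∈ S, evalAt P C.u - evalAt Q C.u ≠ 0 := by
    intro Q hQ h0
    apply hPS
    rw [eq_of_evalAt_eq C hP (hS Q hQ) (sub_eq_zero.mp h0)]
    exact hQ
  refine ⟨c * (evalAt P C.u ^ b * ∏ Q ∈ S, (evalAt P C.u - evalAt Q C.u) ^ n Q),
    mul_ne_zero hc (mul_ne_zero (zpow_ne_zero _ hu0)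
      (Finset.prod_ne_zero_iff.mpr fun Q hQ => zpow_ne_zero _ (hne Q hQ))), ?_⟩
  unfold mono
  refine IsValueAt.smul c ((isValueAt_zpow h1 hu0 b).mul (isValueAt_prod S _ _ fun Q hQ => ?_))
  exact isValueAt_zpow (h1.sub (isValueAt_algebraMap P _)) (hne Q hQ) (n Q)

open scoped Classical in
theorem mono_erase {S : Finset (Place K F)} (n : Place K F → ℤ) (b : ℤ) (c : K) {P : Place K F}
    (hPS : P ∈ S) :
    mono C S n b c =
      mono C (S.erase P) n b c * (C.u - algebraMap K F (evalAt P C.u)) ^ n P := by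
  classical
  unfold mono
  rw [← Finset.mul_prod_erase S _ hPS, Algebra.smul_def, Algebra.smul_def]
  ring

/-- the data of a factorisation of `y` -/
structure FactorData (y : F) where
  S : Finset (Place K F)
  n : Place K F → ℤ
  b : ℤ
  c : K
  mem : ∀ Q ∈ S, Q ∈ T
  c_ne : c ≠ 0
  unit : TubeUnit A T (y * (mono C S n b c)⁻¹)

theorem nonempty_factorData {y : F} (hy : y ≠ 0) : Nonempty (FactorData C y) := by
  obtain ⟨S, n, b, c, h1, h2, h3⟩ := C.factor y hy
  exact ⟨⟨S, n, b, c, h1, h2, h3⟩⟩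

variable {C}

theorem FactorData.eq_mul {y : F} (D : FactorData C y) {P : Place K F} (hP : P ∈ T) :
    mono C D.S D.n D.b D.c ≠ 0 ∧ y = (y * (mono C D.S D.n D.b D.c)⁻¹) * mono C D.S D.n D.b D.c := by
  obtain ⟨d, h1, h2⟩ := D.unit P hP
  have hd : d ≠ 0 := ne_zero_of_valuation_sub_one_lt h2
  have hg : mono C D.S D.n D.b D.c ≠ 0 := by
    intro h0
    rw [h0, inv_zero, mul_zero] at h1
    exact hd ((isValueAt_zero P).unique h1).symm
  exact ⟨hg, by rw [mul_assoc, inv_mul_cancel₀ hg, mul_one]⟩

/-- **Off `S` the function has a nonzero value.** -/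
theorem FactorData.exists_isValueAt {y : F} (D : FactorData C y) {P : Place K F} (hP : P ∈ T)
    (hPS : P ∉ D.S) : ∃ e : K, e ≠ 0 ∧ IsValueAt P y e := by
  obtain ⟨d, h1, h2⟩ := D.unit P hP
  have hd : d ≠ 0 := ne_zero_of_valuation_sub_one_lt h2
  obtain ⟨e, he, h3⟩ := exists_isValueAt_mono C D.n D.b D.mem D.c_ne hP hPS
  refine ⟨d * e, mul_ne_zero hd he, ?_⟩
  rw [(D.eq_mul hP).2]
  exact h1.mul h3

/-- **At a place of `S` with negative exponent the function has no value** (a pole). -/
theorem FactorData.not_isValueAt {y : F} (D : FactorData C y) {P : Place K F}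
    (hPS : P ∈ D.S) (hn : D.n P < 0) (d : K) : ¬ IsValueAt P y d := by
  classical
  intro hval
  have hP : P ∈ T := D.mem P hPS
  obtain ⟨d1, h1, h2⟩ := D.unit P hP
  have hd1 : d1 ≠ 0 := ne_zero_of_valuation_sub_one_lt h2
  obtain ⟨e, he, h3⟩ := exists_isValueAt_mono C (S := D.S.erase P) D.n D.b
    (fun Q hQ => D.mem Q (Finset.mem_of_mem_erase hQ)) D.c_ne hP (Finset.notMem_erase P D.S)
  -- `t = u - u(P)` vanishes at `P`
  obtain ⟨hu, -, -⟩ := isValueAt_evalAt_u C hP
  set t : F := C.u - algebraMap K F (evalAt P C.u) with ht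
  have ht0 : IsValueAt P t 0 := by
    have := hu.sub (isValueAt_algebraMap P (evalAt P C.u))
    rwa [sub_self] at this
  have htne : t ≠ 0 := by
    intro h0
    have := C.simple P hP
    rw [← ht, h0, Place.ord_zero] at this
    exact zero_ne_one this
  obtain ⟨m, hm⟩ : ∃ m : ℕ, D.n P = -((m : ℤ) + 1) := ⟨(-D.n P - 1).toNat, by omega⟩
  -- `y * t^(m+1) = unit * outer part`
  have hy : y * t ^ (m + 1) =
      (y * (mono C D.S D.n D.b D.c)⁻¹) * mono C (D.S.erase P) D.n D.b D.c := by
    have hg := (D.eq_mul hP).1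
    have h4 := mono_erase C D.n D.b D.c hPS
    rw [← ht, hm, zpow_neg, ← Nat.cast_succ, zpow_natCast] at h4
    have hpow : t ^ (m + 1) ≠ 0 := pow_ne_zero _ htne
    have h5 : mono C (D.S.erase P) D.n D.b D.c = mono C D.S D.n D.b D.c * t ^ (m + 1) := by
      rw [h4, mul_assoc, inv_mul_cancel₀ hpow, mul_one]
    rw [h5]
    field_simp
  have hv1 : IsValueAt P (y * t ^ (m + 1)) (d * 0 ^ (m + 1)) := hval.mul (ht0.pow (m + 1))
  have hv2 : IsValueAt P (y * t ^ (m + 1)) (d1 * e) := by
    rw [hy]
    exact h1.mul h3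
  have := hv1.unique hv2
  rw [zero_pow (Nat.succ_ne_zero m), mul_zero] at this
  exact mul_ne_zero hd1 he this.symm

end Factor

/-! ### the normalising constant of `u - c` on the circle of gauge `a` -/

section Gam

variable (A : ValuationSubring K)

open scoped Classical in
/-- the generic size of `u - c` on the circle `|u| = |a|`: `a` if `|c| ≤ |a|`, `-c` otherwise -/
def gam (a c : K) : K := if A.valuation c ≤ A.valuation a then a else -c

variable {A}

theorem gam_of_le {a c : K} (h : A.valuation c ≤ A.valuation a) : gam A a c = a := by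
  unfold gam; rw [if_pos h]

theorem gam_of_lt {a c : K} (h : A.valuation a < A.valuation c) : gam A a c = -c := by
  unfold gam; rw [if_neg (not_le.mpr h)]

theorem gam_ne_zero {a : K} (ha : a ≠ 0) (c : K) : gam A a c ≠ 0 := by
  rcases le_or_gt (A.valuation c) (A.valuation a) with h | h
  · rw [gam_of_le h]; exact ha
  · rw [gam_of_lt h, neg_ne_zero]
    rintro rfl
    rw [map_zero] at h
    exact not_lt_zero h

/-- `|x - c| ≤ |gam a c|` for `x` on the circle. -/
theorem valuation_sub_le_gam {a c x : K} (hx : A.valuation x = A.valuation a) :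
    A.valuation (x - c) ≤ A.valuation (gam A a c) := by
  rcases le_or_gt (A.valuation c) (A.valuation a) with h | h
  · rw [gam_of_le h]
    exact (Valuation.map_sub _ _ _).trans (max_le hx.le h)
  · rw [gam_of_lt h, Valuation.map_neg]
    exact (Valuation.map_sub _ _ _).trans (max_le (hx.le.trans h.le) le_rfl)

/-- `|x - c| = |gam a c|` for `x` on the circle outside the residue class of `c`. -/
theorem valuation_sub_eq_gam {a c x : K} (hx : A.valuation x = A.valuation a)
    (hn : ¬ A.valuation (x - c) < A.valuation a) :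
    A.valuation (x - c) = A.valuation (gam A a c) := by
  rcases le_or_gt (A.valuation c) (A.valuation a) with h | h
  · rw [gam_of_le h]
    exact le_antisymm ((Valuation.map_sub _ _ _).trans (max_le hx.le h)) (not_lt.mp hn)
  · rw [gam_of_lt h, Valuation.map_neg, Valuation.map_sub_swap]
    exact Valuation.map_sub_eq_of_lt_left _ (by rw [hx]; exact h)

end Gam

section Red

variable {A : ValuationSubring K} [IsAlgClosed (ResidueField A)] {T : Set (Place K F)}
  {C : AnnulusCore A T} {a : K}

local notation "k" => ResidueField A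

/-! ### functions with nonzero reduction on the circle -/

/-- `z` has a nonzero reduction on the circle of gauge `a`. -/
def IsUnitRed (C : AnnulusCore A T) (a : K) (z : F) : Prop :=
  ∃ zb : RatFunc k, zb ≠ 0 ∧ IsRed C a z zb

theorem isUnitRed_one : IsUnitRed C a (1 : F) := ⟨1, one_ne_zero, isRed_one⟩

theorem IsUnitRed.mul {z z' : F} (h : IsUnitRed C a z) (h' : IsUnitRed C a z') :
    IsUnitRed C a (z * z') := by
  obtain ⟨zb, hzb, hz⟩ := h
  obtain ⟨zb', hzb', hz'⟩ := h'
  exact ⟨zb * zb', mul_ne_zero hzb hzb', hz.mul hz'⟩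

theorem IsUnitRed.inv {z : F} (h : IsUnitRed C a z) : IsUnitRed C a z⁻¹ := by
  obtain ⟨zb, hzb, hz⟩ := h
  exact ⟨zb⁻¹, inv_ne_zero hzb, hz.inv hzb⟩

theorem IsUnitRed.pow {z : F} (h : IsUnitRed C a z) (n : ℕ) : IsUnitRed C a (z ^ n) := by
  induction n with
  | zero => rw [pow_zero]; exact isUnitRed_one
  | succ n ih => rw [pow_succ]; exact ih.mul h

theorem IsUnitRed.zpow {z : F} (h : IsUnitRed C a z) (n : ℤ) : IsUnitRed C a (z ^ n) := by
  cases n with
  | ofNat n => rw [Int.ofNat_eq_natCast, zpow_natCast]; exact h.pow n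
  | negSucc n => rw [zpow_negSucc]; exact (h.pow (n + 1)).inv

theorem IsUnitRed.prod {ι : Type*} (s : Finset ι) (f : ι → F)
    (h : ∀ i ∈ s, IsUnitRed C a (f i)) : IsUnitRed C a (∏ i ∈ s, f i) := by
  classical
  induction s using Finset.induction_on with
  | empty => rw [Finset.prod_empty]; exact isUnitRed_one
  | insert i s hi ih =>
    rw [Finset.prod_insert hi]
    exact (h i (Finset.mem_insert_self i s)).mul
      (ih fun j hj => h j (Finset.mem_insert_of_mem hj))

theorem isUnitRed_tubeUnit {ε : F} (hε : TubeUnit A T ε) : IsUnitRed C a ε :=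
  ⟨1, one_ne_zero, isRed_tubeUnit hε⟩

theorem isUnitRed_coord (ha : a ≠ 0) : IsUnitRed C a (a⁻¹ • C.u) :=
  ⟨RatFunc.X, RatFunc.X_ne_zero, isRed_coord ha⟩

/-- `(u - c) / gam a c` has a nonzero reduction on the circle. -/
theorem isUnitRed_coord_sub (ha : a ≠ 0) (c : K) :
    IsUnitRed C a ((gam A a c)⁻¹ • (C.u - algebraMap K F c)) := by
  rcases le_or_gt (A.valuation c) (A.valuation a) with hle | hgt
  · rw [gam_of_le hle]
    have hca : c / a ∈ A := by
      rw [← A.valuation_le_one_iff, map_div₀]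
      exact div_le_one_of_le₀ hle zero_le
    refine ⟨RatFunc.X - RatFunc.C (residue A ⟨c / a, hca⟩), ratFunc_X_sub_C_ne_zero _, ?_⟩
    have h := (isRed_coord (C := C) ha).add (isRed_const (C := C) (a := a) hca).neg
    rw [← sub_eq_add_neg, ← sub_eq_add_neg, RatFunc.algebraMap_eq_C] at h
    have he : a⁻¹ • (C.u - algebraMap K F c) = a⁻¹ • C.u - algebraMap K F (c / a) := by
      rw [smul_sub, Algebra.smul_def a⁻¹ (algebraMap K F c), ← map_mul, inv_mul_eq_div]
    rw [he]
    exact h
  · rw [gam_of_lt hgt]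
    have hc0 : c ≠ 0 := by
      rintro rfl
      rw [map_zero] at hgt
      exact not_lt_zero hgt
    have hac : A.valuation (a / c) < 1 := by
      rw [map_div₀]
      exact (div_lt_one₀ (lt_of_le_of_lt zero_le hgt)).mpr hgt
    have hac' : a / c ∈ A := (A.valuation_le_one_iff _).mp hac.le
    have hres : residue A ⟨a / c, hac'⟩ = 0 := by
      rw [residue_eq_zero_iff]
      exact (A.valuation_lt_one_iff _).mpr hac
    refine ⟨1, one_ne_zero, ?_⟩
    have h := (isRed_one (C := C) (a := a)).add
      ((isRed_const (C := C) (a := a) hac').mul (isRed_coord (C := C) ha)).neg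
    rw [hres, map_zero, zero_mul, neg_zero, add_zero, ← sub_eq_add_neg] at h
    have he : (-c)⁻¹ • (C.u - algebraMap K F c) =
        1 - algebraMap K F (a / c) * (a⁻¹ • C.u) := by
      have h1 : algebraMap K F (a / c) * algebraMap K F a⁻¹ = algebraMap K F c⁻¹ := by
        rw [← map_mul]
        congr 1
        field_simp
      have h2 : algebraMap K F (-c)⁻¹ = - algebraMap K F c⁻¹ := by rw [inv_neg, map_neg]
      have h3 : algebraMap K F c⁻¹ * algebraMap K F c = 1 := by
        rw [← map_mul, inv_mul_cancel₀ hc0, map_one]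
      rw [Algebra.smul_def, Algebra.smul_def, ← mul_assoc, h1, h2]
      linear_combination h3
    rw [he]
    exact h

/-! ### integral and unit values at a point -/

/-- `z` has an integral value at `P`. -/
def IntAt (A : ValuationSubring K) (P : Place K F) (z : F) : Prop :=
  ∃ d : K, d ∈ A ∧ IsValueAt P z d

/-- `z` has a unit value at `P`. -/
def UnitAt (A : ValuationSubring K) (P : Place K F) (z : F) : Prop :=
  ∃ d : K, A.valuation d = 1 ∧ IsValueAt P z d

omit [IsAlgClosed (ResidueField A)] in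
theorem UnitAt.intAt {P : Place K F} {z : F} (h : UnitAt A P z) : IntAt A P z := by
  obtain ⟨d, hd, h⟩ := h
  exact ⟨d, mem_of_valuation_eq_one A hd, h⟩

omit [IsAlgClosed (ResidueField A)] in
theorem intAt_one (P : Place K F) : IntAt A P (1 : F) := ⟨1, A.one_mem, isValueAt_one P⟩

omit [IsAlgClosed (ResidueField A)] in
theorem unitAt_one (P : Place K F) : UnitAt A P (1 : F) := ⟨1, map_one _, isValueAt_one P⟩

omit [IsAlgClosed (ResidueField A)] in
theorem IntAt.mul {P : Place K F} {z z' : F} (h : IntAt A P z) (h' : IntAt A P z') :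
    IntAt A P (z * z') := by
  obtain ⟨d, hd, h⟩ := h
  obtain ⟨d', hd', h'⟩ := h'
  exact ⟨d * d', A.mul_mem _ _ hd hd', h.mul h'⟩

omit [IsAlgClosed (ResidueField A)] in
theorem IntAt.pow {P : Place K F} {z : F} (h : IntAt A P z) (n : ℕ) : IntAt A P (z ^ n) := by
  obtain ⟨d, hd, h⟩ := h
  exact ⟨d ^ n, pow_mem hd n, h.pow n⟩

omit [IsAlgClosed (ResidueField A)] in
theorem IntAt.smul {P : Place K F} {z : F} (h : IntAt A P z) {c : K} (hc : c ∈ A) :
    IntAt A P (c • z) := by
  obtain ⟨d, hd, h⟩ := h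
  exact ⟨c * d, A.mul_mem _ _ hc hd, h.smul c⟩

omit [IsAlgClosed (ResidueField A)] in
theorem UnitAt.mul {P : Place K F} {z z' : F} (h : UnitAt A P z) (h' : UnitAt A P z') :
    UnitAt A P (z * z') := by
  obtain ⟨d, hd, h⟩ := h
  obtain ⟨d', hd', h'⟩ := h'
  exact ⟨d * d', by rw [map_mul, hd, hd', one_mul], h.mul h'⟩

omit [IsAlgClosed (ResidueField A)] in
theorem UnitAt.zpow {P : Place K F} {z : F} (h : UnitAt A P z) (n : ℤ) :
    UnitAt A P (z ^ n) := by
  obtain ⟨d, hd, h⟩ := h
  have hd0 : d ≠ 0 := by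
    rintro rfl
    rw [map_zero] at hd
    exact zero_ne_one hd
  exact ⟨d ^ n, by rw [map_zpow₀, hd, one_zpow], isValueAt_zpow h hd0 n⟩

omit [IsAlgClosed (ResidueField A)] in
theorem IntAt.prod {ι : Type*} {P : Place K F} (s : Finset ι) (f : ι → F)
    (h : ∀ i ∈ s, IntAt A P (f i)) : IntAt A P (∏ i ∈ s, f i) := by
  classical
  induction s using Finset.induction_on with
  | empty => rw [Finset.prod_empty]; exact intAt_one P
  | insert i s hi ih =>
    rw [Finset.prod_insert hi]
    exact (h i (Finset.mem_insert_self i s)).mul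
      (ih fun j hj => h j (Finset.mem_insert_of_mem hj))

omit [IsAlgClosed (ResidueField A)] in
/-- integer powers: nonnegative exponent or unit value -/
theorem intAt_zpow {P : Place K F} {z : F} (hz : IntAt A P z) {n : ℤ}
    (h : n < 0 → UnitAt A P z) : IntAt A P (z ^ n) := by
  rcases lt_or_ge n 0 with hn | hn
  · exact ((h hn).zpow n).intAt
  · obtain ⟨m, rfl⟩ := Int.eq_ofNat_of_zero_le hn
    rw [zpow_natCast]
    exact hz.pow m

omit [IsAlgClosed (ResidueField A)] in
theorem unitAt_tubeUnit {ε : F} (hε : TubeUnit A T ε) {P : Place K F} (hP : P ∈ T) :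
    UnitAt A P ε := by
  obtain ⟨d, h1, h2⟩ := hε P hP
  exact ⟨d, valuation_eq_one_of_sub_one_lt h2, h1⟩

omit [IsAlgClosed (ResidueField A)] in
theorem unitAt_coord (ha : a ≠ 0) {P : Place K F} (hP : P ∈ T)
    (hv : A.valuation (evalAt P C.u) = A.valuation a) : UnitAt A P (a⁻¹ • C.u) := by
  obtain ⟨h1, -, -⟩ := isValueAt_evalAt_u C hP
  refine ⟨a⁻¹ * evalAt P C.u, ?_, h1.smul a⁻¹⟩
  rw [inv_mul_eq_div]
  exact valuation_div_eq_one A ha hv

omit [IsAlgClosed (ResidueField A)] in
theorem intAt_coord_sub (_ha : a ≠ 0) (c : K) {P : Place K F} (hP : P ∈ T)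
    (hv : A.valuation (evalAt P C.u) = A.valuation a) :
    IntAt A P ((gam A a c)⁻¹ • (C.u - algebraMap K F c)) := by
  obtain ⟨h1, -, -⟩ := isValueAt_evalAt_u C hP
  refine ⟨(gam A a c)⁻¹ * (evalAt P C.u - c), ?_, (h1.sub (isValueAt_algebraMap P c)).smul _⟩
  rw [← A.valuation_le_one_iff, map_mul, map_inv₀, inv_mul_eq_div]
  exact div_le_one_of_le₀ (valuation_sub_le_gam hv) zero_le

omit [IsAlgClosed (ResidueField A)] in
theorem unitAt_coord_sub (ha : a ≠ 0) (c : K) {P : Place K F} (hP : P ∈ T)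
    (hv : A.valuation (evalAt P C.u) = A.valuation a)
    (hn : ¬ A.valuation (evalAt P C.u - c) < A.valuation a) :
    UnitAt A P ((gam A a c)⁻¹ • (C.u - algebraMap K F c)) := by
  obtain ⟨h1, -, -⟩ := isValueAt_evalAt_u C hP
  refine ⟨(gam A a c)⁻¹ * (evalAt P C.u - c), ?_, (h1.sub (isValueAt_algebraMap P c)).smul _⟩
  rw [map_mul, map_inv₀, inv_mul_eq_div, valuation_sub_eq_gam hv hn]
  exact div_self ((Valuation.ne_zero_iff _).mpr (gam_ne_zero ha c))

end Red

theorem smul_zpow_alg (r : K) (x : F) (n : ℤ) : (r • x) ^ n = r ^ n • x ^ n := by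
  rw [Algebra.smul_def, mul_zpow, ← map_zpow₀, ← Algebra.smul_def]

theorem prod_smul_alg {ι : Type*} (s : Finset ι) (r : ι → K) (x : ι → F) :
    ∏ i ∈ s, (r i • x i) = (∏ i ∈ s, r i) • ∏ i ∈ s, x i := by
  simp_rw [Algebra.smul_def]
  rw [Finset.prod_mul_distrib, map_prod]

/-- residue classes on the circle: `|x' - x| < |a|` means the same class -/
theorem angRes_eq_of_valuation_sub_lt {A : ValuationSubring K} {a x x' : K} (ha : a ≠ 0)
    (hx : A.valuation x = A.valuation a) (hlt : A.valuation (x' - x) < A.valuation a) :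
    A.valuation x' = A.valuation a ∧ angRes A x' a = angRes A x a := by
  have hx' : A.valuation x' = A.valuation a := by
    have h1 : x' = x + (x' - x) := by ring
    rw [h1, Valuation.map_add_eq_of_lt_left _ (by rw [hx]; exact hlt), hx]
  refine ⟨hx', ?_⟩
  have h1 : x / a ∈ A := mem_of_valuation_eq_one A (valuation_div_eq_one A ha hx)
  have h2 : x' / a ∈ A := mem_of_valuation_eq_one A (valuation_div_eq_one A ha hx')
  unfold angRes
  rw [resOf_of_mem A h1, resOf_of_mem A h2, ← sub_eq_zero, ← map_sub, residue_eq_zero_iff]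
  apply (A.valuation_lt_one_iff _).mpr
  have h3 : ((⟨x' / a, h2⟩ - ⟨x / a, h1⟩ : A) : K) = (x' - x) / a := by
    push_cast
    ring
  rw [h3, map_div₀]
  exact (div_lt_one₀ (lt_of_le_of_lt zero_le hlt)).mpr hlt

section MP

variable {A : ValuationSubring K} [IsAlgClosed (ResidueField A)] {T : Set (Place K F)}
  (C : AnnulusCore A T) (a : K)

local notation "k" => ResidueField A

/-- the normalised monomial part of a factorisation on the circle of gauge `a` -/
def zmono (S : Finset (Place K F)) (n : Place K F → ℤ) (b : ℤ) : F :=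
  (a⁻¹ • C.u) ^ b * ∏ Q ∈ S,
    ((gam A a (evalAt Q C.u))⁻¹ • (C.u - algebraMap K F (evalAt Q C.u))) ^ n Q

/-- the generic size of the monomial part on the circle of gauge `a` -/
def gamTot (S : Finset (Place K F)) (n : Place K F → ℤ) (b : ℤ) (c : K) : K :=
  c * (a ^ b * ∏ Q ∈ S, (gam A a (evalAt Q C.u)) ^ n Q)

omit [IsAlgClosed (ResidueField A)] in
theorem mono_eq_smul (ha : a ≠ 0) (S : Finset (Place K F)) (n : Place K F → ℤ) (b : ℤ) (c : K) :
    mono C S n b c = gamTot C a S n b c • zmono C a S n b := by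
  unfold mono gamTot zmono
  simp_rw [smul_zpow_alg]
  rw [prod_smul_alg, smul_mul_smul_comm, smul_smul]
  congr 1
  have h1 : a ^ b * a⁻¹ ^ b = 1 := by
    rw [← mul_zpow, mul_inv_cancel₀ ha, one_zpow]
  have h2 : (∏ Q ∈ S, gam A a (evalAt Q C.u) ^ n Q) *
      ∏ Q ∈ S, (gam A a (evalAt Q C.u))⁻¹ ^ n Q = 1 := by
    rw [← Finset.prod_mul_distrib]
    apply Finset.prod_eq_one
    intro Q _
    rw [← mul_zpow, mul_inv_cancel₀ (gam_ne_zero ha _), one_zpow]
  calc c = c * ((a ^ b * a⁻¹ ^ b) * ((∏ Q ∈ S, gam A a (evalAt Q C.u) ^ n Q) *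
      ∏ Q ∈ S, (gam A a (evalAt Q C.u))⁻¹ ^ n Q)) := by rw [h1, h2, mul_one, mul_one]
    _ = _ := by ring

variable {C a}

theorem isUnitRed_zmono (ha : a ≠ 0) (S : Finset (Place K F)) (n : Place K F → ℤ) (b : ℤ) :
    IsUnitRed C a (zmono C a S n b) :=
  ((isUnitRed_coord ha).zpow b).mul
    (IsUnitRed.prod S _ fun Q _ => (isUnitRed_coord_sub ha _).zpow (n Q))

omit [IsAlgClosed (ResidueField A)] in
theorem intAt_zmono (ha : a ≠ 0) (S : Finset (Place K F)) (n : Place K F → ℤ) (b : ℤ)
    {P : Place K F} (hP : P ∈ T) (hv : A.valuation (evalAt P C.u) = A.valuation a)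
    (hcond : ∀ Q ∈ S, n Q < 0 →
      ¬ A.valuation (evalAt P C.u - evalAt Q C.u) < A.valuation a) :
    IntAt A P (zmono C a S n b) :=
  (((unitAt_coord ha hP hv).zpow b).intAt).mul
    (IntAt.prod S _ fun Q hQ => intAt_zpow (intAt_coord_sub ha _ hP hv)
      fun hn => unitAt_coord_sub ha _ hP hv (hcond Q hQ hn))

variable (ha1 : A.valuation C.thick < A.valuation a) (ha2 : A.valuation a < 1)

include ha1 ha2 in
/-- If `γ • z` lies in the circle ring and `z` has nonzero reduction, then `γ` is integral. -/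
theorem mem_of_smul_mem_circleRing {γ : K} {z : F} (hz : IsUnitRed C a z)
    (hy : γ • z ∈ circleRing C a ha1 ha2) : γ ∈ A := by
  by_contra hγ
  have hγ0 : γ ≠ 0 := by
    rintro rfl
    exact hγ A.zero_mem
  have hinv : γ⁻¹ ∈ A := (A.mem_or_inv_mem γ).resolve_left hγ
  have hlt : A.valuation γ⁻¹ < 1 := by
    rw [map_inv₀]
    have h1 : 1 < A.valuation γ := by
      rw [← not_le, A.valuation_le_one_iff]
      exact hγ
    exact inv_lt_one_of_one_lt₀ h1
  have hres : residue A ⟨γ⁻¹, hinv⟩ = 0 := by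
    rw [residue_eq_zero_iff]
    exact (A.valuation_lt_one_iff _).mpr hlt
  obtain ⟨yb, hyb⟩ := (mem_circleRing_iff C a ha1 ha2).mp hy
  obtain ⟨zb, hzb, hzred⟩ := hz
  have h1 := (isRed_const (C := C) (a := a) hinv).mul hyb
  rw [hres, map_zero, zero_mul, ← Algebra.smul_def, smul_smul, inv_mul_cancel₀ hγ0, one_smul] at h1
  exact hzb (hzred.unique ha1 ha2 h1)

include ha1 ha2 in
/-- **Maximum principle on the circle.** A function of the circle ring which has no pole in the
residue class of the circle point `P` has an integral value at `P`. -/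
theorem exists_integral_value {y : F} (hy : y ∈ circleRing C a ha1 ha2) {P : Place K F}
    (hP : P ∈ T) (hv : A.valuation (evalAt P C.u) = A.valuation a)
    (hpole : ∀ Q ∈ T, A.valuation (evalAt Q C.u - evalAt P C.u) < A.valuation a →
      ∃ d : K, IsValueAt Q y d) :
    ∃ d : K, d ∈ A ∧ IsValueAt P y d := by
  have ha : a ≠ 0 := gauge_ne_zero ha1
  rcases eq_or_ne y 0 with rfl | hy0
  · exact ⟨0, A.zero_mem, isValueAt_zero P⟩
  obtain ⟨D⟩ := nonempty_factorData C hy0
  have hcond : ∀ Q ∈ D.S, D.n Q < 0 →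
      ¬ A.valuation (evalAt P C.u - evalAt Q C.u) < A.valuation a := by
    intro Q hQ hn hlt
    obtain ⟨d, hd⟩ := hpole Q (D.mem Q hQ) (by rwa [Valuation.map_sub_swap])
    exact D.not_isValueAt hQ hn d hd
  set ε : F := y * (mono C D.S D.n D.b D.c)⁻¹ with hε
  have hyz : y = gamTot C a D.S D.n D.b D.c • (ε * zmono C a D.S D.n D.b) := by
    rw [← mul_smul_comm, ← mono_eq_smul C a ha]
    exact (D.eq_mul hP).2
  have hunit : IsUnitRed C a (ε * zmono C a D.S D.n D.b) :=
    (isUnitRed_tubeUnit D.unit).mul (isUnitRed_zmono ha _ _ _)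
  have hint : IntAt A P (ε * zmono C a D.S D.n D.b) :=
    ((unitAt_tubeUnit D.unit hP).intAt).mul (intAt_zmono ha _ _ _ hP hv hcond)
  have hγ : gamTot C a D.S D.n D.b D.c ∈ A := by
    apply mem_of_smul_mem_circleRing ha1 ha2 hunit
    rw [← hyz]
    exact hy
  rw [hyz]
  exact hint.smul hγ

end MP

section BDD

variable {A : ValuationSubring K} [IsAlgClosed (ResidueField A)] {T : Set (Place K F)}
  {C : AnnulusCore A T} {a : K}
  (ha1 : A.valuation C.thick < A.valuation a) (ha2 : A.valuation a < 1)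

local notation "k" => ResidueField A

include ha1 ha2 in
/-- **(bdd) for the circle of gauge `a`.** The coordinates of the elements of the circle ring in
a finite-dimensional subspace are bounded. -/
theorem circleRing_bdd {n : ℕ} (w : Fin n → F) (hw : LinearIndependent K w) :
    ∃ B : K, B ≠ 0 ∧ ∀ c : Fin n → K, (∑ j, c j • w j) ∈ circleRing C a ha1 ha2 →
      ∀ j, A.valuation (c j) ≤ A.valuation B := by
  classical
  have ha : a ≠ 0 := gauge_ne_zero ha1
  -- factorisations of the `w j`
  have hD : ∀ j, Nonempty (FactorData C (w j)) := fun j => nonempty_factorData C (hw.ne_zero j)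
  let D : ∀ j, FactorData C (w j) := fun j => (hD j).some
  let Bad : Finset (Place K F) := Finset.univ.biUnion fun j => (D j).S
  have hBad : ∀ Q ∈ T, Q ∉ Bad → ∀ j, ∃ e : K, IsValueAt Q (w j) e := by
    intro Q hQ hQB j
    have hQS : Q ∉ (D j).S := fun h => hQB (Finset.mem_biUnion.mpr ⟨j, Finset.mem_univ j, h⟩)
    obtain ⟨e, -, he⟩ := (D j).exists_isValueAt hQ hQS
    exact ⟨e, he⟩
  let E : Finset k := insert 0 (Bad.image (ubar A C.u a))
  let Sg : Set (Place K F) :=
    {P | P ∈ T ∧ A.valuation (evalAt P C.u) = A.valuation a ∧ ubar A C.u a P ∉ E}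
  -- infinitely many good points
  have hSg : Sg.Infinite := by
    have hsub : ((E : Set k))ᶜ ⊆ ubar A C.u a '' Sg := by
      intro cb hcb
      have hcb0 : cb ≠ 0 := by
        rintro rfl
        exact hcb (Finset.mem_coe.mpr (Finset.mem_insert_self _ _))
      obtain ⟨P, hP, hv, hub⟩ := exists_circle_point C ha1 ha2 cb hcb0
      exact ⟨P, ⟨hP, hv, by rw [hub]; exact fun h => hcb (Finset.mem_coe.mpr h)⟩, hub⟩
    exact Set.Infinite.of_image _ ((E.finite_toSet.infinite_compl).mono hsub)
  -- in the class of a good point all `w j` have values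
  have hclass : ∀ P ∈ Sg, ∀ Q ∈ T,
      A.valuation (evalAt Q C.u - evalAt P C.u) < A.valuation a →
      ∀ j, ∃ e : K, IsValueAt Q (w j) e := by
    rintro P ⟨-, hv, hPE⟩ Q hQ hlt
    apply hBad Q hQ
    intro hQB
    apply hPE
    have h1 : ubar A C.u a Q = ubar A C.u a P := (angRes_eq_of_valuation_sub_lt ha hv hlt).2
    rw [← h1]
    exact Finset.mem_insert_of_mem (Finset.mem_image_of_mem _ hQB)
  let m : Place K F → Fin n → K := fun P j => evalAt P (w j)
  have hm1 : ∀ P ∈ Sg, ∀ j, IsValueAt P (w j) (m P j) := by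
    intro P hPg j
    obtain ⟨e, he⟩ := hclass P hPg P hPg.1 (by
      rw [sub_self, map_zero]
      exact lt_of_le_of_lt zero_le ha1) j
    have : m P j = e := evalAt_eq_of_isValueAt he
    rw [this]
    exact he
  have hm2 : ∀ P ∈ Sg, ∀ c : Fin n → K,
      IsValueAt P (∑ j, c j • w j) (∑ j, c j * m P j) := by
    intro P hPg c
    exact isValueAt_sum _ _ _ fun j _ => (hm1 P hPg j).smul (c j)
  -- zeros of a nonzero combination
  have hm : ∀ c : Fin n → K, c ≠ 0 → {P | P ∈ Sg ∧ ∑ j, c j * m P j = 0}.Finite := by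
    intro c hc
    have hy : (∑ j, c j • w j) ≠ 0 := by
      intro h0
      apply hc
      funext j
      exact Fintype.linearIndependent_iff.mp hw c h0 j
    obtain ⟨Dy⟩ := nonempty_factorData C hy
    refine Dy.S.finite_toSet.subset ?_
    rintro P ⟨hPg, hzero⟩
    by_contra hPS
    obtain ⟨e, he0, he⟩ := Dy.exists_isValueAt hPg.1 hPS
    have h1 := hm2 P hPg c
    rw [hzero] at h1
    exact he0 (he.unique h1)
  -- the maximum principle at the good points
  have hmax : ∀ P ∈ Sg, ∀ c : Fin n → K,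
      (∑ j, c j • w j) ∈ (circleRing C a ha1 ha2 : Set F) →
      A.valuation (∑ j, c j * m P j) ≤ 1 := by
    intro P hPg c hc
    obtain ⟨d, hd, hval⟩ := exists_integral_value ha1 ha2 hc hPg.1 hPg.2.1 (by
      intro Q hQ hlt
      have h1 : ∀ j, ∃ e : K, IsValueAt Q (w j) e := hclass P hPg Q hQ hlt
      choose e he using h1
      exact ⟨_, isValueAt_sum _ _ _ fun j _ => (he j).smul (c j)⟩)
    have : d = ∑ j, c j * m P j := hval.unique (hm2 P hPg c)
    rw [← this]
    exact (A.valuation_le_one_iff d).mpr hd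
  exact Fermat.Agent.BR.EvalBound.exists_bound_of_eval A.valuation
    (circleRing C a ha1 ha2 : Set F) w Sg hSg m hm hmax

include ha1 ha2 in
/-- **(bdd) in the shape of `DVRLattice`**: if `ϖ` scales every constant into `A`, a fixed power of
`ϖ` scales the coordinates of the elements of the circle ring in `span w` into `A`. -/
theorem circleRing_bdd_pow (ϖ : K) (hϖ : ∀ B : K, ∃ N : ℕ, ϖ ^ N * B ∈ A) {n : ℕ}
    (w : Fin n → F) (hw : LinearIndependent K w) :
    ∃ N : ℕ, ∀ c : Fin n → K, (∑ j, c j • w j) ∈ circleRing C a ha1 ha2 →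
      ∀ j, ϖ ^ N * c j ∈ A := by
  obtain ⟨B, -, hB⟩ := circleRing_bdd ha1 ha2 w hw
  obtain ⟨N, hN⟩ := hϖ B
  refine ⟨N, fun c hc j => ?_⟩
  rw [← A.valuation_le_one_iff] at hN ⊢
  rw [map_mul] at hN ⊢
  exact le_trans (mul_le_mul' le_rfl (hB c hc j)) hN

end BDD

end Fermat.Agent.BR.Circle.Bound
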