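/-
Program B (bad reduction), block B7, node B7.BDD, file 3 (helper20): the coordinate bound of
`BR/Circle/Bound.lean` in the shape `ApproxAssembly.CoordBounded (circleBall C a)` consumed by
`BR/Circle/Approx.lean`, and `circleRing_approx` with that hypothesis discharged.

* `coordBounded_circleBall : CoordBounded (circleBall C a ha1 ha2)`;
* `circleRing_approx_of_cover` : best approximation for the circle ring from `IsRankOne A` and a
  cover of `F` by circle forms (the hypothesis `hbdd` of `CircleApprox.circleRing_approx` removed).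
-/
import Mathlib
import Fermat.Agent.BR.Circle.Bound
import Fermat.Agent.BR.Circle.Approx

set_option autoImplicit false

namespace Fermat.Agent.BR.Circle.Bound

open AlgebraicCurve IsLocalRing Fermat.Agent.Red Fermat.Agent.BR Fermat.Agent.BR.DVRLattice
  Fermat.Agent.BR.ApproxAssembly Fermat.Agent.BR.Circle Fermat.Agent.BR.CircleApprox

variable {K F : Type*} [Field K] [Field F] [Algebra K F]
variable {A : ValuationSubring K} [IsAlgClosed (ResidueField A)] {T : Set (Place K F)}
  (C : AnnulusCore A T) (a : K)
  (ha1 : A.valuation C.thick < A.valuation a) (ha2 : A.valuation a < 1)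

/-- **(bdd)** for the circle ring as an abstract unit ball. -/
theorem coordBounded_circleBall : CoordBounded (circleBall C a ha1 ha2) := by
  intro n w hw
  obtain ⟨B, hB0, hB⟩ := circleRing_bdd ha1 ha2 w hw
  exact ⟨B, hB0, fun c hc j => hB c hc j⟩

/-- **(C6) without the hypothesis (bdd).** -/
theorem circleRing_approx_of_cover (hA : IsRankOne A)
    (hcov : ∀ s : Finset F, ∃ (K' : Subfield K) (F' : Subfield F) (ϖ : K),
      IsCircleForm C a K' F' ϖ ∧ ∀ x ∈ s, x ∈ F') :
    ∀ V : Submodule K F, Module.Finite K V → ∀ y : F, y ∉ V →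
      ∃ w ∈ V, ∃ c : K, c ≠ 0 ∧ ∃ h : c • (y - w) ∈ circleRing C a ha1 ha2,
        ∀ z : circleRing C a ha1 ha2, (z : F) ∈ V →
          circleRes C a ha1 ha2 z ≠ circleRes C a ha1 ha2 ⟨c • (y - w), h⟩ :=
  circleRing_approx C a ha1 ha2 hA (coordBounded_circleBall C a ha1 ha2) hcov

end Fermat.Agent.BR.Circle.Bound
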