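/-
Program B, node B7.5 (C4): conservation on a circle of an annulus.

`C : AnnulusCore A T` the K-level contract of a tube (`BR/Circle/Defs`), `a` a gauge with
`|thick| < |a| < 1`, `circleRing C a` / `circleRes C a` the valuation ring of the circle
`|u(P)| = |a|` and its residue map onto `k(X)`.

* `ord_of_factor` : **(i)** the divisor of `y` on the tube is read off its factorisation
  `y = c · u^b · ∏_{Q ∈ S} (u - u(Q))^(n Q) · (tube unit)`: for `P ∈ T`,
  `ord_P y = n P` if `P ∈ S`, `0` otherwise;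
* `ord_placeAt_factorRed` : **(ii)** the order of the reduction formula `factorRed` at the point
  `X = c̄` (`c̄ ≠ 0`) of the exceptional line is `∑ n Q` over the `Q ∈ S` on the circle which reduce
  to `c̄`;
* `mapDomain_redExc_apply` : the push-forward of a divisor along `AnnulusRed.redExc`, evaluated at
  `X = c̄`;
* `circle_conservation` : **(iii)** the field `conservation` of `Refine.ChainFamily`, verbatim, for
  `O := circleRing C a`, `res := circleRes C a`.
-/
import Mathlib
import Fermat.Agent.BR.Circle.Factor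
import Fermat.Agent.BR.AnnulusCompat
import Fermat.Agent.X0.Alg.PlaceBasic

set_option autoImplicit false

noncomputable section

namespace Fermat.Agent.BR.Circle

open AlgebraicCurve IsLocalRing Fermat.Agent.Red Fermat.Agent.BR.InertiaRed
  Fermat.Agent.BR.AnnulusRed Fermat.Agent.BR.P1 Fermat.Agent.BR.Centre

variable {K F : Type*} [Field K] [Field F] [Algebra K F]

/-- The order of a product of integral powers. -/
theorem ord_prod_zpow_aux (P : Place K F) {ι : Type*} (s : Finset ι) (x : ι → F) (n : ι → ℤ)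
    (hx : ∀ i ∈ s, x i ≠ 0) : P.ord (∏ i ∈ s, x i ^ n i) = ∑ i ∈ s, n i * P.ord (x i) := by
  classical
  induction s using Finset.induction_on with
  | empty => simp
  | insert i s hi ih =>
    have hxi : x i ≠ 0 := hx i (Finset.mem_insert_self i s)
    have hxs : ∀ j ∈ s, x j ≠ 0 := fun j hj => hx j (Finset.mem_insert_of_mem hj)
    have hprod : ∏ j ∈ s, x j ^ n j ≠ 0 :=
      Finset.prod_ne_zero_iff.mpr fun j hj => zpow_ne_zero _ (hxs j hj)
    rw [Finset.prod_insert hi, Finset.sum_insert hi, P.ord_mul (zpow_ne_zero _ hxi) hprod,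
      P.ord_zpow, ih hxs]

variable {A : ValuationSubring K} {T : Set (Place K F)}

/-! ### (i) the divisor on the tube -/

section Tube

/-- A tube unit has order `0` on the tube. -/
theorem TubeUnit.ord_eq_zero {ε : F} (hε : TubeUnit A T ε) {P : Place K F} (hP : P ∈ T) :
    P.ord ε = 0 := by
  obtain ⟨d, h1, h2⟩ := hε P hP
  have hd0 : d ≠ 0 := by
    rintro rfl
    rw [zero_sub, Valuation.map_neg, map_one] at h2
    exact lt_irrefl _ h2
  exact h1.ord_eq_zero hd0

/-- A tube unit of a nonempty tube is nonzero. -/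
theorem TubeUnit.ne_zero {ε : F} (hε : TubeUnit A T ε) {P : Place K F} (hP : P ∈ T) :
    ε ≠ 0 := by
  rintro rfl
  obtain ⟨d, h1, h2⟩ := hε P hP
  have hd0 : d = 0 := h1.unique (isValueAt_zero P)
  rw [hd0, zero_sub, Valuation.map_neg, map_one] at h2
  exact lt_irrefl _ h2

variable [IsAlgClosed (ResidueField A)] (C : AnnulusCore A T)

omit [IsAlgClosed (ResidueField A)] in
/-- The values of the coordinate on the tube are nonzero. -/
theorem evalAt_u_ne_zero {P : Place K F} (hP : P ∈ T) : evalAt P C.u ≠ 0 := by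
  obtain ⟨-, h2, -⟩ := isValueAt_evalAt_u C hP
  intro h0
  rw [h0, map_zero] at h2
  exact not_lt_zero h2

omit [IsAlgClosed (ResidueField A)] in
/-- The coordinate has neither zero nor pole on the tube. -/
theorem ord_u_eq_zero {P : Place K F} (hP : P ∈ T) : P.ord C.u = 0 :=
  (isValueAt_evalAt_u C hP).1.ord_eq_zero (evalAt_u_ne_zero C hP)

omit [IsAlgClosed (ResidueField A)] in
theorem u_ne_zero_of_mem {P : Place K F} (hP : P ∈ T) : C.u ≠ 0 := by
  intro h0
  obtain ⟨c, h1, h2, -⟩ := C.val_mem P hP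
  rw [h0] at h1
  rw [h1.unique (isValueAt_zero P), map_zero] at h2
  exact not_lt_zero h2

omit [IsAlgClosed (ResidueField A)] in
/-- The coordinate is injective on the tube. -/
theorem evalAt_u_injOn {P Q : Place K F} (hP : P ∈ T) (hQ : Q ∈ T)
    (h : evalAt P C.u = evalAt Q C.u) : P = Q := by
  obtain ⟨hP1, hP2, hP3⟩ := isValueAt_evalAt_u C hP
  obtain ⟨hQ1, -, -⟩ := isValueAt_evalAt_u C hQ
  obtain ⟨R, -, hR⟩ := C.bij (evalAt P C.u) hP2 hP3
  rw [hR P ⟨hP, hP1⟩, hR Q ⟨hQ, h ▸ hQ1⟩]

open Classical in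
omit [IsAlgClosed (ResidueField A)] in
/-- On the tube, `u - u(Q)` has exactly a simple zero at `Q`. -/
theorem ord_u_sub {P Q : Place K F} (hP : P ∈ T) (hQ : Q ∈ T) :
    P.ord (C.u - algebraMap K F (evalAt Q C.u)) = if Q = P then 1 else 0 := by
  split_ifs with h
  · subst h
    exact C.simple Q hQ
  · have h1 := (isValueAt_evalAt_u C hP).1.sub (isValueAt_algebraMap P (evalAt Q C.u))
    exact h1.ord_eq_zero (sub_ne_zero.mpr fun e => h (evalAt_u_injOn C hQ hP e.symm))

omit [IsAlgClosed (ResidueField A)] in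
theorem u_sub_ne_zero {Q : Place K F} (hQ : Q ∈ T) :
    C.u - algebraMap K F (evalAt Q C.u) ≠ 0 := by
  intro h0
  have h1 := C.simple Q hQ
  rw [h0, Place.ord_zero] at h1
  exact zero_ne_one h1

omit [IsAlgClosed (ResidueField A)] in
theorem factorFun_ne_zero {S : Finset (Place K F)} {n : Place K F → ℤ} {b : ℤ} {c : K}
    (hS : ∀ Q ∈ S, Q ∈ T) (hc : c ≠ 0) {P : Place K F} (hP : P ∈ T) :
    factorFun C S n b c ≠ 0 := by
  unfold factorFun
  exact smul_ne_zero hc (mul_ne_zero (zpow_ne_zero _ (u_ne_zero_of_mem C hP))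
    (Finset.prod_ne_zero_iff.mpr fun Q hQ => zpow_ne_zero _ (u_sub_ne_zero C (hS Q hQ))))

open Classical in
omit [IsAlgClosed (ResidueField A)] in
/-- The divisor of the explicit part of a factorisation, on the tube. -/
theorem ord_factorFun {S : Finset (Place K F)} {n : Place K F → ℤ} {b : ℤ} {c : K}
    (hS : ∀ Q ∈ S, Q ∈ T) (hc : c ≠ 0) {P : Place K F} (hP : P ∈ T) :
    P.ord (factorFun C S n b c) = if P ∈ S then n P else 0 := by
  classical
  have hu0 : C.u ≠ 0 := u_ne_zero_of_mem C hP
  have hprod : ∏ Q ∈ S, (C.u - algebraMap K F (evalAt Q C.u)) ^ n Q ≠ 0 :=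
    Finset.prod_ne_zero_iff.mpr fun Q hQ => zpow_ne_zero _ (u_sub_ne_zero C (hS Q hQ))
  unfold factorFun
  rw [Algebra.smul_def, P.ord_mul ((map_ne_zero _).mpr hc) (mul_ne_zero (zpow_ne_zero _ hu0) hprod),
    Fermat.Agent.X0.Place.ord_algebraMap, zero_add, P.ord_mul (zpow_ne_zero _ hu0) hprod,
    P.ord_zpow, ord_u_eq_zero C hP, mul_zero, zero_add,
    ord_prod_zpow_aux P S _ _ fun Q hQ => u_sub_ne_zero C (hS Q hQ)]
  rw [Finset.sum_congr rfl fun Q hQ => by rw [ord_u_sub C hP (hS Q hQ)]]
  simp only [mul_ite, mul_one, mul_zero]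
  exact Finset.sum_ite_eq' S P n

open Classical in
omit [IsAlgClosed (ResidueField A)] in
/-- **(i)** The divisor of `y` on the tube, read off a factorisation. -/
theorem ord_of_factor {y : F} {S : Finset (Place K F)} {n : Place K F → ℤ} {b : ℤ} {c : K}
    (hS : ∀ Q ∈ S, Q ∈ T) (hc : c ≠ 0) (hε : TubeUnit A T (y * (factorFun C S n b c)⁻¹))
    {P : Place K F} (hP : P ∈ T) : P.ord y = if P ∈ S then n P else 0 := by
  have hg0 : factorFun C S n b c ≠ 0 := factorFun_ne_zero C hS hc hP
  have hy : y = (y * (factorFun C S n b c)⁻¹) * factorFun C S n b c := by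
    rw [mul_assoc, inv_mul_cancel₀ hg0, mul_one]
  rw [hy, P.ord_mul (hε.ne_zero hP) hg0, hε.ord_eq_zero hP, zero_add, ord_factorFun C hS hc hP]

end Tube

/-! ### (ii) the order of the reduction formula at a point of the exceptional line -/

section Formula

variable [IsAlgClosed (ResidueField A)]

local notation "k" => ResidueField A

theorem ord_placeAt_X_of_ne_zero {cb : k} (hcb : cb ≠ 0) :
    (placeAt k cb).ord (RatFunc.X : RatFunc k) = 0 := by
  have h := ord_placeAt_X_sub_of_ne (a := cb) (b := 0) hcb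
  rwa [map_zero, sub_zero] at h

open Classical in
/-- The order of the reduction of `u - c` at `X = c̄`, `c̄ ≠ 0`. -/
theorem ord_placeAt_redOf (a c : K) {cb : k} (hcb : cb ≠ 0) :
    (placeAt k cb).ord (redOf A a c) =
      if A.valuation c = A.valuation a ∧ angRes A c a = cb then 1 else 0 := by
  rcases lt_trichotomy (A.valuation c) (A.valuation a) with hlt | heq | hgt
  · rw [redOf_of_lt hlt, ord_placeAt_X_of_ne_zero hcb, if_neg fun h => hlt.ne h.1]
  · rw [redOf_of_le heq.le]
    by_cases h : angRes A c a = cb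
    · rw [if_pos ⟨heq, h⟩, h, ord_placeAt_X_sub]
    · rw [if_neg fun h' => h h'.2, ord_placeAt_X_sub_of_ne (Ne.symm h)]
  · rw [redOf_of_gt hgt, Place.ord_one, if_neg fun h => hgt.ne' h.1]

variable (C : AnnulusCore A T) (a : K)

open Classical in
/-- **(ii)** The order of the reduction formula at `X = c̄`, `c̄ ≠ 0`: the sum of the exponents of
the circle points reducing to `c̄`. -/
theorem ord_placeAt_factorRed (S : Finset (Place K F)) (n : Place K F → ℤ) (b : ℤ) {cb : k}
    (hcb : cb ≠ 0) :
    (placeAt k cb).ord (factorRed C a S n b) =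
      ∑ Q ∈ S with (A.valuation (evalAt Q C.u) = A.valuation a ∧ ubar A C.u a Q = cb), n Q := by
  have hX : (RatFunc.X : RatFunc k) ≠ 0 := RatFunc.X_ne_zero
  have hprod : ∏ Q ∈ S, redOf A a (evalAt Q C.u) ^ n Q ≠ 0 :=
    Finset.prod_ne_zero_iff.mpr fun Q _ => zpow_ne_zero _ (redOf_ne_zero A a _)
  unfold factorRed
  rw [Place.ord_mul _ (zpow_ne_zero _ hX) hprod, Place.ord_zpow, ord_placeAt_X_of_ne_zero hcb,
    mul_zero, zero_add, ord_prod_zpow_aux _ S _ _ fun Q _ => redOf_ne_zero A a _,
    Finset.sum_filter]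
  refine Finset.sum_congr rfl fun Q _ => ?_
  rw [ord_placeAt_redOf a _ hcb]
  unfold ubar
  simp only [mul_ite, mul_one, mul_zero]

end Formula

/-! ### (iii) conservation -/

section Conservation

variable [IsAlgClosed (ResidueField A)]

local notation "k" => ResidueField A

open Classical in
/-- The push-forward of a divisor along the reduction onto the exceptional line, at `X = c̄`. -/
theorem mapDomain_redExc_apply (u : F) (a : K) (D : Divisor K F) (cb : k) :
    Finsupp.mapDomain (redExc A T u a) D (some (placeAt k cb)) =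
      ∑ P ∈ D.support with
        (P ∈ T ∧ A.valuation (evalAt P u) = A.valuation a ∧ ubar A u a P = cb), D P := by
  rw [Finsupp.mapDomain, Finsupp.sum, Finsupp.finsetSum_apply, Finset.sum_filter]
  refine Finset.sum_congr rfl fun P _ => ?_
  rw [Finsupp.single_apply]
  refine if_congr ?_ rfl rfl
  rw [redExc_eq_some_iff]
  constructor
  · rintro ⟨⟨h1, h2⟩, h3⟩
    exact ⟨h1, h2, (placeAt_injective h3).symm⟩
  · rintro ⟨h1, h2, h3⟩
    exact ⟨⟨h1, h2⟩, by rw [h3]⟩

variable (C : AnnulusCore A T) (a : K)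
  (ha1 : A.valuation C.thick < A.valuation a) (ha2 : A.valuation a < 1)

include ha1 ha2

/-- Conservation at `X = c̄`, `c̄ ≠ 0`. -/
theorem circle_conservation_placeAt (y : circleRing C a ha1 ha2)
    (hy : circleRes C a ha1 ha2 y ≠ 0) (D : Divisor K F) (hD : ∀ P, D P = P.ord (y : F))
    {cb : k} (hcb : cb ≠ 0) :
    Finsupp.mapDomain (redExc A T C.u a) D (some (placeAt k cb)) =
      (placeAt k cb).ord (circleRes C a ha1 ha2 y) := by
  classical
  have hy0 : (y : F) ≠ 0 := by
    intro h0
    apply hy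
    have : y = 0 := Subtype.ext h0
    rw [this, map_zero]
  obtain ⟨S, n, b, c, hS, hc, hε⟩ := C.factor (y : F) hy0
  have hε' : TubeUnit A T ((y : F) * (factorFun C S n b c)⁻¹) := hε
  have hγ : factorCst C a S n b c ∈ A :=
    (A.valuation_le_one_iff _).mp ((mem_circleRing_iff_of_factor ha1 ha2 hc hε').mp y.2)
  have hres := circleRes_of_factor ha1 ha2 hc hε' y.2 hγ
  have hres' : circleRes C a ha1 ha2 y =
      RatFunc.C (residue A ⟨factorCst C a S n b c, hγ⟩) * factorRed C a S n b := hres
  have hC0 : (RatFunc.C (residue A ⟨factorCst C a S n b c, hγ⟩) : RatFunc k) ≠ 0 := by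
    intro h0
    rw [hres', h0, zero_mul] at hy
    exact hy rfl
  have hR0 : factorRed C a S n b ≠ 0 := by
    intro h0
    rw [hres', h0, mul_zero] at hy
    exact hy rfl
  rw [hres', Place.ord_mul _ hC0 hR0, ← RatFunc.algebraMap_eq_C,
    Fermat.Agent.X0.Place.ord_algebraMap, zero_add, ord_placeAt_factorRed C a S n b hcb,
    mapDomain_redExc_apply]
  -- compare the two sums
  have hDT : ∀ P ∈ T, D P = if P ∈ S then n P else 0 := fun P hP => by
    rw [hD P, ord_of_factor C hS hc hε' hP]
  rw [← Finset.sum_congr rfl (fun P hP => by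
    rw [hDT P (hS P (Finset.mem_filter.mp hP).1), if_pos (Finset.mem_filter.mp hP).1] :
      ∀ P ∈ S.filter (fun Q => A.valuation (evalAt Q C.u) = A.valuation a ∧ ubar A C.u a Q = cb),
        D P = n P)]
  refine Finset.sum_subset ?_ ?_
  · intro P hP
    rw [Finset.mem_filter] at hP ⊢
    obtain ⟨hsupp, hPT, hv, hub⟩ := hP
    refine ⟨?_, hv, hub⟩
    by_contra hPS
    rw [Finsupp.mem_support_iff, hDT P hPT, if_neg hPS] at hsupp
    exact hsupp rfl
  · intro P hP hnP
    rw [Finset.mem_filter] at hP hnP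
    by_contra hne
    exact hnP ⟨Finsupp.mem_support_iff.mpr hne, hS P hP.1, hP.2.1, hP.2.2⟩

/-- **(iii) Conservation on the circle** — the field `conservation` of `Refine.ChainFamily` for
`O := circleRing C a`, `res := circleRes C a`. -/
theorem circle_conservation (y : circleRing C a ha1 ha2)
    (hy : circleRes C a ha1 ha2 y ≠ 0) (D : Divisor K F) (hD : ∀ P, D P = P.ord (y : F))
    (Q : Place k (RatFunc k)) (hQ0 : Q ≠ placeAt k 0) (hQinf : Q ≠ placeInfty k) :
    Finsupp.mapDomain (redExc A T C.u a) D (some Q) = Q.ord (circleRes C a ha1 ha2 y) := by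
  rcases eq_placeAt_or_eq_placeInfty Q with ⟨cb, rfl⟩ | rfl
  · have hcb : cb ≠ 0 := by
      rintro rfl
      exact hQ0 rfl
    exact circle_conservation_placeAt C a ha1 ha2 y hy D hD hcb
  · exact absurd rfl hQinf

end Conservation

end Fermat.Agent.BR.Circle
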