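/-
Program B, node B7.5 (C4), part 2: the reduction formula at the two ends `X = 0`, `X = ∞` of the
exceptional line of a circle.

`C : AnnulusCore A T`, gauge `a`, `factorRed C a S n b = X^b · ∏_{Q ∈ S} redOf(u(Q))^(n Q)` the
reduction of a factorised function on the circle `|u| = |a|` (`BR/Circle/Factor`).

* `loExp C a S n b = b + ∑_{|u(Q)| < |a|} n Q`, `hiExp C a S n b = b + ∑_{|u(Q)| ≤ |a|} n Q`;
* `isValueAt_zero_factorRed` : `factorRed / X^loExp` has at `X = 0` the value
  `loCoeff = ∏_{|u(Q)| = |a|} (-ū(Q))^(n Q) ≠ 0`;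
* `isValueAt_infty_factorRed` : `factorRed / X^hiExp` has the value `1` at `X = ∞`;
* `ord_placeAt_zero_factorRed`, `ord_placeInfty_factorRed` : the orders `loExp`, `-hiExp`.
-/
import Mathlib
import Fermat.Agent.BR.Circle.Conserve
import Fermat.Agent.BR.Circle.Bound

set_option autoImplicit false

noncomputable section

namespace Fermat.Agent.BR.Circle

open AlgebraicCurve IsLocalRing Fermat.Agent.Red Fermat.Agent.BR.InertiaRed
  Fermat.Agent.BR.AnnulusRed Fermat.Agent.BR.P1 Fermat.Agent.BR.Centre

variable {K F : Type*} [Field K] [Field F] [Algebra K F]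

theorem prod_zpow_const_aux {G : Type*} [Field G] {ι : Type*} (s : Finset ι) {x : G}
    (hx : x ≠ 0) (n : ι → ℤ) : ∏ i ∈ s, x ^ n i = x ^ ∑ i ∈ s, n i := by
  classical
  induction s using Finset.induction_on with
  | empty => simp
  | insert i s hi ih => rw [Finset.prod_insert hi, Finset.sum_insert hi, ih, zpow_add₀ hx]

variable {A : ValuationSubring K} [IsAlgClosed (ResidueField A)] {T : Set (Place K F)}

local notation "k" => ResidueField A

/-! ### the coordinate at the two ends -/

theorem ord_placeAt_zero_X : (placeAt k 0).ord (RatFunc.X : RatFunc k) = 1 := by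
  have h := ord_placeAt_X_sub (0 : ResidueField A)
  rwa [map_zero, sub_zero] at h

theorem isValueAt_placeAt_X (cb : k) : IsValueAt (placeAt k cb) (RatFunc.X : RatFunc k) cb := by
  rw [isValueAt_iff]
  right
  rw [RatFunc.algebraMap_eq_C, ord_placeAt_X_sub]
  exact one_pos

theorem isValueAt_placeInfty_X_inv :
    IsValueAt (placeInfty k) ((RatFunc.X : RatFunc k))⁻¹ 0 := by
  rw [isValueAt_zero_iff, adicValuation_lt_one_iff]
  right
  rw [Place.ord_inv, ord_placeInfty_X]
  norm_num

/-! ### one factor -/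

open Classical in
/-- The value at `X = 0` of the reduction of `u - c`, divided by `X` when `|c| < |a|`. -/
theorem isValueAt_zero_redOf {a : K} (c : K) :
    IsValueAt (placeAt k 0)
      (redOf A a c * ((RatFunc.X : RatFunc k) ^
        (if A.valuation c < A.valuation a then (1 : ℤ) else 0))⁻¹)
      (if A.valuation c = A.valuation a then -(angRes A c a) else 1) := by
  rcases lt_trichotomy (A.valuation c) (A.valuation a) with hlt | heq | hgt
  · rw [redOf_of_lt hlt, if_pos hlt, if_neg hlt.ne, zpow_one, mul_inv_cancel₀ RatFunc.X_ne_zero]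
    exact isValueAt_one _
  · rw [redOf_of_le heq.le, if_neg heq.not_lt, if_pos heq, zpow_zero, inv_one, mul_one]
    have h := (isValueAt_placeAt_X (A := A) 0).sub (isValueAt_algebraMap (placeAt k 0)
      (angRes A c a))
    rwa [zero_sub, RatFunc.algebraMap_eq_C] at h
  · rw [redOf_of_gt hgt, if_neg (not_lt.mpr hgt.le), if_neg hgt.ne', zpow_zero, inv_one, mul_one]
    exact isValueAt_one _

open Classical in
/-- The value at `X = ∞` of the reduction of `u - c`, divided by `X` when `|c| ≤ |a|`. -/
theorem isValueAt_infty_redOf (a c : K) :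
    IsValueAt (placeInfty k)
      (redOf A a c * ((RatFunc.X : RatFunc k) ^
        (if A.valuation c ≤ A.valuation a then (1 : ℤ) else 0))⁻¹) 1 := by
  rcases le_or_gt (A.valuation c) (A.valuation a) with hle | hgt
  · rw [redOf_of_le hle, if_pos hle, zpow_one, sub_mul, mul_inv_cancel₀ RatFunc.X_ne_zero]
    have h := (isValueAt_one (placeInfty k)).sub
      ((isValueAt_algebraMap (placeInfty k) (angRes A c a)).mul
        (isValueAt_placeInfty_X_inv (A := A)))
    rwa [mul_zero, sub_zero, RatFunc.algebraMap_eq_C] at h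
  · rw [redOf_of_gt hgt, if_neg (not_le.mpr hgt), zpow_zero, inv_one, mul_one]
    exact isValueAt_one _

/-! ### the formula -/

variable (C : AnnulusCore A T) (a : K) (S : Finset (Place K F)) (n : Place K F → ℤ) (b : ℤ)

open Classical in
/-- The order of the reduction formula at `X = 0`. -/
def loExp : ℤ := b + ∑ Q ∈ S with A.valuation (evalAt Q C.u) < A.valuation a, n Q

open Classical in
/-- Minus the order of the reduction formula at `X = ∞`. -/
def hiExp : ℤ := b + ∑ Q ∈ S with A.valuation (evalAt Q C.u) ≤ A.valuation a, n Q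

open Classical in
/-- The lowest coefficient of the reduction formula. -/
def loCoeff : k :=
  ∏ Q ∈ S, (if A.valuation (evalAt Q C.u) = A.valuation a then -(ubar A C.u a Q) else 1) ^ n Q

omit [IsAlgClosed (ResidueField A)] in
theorem loCoeff_ne_zero (ha : a ≠ 0) : loCoeff C a S n ≠ 0 := by
  unfold loCoeff
  refine Finset.prod_ne_zero_iff.mpr fun Q _ => zpow_ne_zero _ ?_
  split_ifs with h
  · exact neg_ne_zero.mpr (ubar_ne_zero A ha h)
  · exact one_ne_zero

omit [IsAlgClosed (ResidueField A)] in
/-- Dividing the formula by a power of `X`, factor by factor. -/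
theorem factorRed_mul_inv (e : Place K F → ℤ) :
    factorRed C a S n b * ((RatFunc.X : RatFunc k) ^ (b + ∑ Q ∈ S, n Q * e Q))⁻¹ =
      ∏ Q ∈ S, (redOf A a (evalAt Q C.u) * ((RatFunc.X : RatFunc k) ^ e Q)⁻¹) ^ n Q := by
  have hX : (RatFunc.X : RatFunc k) ≠ 0 := RatFunc.X_ne_zero
  have h1 : ∏ Q ∈ S, (((RatFunc.X : RatFunc k) ^ e Q)⁻¹) ^ n Q =
      ((RatFunc.X : RatFunc k) ^ ∑ Q ∈ S, n Q * e Q)⁻¹ := by
    rw [← prod_zpow_const_aux S hX, ← Finset.prod_inv_distrib]
    refine Finset.prod_congr rfl fun Q _ => ?_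
    rw [inv_zpow, ← zpow_mul, mul_comm]
  simp only [mul_zpow]
  rw [Finset.prod_mul_distrib, h1]
  unfold factorRed
  rw [zpow_add₀ hX, mul_inv]
  field_simp

omit [IsAlgClosed (ResidueField A)] in
theorem loExp_eq :
    loExp C a S n b = b + ∑ Q ∈ S, n Q *
      (open Classical in
        if A.valuation (evalAt Q C.u) < A.valuation a then (1 : ℤ) else 0) := by
  unfold loExp
  rw [Finset.sum_filter]
  simp only [mul_ite, mul_one, mul_zero]

omit [IsAlgClosed (ResidueField A)] in
theorem hiExp_eq :
    hiExp C a S n b = b + ∑ Q ∈ S, n Q *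
      (open Classical in
        if A.valuation (evalAt Q C.u) ≤ A.valuation a then (1 : ℤ) else 0) := by
  unfold hiExp
  rw [Finset.sum_filter]
  simp only [mul_ite, mul_one, mul_zero]

/-- **The lowest coefficient**: `factorRed / X^loExp` has the value `loCoeff` at `X = 0`. -/
theorem isValueAt_zero_factorRed (ha : a ≠ 0) :
    IsValueAt (placeAt k 0)
      (factorRed C a S n b * ((RatFunc.X : RatFunc k) ^ loExp C a S n b)⁻¹)
      (loCoeff C a S n) := by
  classical
  rw [loExp_eq, factorRed_mul_inv]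
  unfold loCoeff
  refine Bound.isValueAt_prod S _ _ fun Q _ => ?_
  refine Bound.isValueAt_zpow (isValueAt_zero_redOf (a := a) (evalAt Q C.u)) ?_ (n Q)
  split_ifs with h
  · exact neg_ne_zero.mpr (ubar_ne_zero A ha h)
  · exact one_ne_zero

/-- **The highest coefficient**: `factorRed / X^hiExp` has the value `1` at `X = ∞`. -/
theorem isValueAt_infty_factorRed :
    IsValueAt (placeInfty k)
      (factorRed C a S n b * ((RatFunc.X : RatFunc k) ^ hiExp C a S n b)⁻¹) 1 := by
  classical
  rw [hiExp_eq, factorRed_mul_inv]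
  have h := Bound.isValueAt_prod (P := placeInfty k) S
    (fun Q => (redOf A a (evalAt Q C.u) * ((RatFunc.X : RatFunc k) ^
      (if A.valuation (evalAt Q C.u) ≤ A.valuation a then (1 : ℤ) else 0))⁻¹) ^ n Q)
    (fun Q => (1 : k) ^ n Q)
    fun Q _ => Bound.isValueAt_zpow (isValueAt_infty_redOf a (evalAt Q C.u)) one_ne_zero (n Q)
  simpa using h

/-- The order of the reduction formula at `X = 0`. -/
theorem ord_placeAt_zero_factorRed (ha : a ≠ 0) :
    (placeAt k 0).ord (factorRed C a S n b) = loExp C a S n b := by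
  have hX : (RatFunc.X : RatFunc k) ≠ 0 := RatFunc.X_ne_zero
  have h := (isValueAt_zero_factorRed C a S n b ha).ord_eq_zero (loCoeff_ne_zero C a S n ha)
  rw [Place.ord_mul _ (factorRed_ne_zero C a S n b) (inv_ne_zero (zpow_ne_zero _ hX)),
    Place.ord_inv, Place.ord_zpow, ord_placeAt_zero_X, mul_one] at h
  omega

/-- The order of the reduction formula at `X = ∞`. -/
theorem ord_placeInfty_factorRed :
    (placeInfty k).ord (factorRed C a S n b) = -hiExp C a S n b := by
  have hX : (RatFunc.X : RatFunc k) ≠ 0 := RatFunc.X_ne_zero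
  have h := (isValueAt_infty_factorRed C a S n b).ord_eq_zero one_ne_zero
  rw [Place.ord_mul _ (factorRed_ne_zero C a S n b) (inv_ne_zero (zpow_ne_zero _ hX)),
    Place.ord_inv, Place.ord_zpow, ord_placeInfty_X] at h
  omega

/-! ### the residue of a factorised function at the two ends -/

section Res

variable {C a S n b}
variable (ha1 : A.valuation C.thick < A.valuation a) (ha2 : A.valuation a < 1)

include ha1 ha2

/-- The lowest coefficient of the residue of a factorised function of the circle ring. -/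
theorem isValueAt_zero_circleRes {c : K} (hc : c ≠ 0) {y : F}
    (hε : TubeUnit A T (y * (factorFun C S n b c)⁻¹)) (hy : y ∈ circleRing C a ha1 ha2)
    (hγ : factorCst C a S n b c ∈ A) :
    IsValueAt (placeAt k 0)
      (circleRes C a ha1 ha2 ⟨y, hy⟩ * ((RatFunc.X : RatFunc k) ^ loExp C a S n b)⁻¹)
      (residue A ⟨factorCst C a S n b c, hγ⟩ * loCoeff C a S n) := by
  rw [circleRes_of_factor ha1 ha2 hc hε hy hγ, mul_assoc, ← RatFunc.algebraMap_eq_C]
  exact (isValueAt_algebraMap _ _).mul
    (isValueAt_zero_factorRed C a S n b (gauge_ne_zero ha1))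

/-- The highest coefficient of the residue of a factorised function of the circle ring. -/
theorem isValueAt_infty_circleRes {c : K} (hc : c ≠ 0) {y : F}
    (hε : TubeUnit A T (y * (factorFun C S n b c)⁻¹)) (hy : y ∈ circleRing C a ha1 ha2)
    (hγ : factorCst C a S n b c ∈ A) :
    IsValueAt (placeInfty k)
      (circleRes C a ha1 ha2 ⟨y, hy⟩ * ((RatFunc.X : RatFunc k) ^ hiExp C a S n b)⁻¹)
      (residue A ⟨factorCst C a S n b c, hγ⟩) := by
  rw [circleRes_of_factor ha1 ha2 hc hε hy hγ, mul_assoc, ← RatFunc.algebraMap_eq_C]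
  have h := (isValueAt_algebraMap (placeInfty k) (residue A ⟨factorCst C a S n b c, hγ⟩)).mul
    (isValueAt_infty_factorRed C a S n b)
  rwa [mul_one] at h

/-- The order at `X = 0` of a nonzero residue. -/
theorem ord_placeAt_zero_circleRes {c : K} (hc : c ≠ 0) {y : F}
    (hε : TubeUnit A T (y * (factorFun C S n b c)⁻¹)) (hy : y ∈ circleRing C a ha1 ha2)
    (hres : circleRes C a ha1 ha2 ⟨y, hy⟩ ≠ 0) :
    (placeAt k 0).ord (circleRes C a ha1 ha2 ⟨y, hy⟩) = loExp C a S n b := by
  have hγ : factorCst C a S n b c ∈ A :=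
    (A.valuation_le_one_iff _).mp ((mem_circleRing_iff_of_factor ha1 ha2 hc hε).mp hy)
  rw [circleRes_of_factor ha1 ha2 hc hε hy hγ] at hres ⊢
  rw [Place.ord_mul _ (left_ne_zero_of_mul hres) (right_ne_zero_of_mul hres),
    ← RatFunc.algebraMap_eq_C, Fermat.Agent.X0.Place.ord_algebraMap, zero_add,
    ord_placeAt_zero_factorRed C a S n b (gauge_ne_zero ha1)]

/-- The order at `X = ∞` of a nonzero residue. -/
theorem ord_placeInfty_circleRes {c : K} (hc : c ≠ 0) {y : F}
    (hε : TubeUnit A T (y * (factorFun C S n b c)⁻¹)) (hy : y ∈ circleRing C a ha1 ha2)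
    (hres : circleRes C a ha1 ha2 ⟨y, hy⟩ ≠ 0) :
    (placeInfty k).ord (circleRes C a ha1 ha2 ⟨y, hy⟩) = -hiExp C a S n b := by
  have hγ : factorCst C a S n b c ∈ A :=
    (A.valuation_le_one_iff _).mp ((mem_circleRing_iff_of_factor ha1 ha2 hc hε).mp hy)
  rw [circleRes_of_factor ha1 ha2 hc hε hy hγ] at hres ⊢
  rw [Place.ord_mul _ (left_ne_zero_of_mul hres) (right_ne_zero_of_mul hres),
    ← RatFunc.algebraMap_eq_C, Fermat.Agent.X0.Place.ord_algebraMap, zero_add,
    ord_placeInfty_factorRed C a S n b]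

end Res

end Fermat.Agent.BR.Circle
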