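/-
Program B (bad reduction), block B7, node (C6)-INST (helper20): the cover of `F` by circle forms
(`CircleApprox.IsCircleForm`), the last input of `circleRing_approx_of_cover`, from the K-level
contract `AnnulusCore` plus ONE finite-level fact per coefficient field `K'`: the maximal ideal of
the local ring `O` of the level-`K'` model at the crossing point is `(ϖ, u, v)` with
`u v = ϖ ^ e' ε`.  No blow-up chart, no completion.

* `exists_point_value_eq` : if `x = γ • z` with `z` of nonzero reduction on the circle of gauge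
  `a ∈ K'` and `K'` has the full residue field, then `|γ| = |x(P)|` at a tube point `P` with
  `u(P) ∈ K'` (a point of a generic residue class, lifted to `K'`);
* `isCircleForm_of_values` : `IsCircleForm C a K' F' ϖ` from (VAL): the values of the functions
  of `O` (generators of the field `F'`) at such points have valuations in `|ϖ|^ℤ`;
* `NodeLevel C K' ϖ O` : the node data at level `K'`; `NodeLevel.exists_eq_mul` (a non-unit value is
  `ϖ ·` a value), `NodeLevel.values` : (VAL);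
* `NodeLevel.isCircleForm`, `exists_cover_of_levels`, `circleRing_approx_of_levels` : best
  approximation for `circleRing C a` from `IsRankOne A` and a cofinal family of levels.
-/
import Mathlib
import Fermat.Agent.BR.Circle.BoundApprox

set_option autoImplicit false

noncomputable section

namespace Fermat.Agent.BR.Circle.Cover

open AlgebraicCurve IsLocalRing Fermat.Agent.Red Fermat.Agent.BR Fermat.Agent.BR.InertiaRed
  Fermat.Agent.BR.AnnulusRed Fermat.Agent.BR.P1 Fermat.Agent.BR.Centre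
  Fermat.Agent.BR.DVRLattice Fermat.Agent.BR.ApproxAssembly Fermat.Agent.BR.Circle
  Fermat.Agent.BR.CircleApprox

variable {K F : Type*} [Field K] [Field F] [Algebra K F]

section Generic

variable {A : ValuationSubring K} [IsAlgClosed (ResidueField A)] {T : Set (Place K F)}
  {C : AnnulusCore A T} {a : K}

local notation "k" => ResidueField A

/-- **The generic value is attained at a point with coordinate in `K'`.** If `x = γ • z` with `z`
of nonzero reduction on the circle of gauge `a ∈ K'` and `K'` has the full residue field, there is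
a tube point `P` with `u(P) ∈ K'`, `|u(P)| = |a|`, at which `x` has a value of size `|γ|`. -/
theorem exists_point_value_eq (ha1 : A.valuation C.thick < A.valuation a)
    (ha2 : A.valuation a < 1) (K' : Subfield K)
    (fullRes : ∀ (c : K) (hc : c ∈ A), ∃ (c' : K) (hc' : c' ∈ A), c' ∈ K' ∧
      residue A ⟨c', hc'⟩ = residue A ⟨c, hc⟩)
    (haK : a ∈ K') {γ : K} {z : F} {zb : RatFunc k} (hzb : zb ≠ 0) (hz : IsRed C a z zb) :
    ∃ c ∈ K', A.valuation c = A.valuation a ∧ ∃ P ∈ T, IsValueAt P C.u c ∧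
      ∃ d : K, IsValueAt P (γ • z) d ∧ A.valuation d = A.valuation γ := by
  classical
  have ha : a ≠ 0 := gauge_ne_zero ha1
  obtain ⟨E, hE⟩ := hz
  have hfin : (({0} : Set k) ∪ E ∪ {cb : k | 0 < (placeAt k cb).ord zb}).Finite :=
    ((Set.finite_singleton 0).union E.finite_toSet).union (finite_zeros hzb)
  obtain ⟨cb, hcb⟩ := hfin.exists_notMem (s := _)
  simp only [Set.mem_union, Set.mem_singleton_iff, Finset.mem_coe, Set.mem_ofPred_eq, not_or,
    not_lt] at hcb
  obtain ⟨⟨hcb0, hcbE⟩, hord⟩ := hcb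
  -- a lift of the class in `K'`
  obtain ⟨cl, rfl⟩ := residue_surjective cb
  obtain ⟨c0, hc0A, hc0K, hres⟩ := fullRes cl.1 cl.2
  have hres' : residue A ⟨c0, hc0A⟩ = residue A cl := hres
  have hc0u : A.valuation c0 = 1 := by
    have hu : IsUnit (⟨c0, hc0A⟩ : A) := by
      by_contra hnu
      apply hcb0
      rw [← hres']
      exact (residue_eq_zero_iff _).mpr ((mem_maximalIdeal _).mpr hnu)
    exact (A.valuation_eq_one_iff ⟨c0, hc0A⟩).mp hu
  have hv : A.valuation (a * c0) = A.valuation a := by rw [map_mul, hc0u, mul_one]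
  obtain ⟨P, ⟨hP, hPu⟩, -⟩ := C.bij (a * c0) (by rw [hv]; exact ha1) (by rw [hv]; exact ha2)
  have hev : evalAt P C.u = a * c0 := evalAt_eq_of_isValueAt hPu
  have hvP : A.valuation (evalAt P C.u) = A.valuation a := by rw [hev, hv]
  have hub : ubar A C.u a P = residue A cl := by
    unfold ubar angRes
    rw [hev, mul_div_cancel_left₀ _ ha, resOf_of_mem A hc0A, hres']
  refine ⟨a * c0, K'.mul_mem haK hc0K, hv, P, hP, hPu, ?_⟩
  obtain ⟨d, hd, h1, h2⟩ := hE P hP hvP (by rw [hub]; exact hcbE)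
  have hresd : residue A ⟨d, hd⟩ ≠ 0 := by
    intro h0
    rw [h0, hub, isValueAt_zero_iff, adicValuation_lt_one_iff] at h2
    rcases h2 with h2 | h2
    · exact hzb h2
    · exact absurd h2 (not_lt.mpr hord)
  have hdu : A.valuation d = 1 := by
    have hu : IsUnit (⟨d, hd⟩ : A) := by
      by_contra hnu
      exact hresd ((residue_eq_zero_iff _).mpr ((mem_maximalIdeal _).mpr hnu))
    exact (A.valuation_eq_one_iff ⟨d, hd⟩).mp hu
  exact ⟨γ * d, h1.smul γ, by rw [map_mul, hdu, mul_one]⟩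

end Generic

section Form

variable {A : ValuationSubring K} [IsAlgClosed (ResidueField A)] {T : Set (Place K F)}
  {C : AnnulusCore A T} {a : K}

local notation "k" => ResidueField A

/-- `x` becomes a circle unit after scaling by a power of `ϖ`. -/
def HasPowRed (C : AnnulusCore A T) (a ϖ : K) (x : F) : Prop :=
  ∃ (n : ℤ) (zb : RatFunc k), zb ≠ 0 ∧ IsRed C a (ϖ ^ n • x) zb

theorem HasPowRed.div {ϖ : K} (hϖ : ϖ ≠ 0) {x y : F} (hx : HasPowRed C a ϖ x)
    (hy : HasPowRed C a ϖ y) : HasPowRed C a ϖ (x / y) := by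
  obtain ⟨n, zb, hzb, hz⟩ := hx
  obtain ⟨m, wb, hwb, hw⟩ := hy
  refine ⟨n - m, zb * wb⁻¹, mul_ne_zero hzb (inv_ne_zero hwb), ?_⟩
  have h := hz.mul (hw.inv hwb)
  have he : ϖ ^ (n - m) • (x / y) = ϖ ^ n • x * (ϖ ^ m • y)⁻¹ := by
    rw [Algebra.smul_def, Algebra.smul_def, Algebra.smul_def, zpow_sub₀ hϖ, map_div₀, mul_inv]
    ring
  rw [he]
  exact h

/-- A nonzero function whose generic value on the circle is a power of `ϖ`. -/
theorem hasPowRed_of_valuation {ϖ γ : K} (hϖ : ϖ ≠ 0) {z : F} {zb : RatFunc k} (hzb : zb ≠ 0)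
    (hz : IsRed C a z zb) {n : ℤ} (hn : A.valuation γ = A.valuation ϖ ^ n) :
    HasPowRed C a ϖ (γ • z) := by
  have hγ1 : A.valuation (ϖ ^ (-n) * γ) = 1 := by
    rw [map_mul, map_zpow₀, hn, ← zpow_add₀ ((Valuation.ne_zero_iff _).mpr hϖ), neg_add_cancel,
      zpow_zero]
  have hmem : ϖ ^ (-n) * γ ∈ A := mem_of_valuation_eq_one A hγ1
  have hres : residue A ⟨ϖ ^ (-n) * γ, hmem⟩ ≠ 0 := by
    intro h0
    have h1 := (residue_eq_zero_iff _).mp h0
    have h2 : A.valuation (ϖ ^ (-n) * γ) < 1 := (A.valuation_lt_one_iff _).mp h1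
    rw [hγ1] at h2
    exact lt_irrefl _ h2
  refine ⟨-n, algebraMap k (RatFunc k) (residue A ⟨ϖ ^ (-n) * γ, hmem⟩) * zb,
    mul_ne_zero ((map_ne_zero _).mpr hres) hzb, ?_⟩
  have h := (isRed_const (C := C) (a := a) hmem).mul hz
  rwa [← Algebra.smul_def, ← smul_smul] at h

/-- **`IsCircleForm` from values at the tube points with coordinates in `K'`.** `O` is a set of
generators of the field `F'` (every element of `F'` is a quotient of elements of `O`). -/
theorem isCircleForm_of_values (ha1 : A.valuation C.thick < A.valuation a)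
    (ha2 : A.valuation a < 1) {K' : Subfield K} {F' : Subfield F} {ϖ : K}
    (dvr : IsDVRSubfield A K' ϖ)
    (fullRes : ∀ (c : K) (hc : c ∈ A), ∃ (c' : K) (hc' : c' ∈ A), c' ∈ K' ∧
      residue A ⟨c', hc'⟩ = residue A ⟨c, hc⟩)
    (algebraMap_mem : ∀ c ∈ K', algebraMap K F c ∈ F') (haK : a ∈ K') (O : Set F)
    (hfrac : ∀ x ∈ F', ∃ y1 ∈ O, ∃ y2 ∈ O, y2 ≠ 0 ∧ x = y1 / y2)
    (hval : ∀ c ∈ K', A.valuation c = A.valuation a → ∀ P ∈ T, IsValueAt P C.u c →
      ∀ y ∈ O, ∀ d : K, IsValueAt P y d → d ≠ 0 → ∃ n : ℤ, A.valuation d = A.valuation ϖ ^ n) :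
    IsCircleForm C a K' F' ϖ where
  dvr := dvr
  fullRes := fullRes
  algebraMap_mem := algebraMap_mem
  unit := by
    have hϖ : ϖ ≠ 0 := dvr.isModulus.ne_zero
    have key : ∀ y ∈ O, y ≠ 0 → HasPowRed C a ϖ y := by
      intro y hyO hy0
      obtain ⟨γ, z, zb, hγ, hzb, hz, rfl⟩ := isGen_of_ne_zero ha1 ha2 hy0
      obtain ⟨c, hcK, hvc, P, hP, hPu, d, hd, hdγ⟩ :=
        exists_point_value_eq ha1 ha2 K' fullRes haK (γ := γ) hzb hz
      have hd0 : d ≠ 0 := by
        rintro rfl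
        rw [map_zero] at hdγ
        exact hγ ((Valuation.zero_iff _).mp hdγ.symm)
      obtain ⟨n, hn⟩ := hval c hcK hvc P hP hPu _ hyO d hd hd0
      exact hasPowRed_of_valuation hϖ hzb hz (hdγ ▸ hn)
    intro x hxF hx0
    obtain ⟨y1, hy1, y2, hy2, hy20, rfl⟩ := hfrac x hxF
    have hy10 : y1 ≠ 0 := by
      rintro rfl
      exact hx0 (zero_div _)
    exact (key y1 hy1 hy10).div hϖ (key y2 hy2 hy20)

end Form

section Level

variable {A : ValuationSubring K} {T : Set (Place K F)}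

/-- **The node at level `K'`.** `O` is the local ring of the level-`K'` model at the crossing point:
it contains the integral constants of `K'`, its maximal ideal is `(ϖ, u, v)` with
`u v = ϖ ^ e' ε` (`ε` a unit), and the points of the tube are integral on it (with `|v(P)| < 1`:
they are centred at the crossing point). -/
structure NodeLevel (C : AnnulusCore A T) (K' : Subfield K) (ϖ : K) (O : Subring F) : Prop where
  const_mem : ∀ c ∈ K', c ∈ A → algebraMap K F c ∈ O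
  integral : ∀ P ∈ T, ∀ y ∈ O, ∃ d : K, d ∈ A ∧ IsValueAt P y d
  node : ∃ (v ε : F) (e' : ℕ), v ∈ O ∧ ε ∈ O ∧ ε⁻¹ ∈ O ∧ ε ≠ 0 ∧ C.u * v = ϖ ^ e' • ε ∧
    (∀ y ∈ O, y⁻¹ ∈ O ∨ ∃ y0 ∈ O, ∃ y1 ∈ O, ∃ y2 ∈ O, y = ϖ • y0 + C.u * y1 + v * y2) ∧
    (∀ P ∈ T, ∀ d : K, IsValueAt P v d → A.valuation d < 1)

variable {C : AnnulusCore A T} {K' : Subfield K} {ϖ : K} {O : Subring F}

/-- a value of a unit of `O` at a tube point has valuation `1` -/
theorem NodeLevel.valuation_eq_one_of_inv_mem (L : NodeLevel C K' ϖ O) {P : Place K F}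
    (hP : P ∈ T) {y : F} (hy : y ∈ O) (hyi : y⁻¹ ∈ O) (hy0 : y ≠ 0) {d : K}
    (hd : IsValueAt P y d) : A.valuation d = 1 := by
  obtain ⟨d1, hd1A, hd1⟩ := L.integral P hP y hy
  obtain ⟨d2, hd2A, hd2⟩ := L.integral P hP y⁻¹ hyi
  have hdd : d = d1 := hd.unique hd1
  subst hdd
  have h1 := hd1.mul hd2
  rw [mul_inv_cancel₀ hy0] at h1
  have h2 : d * d2 = 1 := h1.unique (isValueAt_one P)
  have h3 : A.valuation d * A.valuation d2 = 1 := by rw [← map_mul, h2, map_one]
  have h4 := (A.valuation_le_one_iff _).mpr hd1A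
  have h5 := (A.valuation_le_one_iff _).mpr hd2A
  refine le_antisymm h4 ?_
  calc (1 : _) = A.valuation d * A.valuation d2 := h3.symm
    _ ≤ A.valuation d * 1 := mul_le_mul' le_rfl h5
    _ = A.valuation d := mul_one _

/-- **One step**: a function of `O` with a non-unit value at a tube point `P` with `u(P) ∈ K'` has
value `ϖ ·` (the value of another function of `O`). -/
theorem NodeLevel.exists_eq_mul (L : NodeLevel C K' ϖ O) (dvr : IsDVRSubfield A K' ϖ) {c : K}
    (hcK : c ∈ K') (hc0 : c ≠ 0) (hc1 : A.valuation c < 1) {P : Place K F} (hP : P ∈ T)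
    (hPu : IsValueAt P C.u c) {y : F} (hy : y ∈ O) {d : K} (hd : IsValueAt P y d)
    (hd1 : A.valuation d < 1) : ∃ z ∈ O, ∃ d' : K, IsValueAt P z d' ∧ d = ϖ * d' := by
  obtain ⟨v, ε, e', hvO, hεO, hεiO, hε0, huv, hmax, hvsmall⟩ := L.node
  have hϖ0 : ϖ ≠ 0 := dvr.isModulus.ne_zero
  have hϖA : ϖ ∈ A := dvr.isModulus.mem
  have hϖ1 : A.valuation ϖ < 1 := (isModulus_iff_valuation.mp dvr.isModulus).2
  have hϖpos : 0 < A.valuation ϖ := lt_of_le_of_ne zero_le
    (Ne.symm ((Valuation.ne_zero_iff _).mpr hϖ0))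
  have hcA : c ∈ A := (A.valuation_le_one_iff c).mp hc1.le
  -- `c = ϖ ^ (m' + 1) * e0`
  obtain ⟨m, e0, he0A, he0iA, hce⟩ := dvr.factor c hcK hcA hc0
  have he00 : e0 ≠ 0 := by
    rintro rfl
    rw [mul_zero] at hce
    exact hc0 hce
  have he0v : A.valuation e0 = 1 := by
    have h1 := (A.valuation_le_one_iff _).mpr he0A
    have h2 := (A.valuation_le_one_iff _).mpr he0iA
    rw [map_inv₀] at h2
    have hpos : 0 < A.valuation e0 := lt_of_le_of_ne zero_le
      (Ne.symm ((Valuation.ne_zero_iff _).mpr he00))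
    exact le_antisymm h1 ((inv_le_one₀ hpos).mp h2)
  have hm : m ≠ 0 := by
    rintro rfl
    rw [hce, pow_zero, one_mul, he0v] at hc1
    exact lt_irrefl _ hc1
  obtain ⟨m', rfl⟩ : ∃ m', m = m' + 1 := ⟨m - 1, by omega⟩
  have he0K : e0 ∈ K' := by
    have : e0 = c / ϖ ^ (m' + 1) := by
      rw [hce, mul_div_cancel_left₀ _ (pow_ne_zero _ hϖ0)]
    rw [this]
    exact K'.div_mem hcK (K'.pow_mem dvr.mem _)
  -- the values of `v`, `ε`
  obtain ⟨dv, hdvA, hdv⟩ := L.integral P hP v hvO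
  obtain ⟨dε, hdεA, hdε⟩ := L.integral P hP ε hεO
  have hdε1 : A.valuation dε = 1 := L.valuation_eq_one_of_inv_mem hP hεO hεiO hε0 hdε
  have hdvs : A.valuation dv < 1 := hvsmall P hP dv hdv
  have hrel : c * dv = ϖ ^ e' * dε := by
    have h1 := hPu.mul hdv
    rw [huv] at h1
    exact h1.unique (hdε.smul _)
  -- `m' + 1 < e'`
  have hlt : A.valuation ϖ ^ e' < A.valuation ϖ ^ (m' + 1) := by
    have h1 : A.valuation ϖ ^ e' = A.valuation c * A.valuation dv := by
      rw [← map_mul, hrel, map_mul, map_pow, hdε1, mul_one]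
    have h2 : A.valuation c = A.valuation ϖ ^ (m' + 1) := by
      rw [hce, map_mul, map_pow, he0v, mul_one]
    have hcpos : 0 < A.valuation c := lt_of_le_of_ne zero_le
      (Ne.symm ((Valuation.ne_zero_iff _).mpr hc0))
    rw [h1, ← h2]
    calc A.valuation c * A.valuation dv < A.valuation c * 1 :=
          mul_lt_mul_of_pos_left hdvs hcpos
      _ = A.valuation c := mul_one _
  have hme : m' + 1 < e' := (pow_lt_pow_iff_right_of_lt_one₀ hϖpos hϖ1).mp hlt
  obtain ⟨j, rfl⟩ : ∃ j, e' = m' + 1 + (j + 1) := ⟨e' - (m' + 1) - 1, by omega⟩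
  have hdv' : dv = ϖ * (ϖ ^ j * e0⁻¹ * dε) := by
    have h1 : c * dv = c * (ϖ * (ϖ ^ j * e0⁻¹ * dε)) := by
      rw [hrel, hce]
      field_simp
      ring
    exact mul_left_cancel₀ hc0 h1
  -- the auxiliary constants
  have hk1K : ϖ ^ j * e0⁻¹ ∈ K' := K'.mul_mem (K'.pow_mem dvr.mem _) (K'.inv_mem he0K)
  have hk1A : ϖ ^ j * e0⁻¹ ∈ A := A.mul_mem _ _ (pow_mem hϖA _) he0iA
  have hk2K : ϖ ^ m' * e0 ∈ K' := K'.mul_mem (K'.pow_mem dvr.mem _) he0K
  have hk2A : ϖ ^ m' * e0 ∈ A := A.mul_mem _ _ (pow_mem hϖA _) he0A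
  rcases hmax y hy with hyi | ⟨y0, hy0, y1, hy1, y2, hy2, rfl⟩
  · rcases eq_or_ne y 0 with rfl | hy00
    · refine ⟨0, O.zero_mem, 0, isValueAt_zero P, ?_⟩
      rw [mul_zero]
      exact hd.unique (isValueAt_zero P)
    · have := L.valuation_eq_one_of_inv_mem hP hy hyi hy00 hd
      rw [this] at hd1
      exact absurd hd1 (lt_irrefl _)
  · obtain ⟨d0, -, hd0⟩ := L.integral P hP y0 hy0
    obtain ⟨d1, -, hd1'⟩ := L.integral P hP y1 hy1
    obtain ⟨d2, -, hd2⟩ := L.integral P hP y2 hy2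
    have hdval : d = ϖ * d0 + c * d1 + dv * d2 :=
      hd.unique (((hd0.smul ϖ).add (hPu.mul hd1')).add (hdv.mul hd2))
    refine ⟨y0 + (ϖ ^ m' * e0) • y1 + ((ϖ ^ j * e0⁻¹) • ε) * y2, ?_,
      d0 + (ϖ ^ m' * e0) * d1 + ((ϖ ^ j * e0⁻¹) * dε) * d2,
      (hd0.add (hd1'.smul _)).add ((hdε.smul _).mul hd2), ?_⟩
    · refine O.add_mem (O.add_mem hy0 ?_) (O.mul_mem ?_ hy2)
      · rw [Algebra.smul_def]
        exact O.mul_mem (L.const_mem _ hk2K hk2A) hy1
      · rw [Algebra.smul_def]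
        exact O.mul_mem (L.const_mem _ hk1K hk1A) hεO
    · rw [hdval, hdv', hce]
      ring

/-- **(VAL)**: the values of the functions of `O` at the tube points with coordinate in `K'` have
valuations in `|ϖ|^ℕ`. -/
theorem NodeLevel.values (L : NodeLevel C K' ϖ O) (dvr : IsDVRSubfield A K' ϖ)
    (harch : ∀ d : K, d ≠ 0 → ∃ N : ℕ, A.valuation ϖ ^ N < A.valuation d) {c : K}
    (hcK : c ∈ K') (hc0 : c ≠ 0) (hc1 : A.valuation c < 1) {P : Place K F} (hP : P ∈ T)
    (hPu : IsValueAt P C.u c) {y : F} (hy : y ∈ O) {d : K} (hd : IsValueAt P y d)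
    (hd0 : d ≠ 0) : ∃ n : ℕ, A.valuation d = A.valuation ϖ ^ n := by
  have hϖ0 : ϖ ≠ 0 := dvr.isModulus.ne_zero
  have hϖpos : 0 < A.valuation ϖ := lt_of_le_of_ne zero_le
    (Ne.symm ((Valuation.ne_zero_iff _).mpr hϖ0))
  have key : ∀ N : ℕ, ∀ y ∈ O, ∀ d : K, IsValueAt P y d → A.valuation ϖ ^ N < A.valuation d →
      ∃ n : ℕ, A.valuation d = A.valuation ϖ ^ n := by
    intro N
    induction N with
    | zero =>
      intro y hy d hd hlt
      obtain ⟨d1, hd1A, hd1⟩ := L.integral P hP y hy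
      have : d = d1 := hd.unique hd1
      subst this
      rw [pow_zero] at hlt
      exact absurd ((A.valuation_le_one_iff _).mpr hd1A) (not_le.mpr hlt)
    | succ N ih =>
      intro y hy d hd hlt
      rcases lt_or_ge (A.valuation d) 1 with hlt1 | hge1
      · obtain ⟨z, hz, d', hd', hdd⟩ := L.exists_eq_mul dvr hcK hc0 hc1 hP hPu hy hd hlt1
        have hlt' : A.valuation ϖ ^ N < A.valuation d' := by
          rw [hdd, map_mul, pow_succ'] at hlt
          exact lt_of_mul_lt_mul_left' hlt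
        obtain ⟨n, hn⟩ := ih z hz d' hd' hlt'
        exact ⟨n + 1, by rw [hdd, map_mul, hn, pow_succ']⟩
      · obtain ⟨d1, hd1A, hd1⟩ := L.integral P hP y hy
        have : d = d1 := hd.unique hd1
        subst this
        exact ⟨0, by rw [pow_zero]; exact le_antisymm ((A.valuation_le_one_iff _).mpr hd1A) hge1⟩
  obtain ⟨N, hN⟩ := harch d hd0
  exact key N y hy d hd hN

end Level

section Assembly

variable {A : ValuationSubring K}

/-- rank one: the powers of a modulus tend to `0`. -/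
theorem exists_pow_lt_of_isRankOne (hA : IsRankOne A) {ϖ : K} (hϖ : IsModulus A ϖ) {d : K}
    (hd : d ≠ 0) : ∃ N : ℕ, A.valuation ϖ ^ N < A.valuation d := by
  obtain ⟨N, hN⟩ := exists_pow_mul_mem_of_isRankOne hA hϖ d⁻¹
  have hϖ0 : ϖ ≠ 0 := hϖ.ne_zero
  have hϖ1 : A.valuation ϖ < 1 := (isModulus_iff_valuation.mp hϖ).2
  have hdpos : 0 < A.valuation d := lt_of_le_of_ne zero_le
    (Ne.symm ((Valuation.ne_zero_iff _).mpr hd))
  have hpos : 0 < A.valuation ϖ ^ N := by
    have : A.valuation ϖ ^ N ≠ 0 := pow_ne_zero _ ((Valuation.ne_zero_iff _).mpr hϖ0)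
    exact lt_of_le_of_ne zero_le (Ne.symm this)
  have h1 : A.valuation ϖ ^ N ≤ A.valuation d := by
    have h2 := (A.valuation_le_one_iff _).mpr hN
    rw [map_mul, map_pow, map_inv₀] at h2
    have := (mul_inv_le_iff₀ hdpos).mp h2
    rwa [one_mul] at this
  refine ⟨N + 1, lt_of_lt_of_le ?_ h1⟩
  rw [pow_succ]
  calc A.valuation ϖ ^ N * A.valuation ϖ < A.valuation ϖ ^ N * 1 :=
        mul_lt_mul_of_pos_left hϖ1 hpos
    _ = A.valuation ϖ ^ N := mul_one _

/-- `FullRes` in the difference form gives the residue form. -/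
theorem fullRes_of_sub_mem_nonunits {K' : Subfield K}
    (h : ∀ c ∈ A, ∃ c' ∈ K', c' ∈ A ∧ c - c' ∈ A.nonunits) :
    ∀ (c : K) (hc : c ∈ A), ∃ (c' : K) (hc' : c' ∈ A), c' ∈ K' ∧
      residue A ⟨c', hc'⟩ = residue A ⟨c, hc⟩ := by
  intro c hc
  obtain ⟨c', hc'K, hc'A, hsub⟩ := h c hc
  refine ⟨c', hc'A, hc'K, ?_⟩
  rw [eq_comm, ← sub_eq_zero, ← map_sub, residue_eq_zero_iff]
  apply (A.valuation_lt_one_iff _).mpr
  exact A.mem_nonunits_iff.mp hsub

variable [IsAlgClosed (ResidueField A)] {T : Set (Place K F)} (C : AnnulusCore A T) (a : K)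
  (ha1 : A.valuation C.thick < A.valuation a) (ha2 : A.valuation a < 1)

include ha1 ha2 in
/-- **`IsCircleForm` at one level** from the node data of the level. -/
theorem NodeLevel.isCircleForm (hA : IsRankOne A) {K' : Subfield K} {F' : Subfield F} {ϖ : K}
    {O : Subring F} (L : NodeLevel C K' ϖ O) (dvr : IsDVRSubfield A K' ϖ)
    (fullRes : ∀ (c : K) (hc : c ∈ A), ∃ (c' : K) (hc' : c' ∈ A), c' ∈ K' ∧
      residue A ⟨c', hc'⟩ = residue A ⟨c, hc⟩)
    (algebraMap_mem : ∀ c ∈ K', algebraMap K F c ∈ F') (haK : a ∈ K')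
    (hfrac : ∀ x ∈ F', ∃ y1 ∈ O, ∃ y2 ∈ O, y2 ≠ 0 ∧ x = y1 / y2) :
    IsCircleForm C a K' F' ϖ := by
  refine isCircleForm_of_values ha1 ha2 dvr fullRes algebraMap_mem haK (O : Set F) hfrac ?_
  intro c hcK hvc P hP hPu y hy d hd hd0
  have hc0 : c ≠ 0 := by
    rintro rfl
    rw [map_zero] at hvc
    exact gauge_ne_zero ha1 ((Valuation.zero_iff _).mp hvc.symm)
  obtain ⟨n, hn⟩ := L.values dvr (fun d hd => exists_pow_lt_of_isRankOne hA dvr.isModulus hd)
    hcK hc0 (by rw [hvc]; exact ha2) hP hPu hy hd hd0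
  exact ⟨n, by rw [zpow_natCast]; exact hn⟩

include ha1 ha2 in
/-- **The cover** (hypothesis `hcov` of `circleRing_approx_of_cover`) from a cofinal family of
levels. -/
theorem exists_cover_of_levels (hA : IsRankOne A)
    (hlev : ∀ s : Finset F, ∃ (K' : Subfield K) (F' : Subfield F) (ϖ : K) (O : Subring F),
      IsDVRSubfield A K' ϖ ∧
      (∀ (c : K) (hc : c ∈ A), ∃ (c' : K) (hc' : c' ∈ A), c' ∈ K' ∧
        residue A ⟨c', hc'⟩ = residue A ⟨c, hc⟩) ∧
      (∀ c ∈ K', algebraMap K F c ∈ F') ∧ a ∈ K' ∧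
      (∀ x ∈ F', ∃ y1 ∈ O, ∃ y2 ∈ O, y2 ≠ 0 ∧ x = y1 / y2) ∧
      NodeLevel C K' ϖ O ∧ ∀ x ∈ s, x ∈ F') :
    ∀ s : Finset F, ∃ (K' : Subfield K) (F' : Subfield F) (ϖ : K),
      IsCircleForm C a K' F' ϖ ∧ ∀ x ∈ s, x ∈ F' := by
  intro s
  obtain ⟨K', F', ϖ, O, dvr, fullRes, hmem, haK, hfrac, L, hs⟩ := hlev s
  exact ⟨K', F', ϖ, L.isCircleForm C a ha1 ha2 hA dvr fullRes hmem haK hfrac, hs⟩

/-- **Best approximation for the circle ring** from rank one and a cofinal family of levels with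
node data. -/
theorem circleRing_approx_of_levels (hA : IsRankOne A)
    (hlev : ∀ s : Finset F, ∃ (K' : Subfield K) (F' : Subfield F) (ϖ : K) (O : Subring F),
      IsDVRSubfield A K' ϖ ∧
      (∀ (c : K) (hc : c ∈ A), ∃ (c' : K) (hc' : c' ∈ A), c' ∈ K' ∧
        residue A ⟨c', hc'⟩ = residue A ⟨c, hc⟩) ∧
      (∀ c ∈ K', algebraMap K F c ∈ F') ∧ a ∈ K' ∧
      (∀ x ∈ F', ∃ y1 ∈ O, ∃ y2 ∈ O, y2 ≠ 0 ∧ x = y1 / y2) ∧
      NodeLevel C K' ϖ O ∧ ∀ x ∈ s, x ∈ F') :
    ∀ V : Submodule K F, Module.Finite K V → ∀ y : F, y ∉ V →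
      ∃ w ∈ V, ∃ c : K, c ≠ 0 ∧ ∃ h : c • (y - w) ∈ circleRing C a ha1 ha2,
        ∀ z : circleRing C a ha1 ha2, (z : F) ∈ V →
          circleRes C a ha1 ha2 z ≠ circleRes C a ha1 ha2 ⟨c • (y - w), h⟩ :=
  Fermat.Agent.BR.Circle.Bound.circleRing_approx_of_cover C a ha1 ha2 hA
    (exists_cover_of_levels C a ha1 ha2 hA hlev)

end Assembly

end Fermat.Agent.BR.Circle.Cover
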