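/-
Program B (bad reduction), block B7, node (C6)-INST, adapter (helper20): `Cover.NodeLevel` (element
form) from the ring-theoretic form of the node data of a level, as the producers state it: `R` a
local subring of `F` with maximal ideal `(π, u, v)`, `u v = thick ε₀` (`thick ∈ K'`, `ε₀` a unit of
`R`), every place of the tube centred at `R` (`Centre.CentredAt`).

* `inv_mem_of_isUnit` : units of a subring of a field;
* `nodeLevel_of_maximalIdeal_eq` : the adapter for `u v = ϖ ^ e' ε`;
* `nodeLevel_of_thick` : the adapter for `u v = thick ε₀`, `thick ∈ K'` (`thick = ϖ ^ m · unit`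
  because `K'` is discretely valued).
-/
import Mathlib
import Fermat.Agent.BR.Circle.Cover
import Fermat.Agent.BR.CentreOrd

set_option autoImplicit false

namespace Fermat.Agent.BR.Circle.Cover

open AlgebraicCurve IsLocalRing Fermat.Agent.Red Fermat.Agent.BR Fermat.Agent.BR.Centre
  Fermat.Agent.BR.DVRLattice Fermat.Agent.BR.Circle

variable {K F : Type*} [Field K] [Field F] [Algebra K F]

/-- The inverse of a unit of a subring of a field lies in the subring. -/
theorem inv_mem_of_isUnit {R : Subring F} {y : F} (hy : y ∈ R) (hu : IsUnit (⟨y, hy⟩ : R)) :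
    y⁻¹ ∈ R := by
  obtain ⟨⟨z, hz⟩, hyz⟩ := hu.exists_right_inv
  have h1 : y * z = 1 := congrArg Subtype.val hyz
  have h2 : y⁻¹ = z := inv_eq_of_mul_eq_one_right h1
  rw [h2]
  exact hz

variable {A : ValuationSubring K} {T : Set (Place K F)} {C : AnnulusCore A T}

/-- **`NodeLevel` from the ring-theoretic node data**, `u v = ϖ ^ e' ε`. -/
theorem nodeLevel_of_maximalIdeal_eq {R : Subring F} [IsLocalRing R] {K' : Subfield K} {ϖ : K}
    (hconst : ∀ c ∈ K', c ∈ A → algebraMap K F c ∈ R)
    (πR uR vR : R) (hπ : (πR : F) = algebraMap K F ϖ) (hu : (uR : F) = C.u)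
    (hmax : maximalIdeal R = Ideal.span {πR, uR, vR})
    {ε : F} (hε : ε ∈ R) (hεi : ε⁻¹ ∈ R) (hε0 : ε ≠ 0) {e' : ℕ}
    (huv : C.u * (vR : F) = ϖ ^ e' • ε)
    (hcent : ∀ P ∈ T, CentredAt A R P) : NodeLevel C K' ϖ R where
  const_mem := hconst
  integral := fun P hP y hy => (hcent P hP).choose y hy
  node := by
    refine ⟨(vR : F), ε, e', vR.2, hε, hεi, hε0, huv, ?_, ?_⟩
    · intro y hy
      by_cases hunit : IsUnit (⟨y, hy⟩ : R)
      · exact Or.inl (inv_mem_of_isUnit hy hunit)
      · right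
        have hmem : (⟨y, hy⟩ : R) ∈ maximalIdeal R := (mem_maximalIdeal _).mpr hunit
        rw [hmax, Ideal.mem_span_insert] at hmem
        obtain ⟨y0, z, hz, hyz⟩ := hmem
        rw [Ideal.mem_span_pair] at hz
        obtain ⟨y1, y2, rfl⟩ := hz
        refine ⟨(y0 : F), y0.2, (y1 : F), y1.2, (y2 : F), y2.2, ?_⟩
        have h1 := congrArg Subtype.val hyz
        simp only [Subring.coe_add, Subring.coe_mul] at h1
        rw [h1, hπ, hu, Algebra.smul_def]
        ring
    · intro P hP d hd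
      have hnu : ¬ IsUnit vR := by
        have hmem : vR ∈ maximalIdeal R := by
          rw [hmax]
          exact Ideal.subset_span (by simp)
        exact (mem_maximalIdeal _).mp hmem
      have h1 := (hcent P hP).valuation_evalAt_lt_one hnu
      rwa [evalAt_eq_of_isValueAt hd] at h1

/-- **`NodeLevel` from the ring-theoretic node data**, `u v = thick ε₀` with `thick ∈ K'`. -/
theorem nodeLevel_of_thick {R : Subring F} [IsLocalRing R] {K' : Subfield K} {ϖ : K}
    (dvr : IsDVRSubfield A K' ϖ)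
    (hconst : ∀ c ∈ K', c ∈ A → algebraMap K F c ∈ R)
    (πR uR vR : R) (hπ : (πR : F) = algebraMap K F ϖ) (hu : (uR : F) = C.u)
    (hmax : maximalIdeal R = Ideal.span {πR, uR, vR})
    {ε₀ : F} (hε : ε₀ ∈ R) (hεi : ε₀⁻¹ ∈ R) (hε0 : ε₀ ≠ 0) {thick : K} (hthK : thick ∈ K')
    (hthA : thick ∈ A) (hth0 : thick ≠ 0)
    (huv : C.u * (vR : F) = thick • ε₀)
    (hcent : ∀ P ∈ T, CentredAt A R P) : NodeLevel C K' ϖ R := by
  obtain ⟨m, e, heA, heiA, hte⟩ := dvr.factor thick hthK hthA hth0
  have hϖ0 : ϖ ≠ 0 := dvr.isModulus.ne_zero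
  have he0 : e ≠ 0 := by
    rintro rfl
    rw [mul_zero] at hte
    exact hth0 hte
  have heK : e ∈ K' := by
    have : e = thick / ϖ ^ m := by
      rw [hte, mul_div_cancel_left₀ _ (pow_ne_zero _ hϖ0)]
    rw [this]
    exact K'.div_mem hthK (K'.pow_mem dvr.mem _)
  have heR : algebraMap K F e ∈ R := hconst e heK heA
  have heiR : algebraMap K F e⁻¹ ∈ R := hconst e⁻¹ (K'.inv_mem heK) heiA
  refine nodeLevel_of_maximalIdeal_eq hconst πR uR vR hπ hu hmax (ε := e • ε₀) (e' := m)
    ?_ ?_ (smul_ne_zero he0 hε0) ?_ hcent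
  · rw [Algebra.smul_def]
    exact R.mul_mem heR hε
  · rw [Algebra.smul_def, mul_inv, ← map_inv₀]
    exact R.mul_mem heiR hεi
  · rw [huv, hte, smul_smul]

end Fermat.Agent.BR.Circle.Cover
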