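/-
Program B, node B7.5 (C6-DENSE): best approximation for the ring of a circle from the DENSITY of
`K(u)`.

`C : AnnulusCore A T`, gauge `a`.  The rational functions `K(X)` embed into `F` by `X ↦ u / a`
(`coordEmb`); the circle ring pulls back to the Gauss ring (`gaussRing`), on which best
approximation is `Val.approx_of_coeff` (coefficients of polynomials).  `approx_of_dense`
(`BR/ApproxDense.lean`) transports it to `F` along a dense embedding; the comparison hypothesis
is `Bound.circleRing_bdd`.

* `isRed_aeval_map` : polynomials in `u / a` with integral coefficients reduce coefficientwise;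
* `coordEmb`, `gaussRing`, `gaussRes`, `gauss_approx`;
* `approxAt_of_dense` : `ApproxAt C a` (the field `approx` of `Refine.ChainFamily`) from
  `DenseAt C a` : `∀ z ε, ε ≠ 0 → ∃ g : K(X), (z - g(u/a)) / ε ∈ circleRing C a`.
-/
import Mathlib
import Fermat.Agent.BR.Circle.Assembly
import Fermat.Agent.BR.Circle.Bound
import Fermat.Agent.BR.ApproxDense
import Fermat.Agent.Val.Approx

set_option autoImplicit false

noncomputable section

namespace Fermat.Agent.BR.Circle

open AlgebraicCurve IsLocalRing Fermat.Agent.Red Fermat.Agent.BR.InertiaRed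
  Fermat.Agent.BR.AnnulusRed Fermat.Agent.BR.P1 Fermat.Agent.BR.Centre Polynomial

variable {K : Type} {F : Type*} [Field K] [Field F] [Algebra K F]
variable {A : ValuationSubring K} [IsAlgClosed (ResidueField A)] {T : Set (Place K F)}
  (C : AnnulusCore A T) (a : K)
  (ha1 : A.valuation C.thick < A.valuation a) (ha2 : A.valuation a < 1)

local notation "k" => ResidueField A

/-! ### polynomials in the coordinate -/

/-- Polynomials in `u / a` with integral coefficients reduce coefficientwise. -/
theorem isRed_aeval_map (ha : a ≠ 0) (q : Polynomial A) :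
    IsRed C a (Polynomial.aeval (a⁻¹ • C.u) (q.map A.subtype))
      (algebraMap (Polynomial k) (RatFunc k) (q.map (residue A))) := by
  induction q using Polynomial.induction_on with
  | C c =>
    rw [Polynomial.map_C, Polynomial.aeval_C, Polynomial.map_C, RatFunc.algebraMap_C,
      ← RatFunc.algebraMap_eq_C]
    exact isRed_const c.2
  | add p q hp hq =>
    rw [Polynomial.map_add, map_add, Polynomial.map_add, map_add]
    exact hp.add hq
  | monomial n c h =>
    have e : (Polynomial.C c * X ^ (n + 1) : Polynomial A) = Polynomial.C c * X ^ n * X := by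
      rw [pow_succ, mul_assoc]
    have e1 : Polynomial.aeval (a⁻¹ • C.u) ((Polynomial.C c * X ^ (n + 1)).map A.subtype) =
        Polynomial.aeval (a⁻¹ • C.u) ((Polynomial.C c * X ^ n).map A.subtype) * a⁻¹ • C.u := by
      rw [e, Polynomial.map_mul, map_mul, Polynomial.map_X, Polynomial.aeval_X]
    have e2 : algebraMap (Polynomial k) (RatFunc k)
          ((Polynomial.C c * X ^ (n + 1)).map (residue A)) =
        algebraMap (Polynomial k) (RatFunc k) ((Polynomial.C c * X ^ n).map (residue A)) *
          RatFunc.X := by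
      rw [e, Polynomial.map_mul, map_mul, Polynomial.map_X, RatFunc.algebraMap_X]
    rw [e1, e2]
    exact h.mul (isRed_coord ha)

variable {C a}

omit [IsAlgClosed (ResidueField A)] in
/-- A polynomial with integral coefficients comes from a polynomial over `A`. -/
theorem exists_map_subtype_eq {p : Polynomial K} (hp : ∀ i, p.coeff i ∈ A) :
    ∃ q : Polynomial A, q.map A.subtype = p := by
  have h : p ∈ Polynomial.lifts A.subtype := by
    rw [Polynomial.lifts_iff_coeff_lifts]
    intro n
    exact ⟨⟨p.coeff n, hp n⟩, rfl⟩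
  exact (Polynomial.mem_lifts p).mp h

omit [IsAlgClosed (ResidueField A)] in
/-- A nonzero polynomial has a coefficient of maximal absolute value. -/
theorem exists_max_coeff {p : Polynomial K} (hp : p ≠ 0) :
    ∃ i₀, p.coeff i₀ ≠ 0 ∧ ∀ i, A.valuation (p.coeff i) ≤ A.valuation (p.coeff i₀) := by
  have hne : p.support.Nonempty := Polynomial.nonempty_support_iff.mpr hp
  obtain ⟨i₀, hi₀, hmax⟩ := Finset.exists_max_image p.support
    (fun i => A.valuation (p.coeff i)) hne
  refine ⟨i₀, Polynomial.mem_support_iff.mp hi₀, fun i => ?_⟩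
  by_cases hi : i ∈ p.support
  · exact hmax i hi
  · rw [Polynomial.notMem_support_iff.mp hi, map_zero]
    exact zero_le

include ha1 in
/-- A normalised polynomial (one coefficient `1`, all coefficients integral) in `u / a` has
nonzero reduction. -/
theorem exists_isRed_aeval_of_normalised {p : Polynomial K} (hp : ∀ i, p.coeff i ∈ A)
    {i₀ : ℕ} (h1 : p.coeff i₀ = 1) :
    ∃ zb : RatFunc k, zb ≠ 0 ∧ IsRed C a (Polynomial.aeval (a⁻¹ • C.u) p) zb := by
  obtain ⟨q, rfl⟩ := exists_map_subtype_eq hp
  refine ⟨_, ?_, isRed_aeval_map C a (gauge_ne_zero ha1) q⟩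
  rw [Ne, map_eq_zero_iff _ (RatFunc.algebraMap_injective k)]
  intro h0
  have h2 : (q.map (residue A)).coeff i₀ = 0 := by rw [h0, Polynomial.coeff_zero]
  rw [Polynomial.coeff_map] at h2
  rw [Polynomial.coeff_map] at h1
  have h3 : q.coeff i₀ = 1 := Subtype.ext h1
  rw [h3, map_one] at h2
  exact one_ne_zero h2

include ha1 ha2 in
/-- `u / a` is transcendental over `K`. -/
theorem aeval_coord_injective :
    Function.Injective (Polynomial.aeval (R := K) (a⁻¹ • C.u)) := by
  rw [injective_iff_map_eq_zero]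
  intro p hp0
  by_contra hp
  obtain ⟨i₀, hi₀, hmax⟩ := exists_max_coeff (A := A) hp
  set c := p.coeff i₀ with hc
  have hcoef : ∀ i, (Polynomial.C c⁻¹ * p).coeff i ∈ A := by
    intro i
    rw [Polynomial.coeff_C_mul]
    exact Fermat.Agent.Val.inv_mul_mem_of_valuation_le hi₀ (hmax i)
  have h1 : (Polynomial.C c⁻¹ * p).coeff i₀ = 1 := by
    rw [Polynomial.coeff_C_mul, ← hc, inv_mul_cancel₀ hi₀]
  obtain ⟨zb, hzb, hred⟩ := exists_isRed_aeval_of_normalised ha1 hcoef h1
  rw [map_mul, hp0, mul_zero] at hred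
  exact hzb (hred.unique ha1 ha2 isRed_zero)

variable (C a)

/-- The embedding `K(X) → F`, `X ↦ u / a`. -/
def coordEmb : RatFunc K →ₐ[K] F :=
  RatFunc.liftAlgHom (Polynomial.aeval (a⁻¹ • C.u))
    (nonZeroDivisors_le_comap_nonZeroDivisors_of_injective _
      (aeval_coord_injective ha1 ha2))

theorem coordEmb_algebraMap (p : Polynomial K) :
    coordEmb C a ha1 ha2 (algebraMap (Polynomial K) (RatFunc K) p) =
      Polynomial.aeval (a⁻¹ • C.u) p := by
  have h := RatFunc.liftAlgHom_apply_div (Polynomial.aeval (R := K) (a⁻¹ • C.u))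
    (nonZeroDivisors_le_comap_nonZeroDivisors_of_injective _
      (aeval_coord_injective ha1 ha2)) p 1
  rw [map_one, div_one, map_one, div_one] at h
  exact h

theorem coordEmb_X : coordEmb C a ha1 ha2 RatFunc.X = a⁻¹ • C.u := by
  rw [← RatFunc.algebraMap_X, coordEmb_algebraMap, Polynomial.aeval_X]

/-- The Gauss ring of `K(X)`: the pull-back of the circle ring. -/
def gaussRing : ValuationSubring (RatFunc K) :=
  (circleRing C a ha1 ha2).comap (coordEmb C a ha1 ha2).toRingHom

/-- The restriction of the embedding to the Gauss ring. -/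
def gaussToCircle : gaussRing C a ha1 ha2 →+* circleRing C a ha1 ha2 where
  toFun x := ⟨coordEmb C a ha1 ha2 x, x.2⟩
  map_one' := Subtype.ext (map_one _)
  map_mul' _ _ := Subtype.ext (map_mul _ _ _)
  map_zero' := Subtype.ext (map_zero _)
  map_add' _ _ := Subtype.ext (map_add _ _ _)

/-- The residue map of the Gauss ring. -/
def gaussRes : gaussRing C a ha1 ha2 →+* RatFunc k :=
  (circleRes C a ha1 ha2).comp (gaussToCircle C a ha1 ha2)

theorem gaussRes_apply (x : gaussRing C a ha1 ha2) :
    gaussRes C a ha1 ha2 x = circleRes C a ha1 ha2 ⟨coordEmb C a ha1 ha2 x, x.2⟩ := rfl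

theorem mem_gaussRing_iff {x : RatFunc K} :
    x ∈ gaussRing C a ha1 ha2 ↔ coordEmb C a ha1 ha2 x ∈ circleRing C a ha1 ha2 := Iff.rfl

/-! ### best approximation in the Gauss ring -/

/-- The subalgebra of polynomials of `K(X)`. -/
def polyAlg : Subalgebra K (RatFunc K) :=
  (IsScalarTower.toAlgHom K (Polynomial K) (RatFunc K)).range

/-- Polynomials as a subalgebra of `K(X)`. -/
def polyEquiv : Polynomial K ≃ₐ[K] polyAlg (K := K) :=
  AlgEquiv.ofInjective (IsScalarTower.toAlgHom K (Polynomial K) (RatFunc K))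
    (RatFunc.algebraMap_injective K)

theorem polyEquiv_coe (p : Polynomial K) :
    ((polyEquiv p : polyAlg (K := K)) : RatFunc K) = algebraMap (Polynomial K) (RatFunc K) p :=
  rfl

/-- The coefficient map of the polynomial subalgebra. -/
def polyCo : polyAlg (K := K) →ₗ[K] (ℕ → K) :=
  (LinearMap.pi fun i => Polynomial.lcoeff K i) ∘ₗ (polyEquiv (K := K)).symm.toLinearMap

theorem polyCo_apply (x : polyAlg (K := K)) (i : ℕ) :
    polyCo x i = ((polyEquiv (K := K)).symm x).coeff i := rfl

theorem coe_eq_algebraMap_symm (x : polyAlg (K := K)) :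
    (x : RatFunc K) = algebraMap (Polynomial K) (RatFunc K) ((polyEquiv (K := K)).symm x) := by
  rw [← polyEquiv_coe, AlgEquiv.apply_symm_apply]

/-- **Best approximation in the Gauss ring** (`Val.approx_of_coeff` for polynomials). -/
theorem gauss_approx (V₀ : Submodule K (RatFunc K)) (hV₀ : Module.Finite K V₀)
    (y₀ : RatFunc K) (hy₀ : y₀ ∉ V₀) :
    ∃ w ∈ V₀, ∃ c : K, c ≠ 0 ∧ ∃ h : c • (y₀ - w) ∈ gaussRing C a ha1 ha2,
      ∀ z : gaussRing C a ha1 ha2, (z : RatFunc K) ∈ V₀ →
        gaussRes C a ha1 ha2 z ≠ gaussRes C a ha1 ha2 ⟨c • (y₀ - w), h⟩ := by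
  have ha : a ≠ 0 := gauge_ne_zero ha1
  refine Fermat.Agent.Val.approx_of_coeff A (gaussRing C a ha1 ha2) (gaussRes C a ha1 ha2)
    ?_ (polyAlg (K := K)) polyCo ?_ ?_ ?_ ?_ V₀ hV₀ y₀ hy₀
  · -- nonzero residue ⇒ unit
    intro x hx
    rw [gaussRes_apply] at hx
    have hu : IsUnit (⟨coordEmb C a ha1 ha2 x, x.2⟩ : circleRing C a ha1 ha2) := by
      by_contra hnu
      exact hx ((circleRes_eq_zero_iff C a ha1 ha2 _).mpr hnu)
    obtain ⟨w, hw⟩ := hu.exists_right_inv
    have hw1 : coordEmb C a ha1 ha2 x * (w : F) = 1 := congrArg Subtype.val hw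
    have hx0 : (x : RatFunc K) ≠ 0 := by
      intro h0
      rw [h0, map_zero, zero_mul] at hw1
      exact zero_ne_one hw1
    have hinv : coordEmb C a ha1 ha2 (x : RatFunc K)⁻¹ = (w : F) := by
      rw [map_inv₀]
      exact inv_eq_of_mul_eq_one_right hw1
    have hmem : (x : RatFunc K)⁻¹ ∈ gaussRing C a ha1 ha2 := by
      rw [mem_gaussRing_iff, hinv]
      exact w.2
    exact IsUnit.of_mul_eq_one (⟨(x : RatFunc K)⁻¹, hmem⟩ : gaussRing C a ha1 ha2)
      (Subtype.ext (mul_inv_cancel₀ hx0))
  · -- contents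
    intro x hx
    have hp : (polyEquiv (K := K)).symm x ≠ 0 := by
      intro h0
      apply hx
      rw [← (polyEquiv (K := K)).apply_symm_apply x, h0, map_zero]
    obtain ⟨i₀, hi₀, hmax⟩ := exists_max_coeff (A := A) hp
    exact ⟨i₀, hi₀, hmax⟩
  · -- integral coefficients ⇒ in the ring
    intro x hx
    obtain ⟨q, hq⟩ := exists_map_subtype_eq (A := A) (p := (polyEquiv (K := K)).symm x) hx
    rw [mem_gaussRing_iff, coe_eq_algebraMap_symm x, coordEmb_algebraMap, ← hq]
    exact ⟨_, isRed_aeval_map C a ha q⟩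
  · -- the kernel of the residue map
    intro x hx
    set p := (polyEquiv (K := K)).symm x with hp
    have hxp : coordEmb C a ha1 ha2 (x : RatFunc K) = Polynomial.aeval (a⁻¹ • C.u) p := by
      rw [coe_eq_algebraMap_symm x, coordEmb_algebraMap]
    constructor
    · intro h0
      rw [gaussRes_apply] at h0
      by_cases hp0 : p = 0
      · intro i
        rw [polyCo_apply, ← hp, hp0, Polynomial.coeff_zero, map_zero]
        exact zero_lt_one
      obtain ⟨i₀, hi₀, hmax⟩ := exists_max_coeff (A := A) hp0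
      set c := p.coeff i₀ with hc
      by_contra hnot
      have hc1 : 1 ≤ A.valuation c := by
        by_contra hlt
        rw [not_le] at hlt
        exact hnot fun i => lt_of_le_of_lt (hmax i) hlt
      have hcoef : ∀ i, (Polynomial.C c⁻¹ * p).coeff i ∈ A := by
        intro i
        rw [Polynomial.coeff_C_mul]
        exact Fermat.Agent.Val.inv_mul_mem_of_valuation_le hi₀ (hmax i)
      have h1 : (Polynomial.C c⁻¹ * p).coeff i₀ = 1 := by
        rw [Polynomial.coeff_C_mul, ← hc, inv_mul_cancel₀ hi₀]
      obtain ⟨zb, hzb, hred⟩ := exists_isRed_aeval_of_normalised ha1 hcoef h1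
      have heq : Polynomial.aeval (a⁻¹ • C.u) p =
          c • Polynomial.aeval (a⁻¹ • C.u) (Polynomial.C c⁻¹ * p) := by
        rw [map_mul, Polynomial.aeval_C, Algebra.smul_def c, ← mul_assoc, ← map_mul,
          mul_inv_cancel₀ hi₀, map_one, one_mul]
      have hmem : c • Polynomial.aeval (a⁻¹ • C.u) (Polynomial.C c⁻¹ * p) ∈
          circleRing C a ha1 ha2 := by
        rw [← heq, ← hxp]
        exact hx
      have hc2 : A.valuation c ≤ 1 := (smul_mem_circleRing_iff ha1 ha2 hred hzb c).mp hmem
      have hcA : c ∈ A := (A.valuation_le_one_iff _).mp hc2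
      have hres := circleRes_smul ha1 ha2 hred hcA hmem
      have hcu : residue A ⟨c, hcA⟩ ≠ 0 := by
        intro h2
        rw [residue_eq_zero_iff] at h2
        have h3 := (A.valuation_lt_one_iff _).mp h2
        exact absurd h3 (not_lt.mpr hc1)
      have h4 : circleRes C a ha1 ha2 ⟨coordEmb C a ha1 ha2 (x : RatFunc K), hx⟩ =
          circleRes C a ha1 ha2
            ⟨c • Polynomial.aeval (a⁻¹ • C.u) (Polynomial.C c⁻¹ * p), hmem⟩ := by
        congr 1
        apply Subtype.ext
        show coordEmb C a ha1 ha2 (x : RatFunc K) = _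
        rw [hxp, heq]
      rw [h4, hres] at h0
      rcases mul_eq_zero.mp h0 with h5 | h5
      · rw [map_eq_zero] at h5
        exact hcu h5
      · exact hzb h5
    · intro hlt
      have hcoef : ∀ i, p.coeff i ∈ A := fun i =>
        (A.valuation_le_one_iff _).mp (hlt i).le
      obtain ⟨q, hq⟩ := exists_map_subtype_eq (A := A) hcoef
      have hq0 : q.map (residue A) = 0 := by
        ext i
        rw [Polynomial.coeff_map, Polynomial.coeff_zero, residue_eq_zero_iff]
        have h1 : ((q.coeff i : A) : K) = p.coeff i := by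
          rw [← hq, Polynomial.coeff_map]
          rfl
        have h2 := hlt i
        rw [polyCo_apply, ← hp, ← h1] at h2
        exact (A.valuation_lt_one_iff _).mpr h2
      have hred := isRed_aeval_map C a ha q
      rw [hq, hq0, map_zero] at hred
      rw [gaussRes_apply]
      have h4 : (⟨coordEmb C a ha1 ha2 (x : RatFunc K), hx⟩ : circleRing C a ha1 ha2) =
          ⟨Polynomial.aeval (a⁻¹ • C.u) p, ⟨0, hred⟩⟩ := Subtype.ext hxp
      rw [h4]
      exact circleRes_mk C a ha1 ha2 hred
  · -- fractions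
    intro y
    refine ⟨polyEquiv y.num, polyEquiv y.denom, ?_, ?_⟩
    · intro h0
      have h1 : y.denom = 0 := by
        have := congrArg (polyEquiv (K := K)).symm h0
        rwa [AlgEquiv.symm_apply_apply, map_zero] at this
      exact RatFunc.denom_ne_zero y h1
    · rw [polyEquiv_coe, polyEquiv_coe]
      have h1 := RatFunc.num_div_denom y
      have h2 : algebraMap (Polynomial K) (RatFunc K) y.denom ≠ 0 := by
        rw [Ne, map_eq_zero_iff _ (RatFunc.algebraMap_injective K)]
        exact RatFunc.denom_ne_zero y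
      calc y * algebraMap (Polynomial K) (RatFunc K) y.denom
          = algebraMap (Polynomial K) (RatFunc K) y.num /
              algebraMap (Polynomial K) (RatFunc K) y.denom *
              algebraMap (Polynomial K) (RatFunc K) y.denom := by rw [h1]
        _ = algebraMap (Polynomial K) (RatFunc K) y.num := div_mul_cancel₀ _ h2

/-! ### transport along a dense embedding -/

/-- `K(u)` is dense in `F` for the valuation of the circle of gauge `a`. -/
def DenseAt : Prop :=
  ∀ (z : F) (ε : K), ε ≠ 0 → ∃ g : RatFunc K,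
    (z - coordEmb C a ha1 ha2 g) * (algebraMap K F ε)⁻¹ ∈ circleRing C a ha1 ha2

/-- **(C6) from density.** Best approximation for the ring of a circle, in the shape of the
field `approx` of `Refine.ChainFamily`, from the density of `K(u)`. -/
theorem approxAt_of_dense (hdense : DenseAt C a ha1 ha2) : ApproxAt C a ha1 ha2 := by
  intro V hV y hy
  have ha : a ≠ 0 := gauge_ne_zero ha1
  refine Fermat.Agent.BR.ApproxDense.approx_of_dense A (circleRing C a ha1 ha2)
    (circleRes C a ha1 ha2) (gaussRing C a ha1 ha2) (gaussRes C a ha1 ha2)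
    (coordEmb C a ha1 ha2) (RingHom.id (RatFunc k)) Function.injective_id
    (fun x => Iff.rfl) (fun x hx hx' => rfl) (circleRes_eq_zero_iff C a ha1 ha2)
    (algebraMap_mem_circleRing_iff C a ha1 ha2) ?_ ?_ (gauss_approx C a ha1 ha2) hdense ?_
    V hV y hy
  · -- scaling to a unit
    intro f hf
    obtain ⟨γ, z, zb, hγ, hzb, hz, rfl⟩ := isGen_of_ne_zero ha1 ha2 hf
    have heq : γ⁻¹ • γ • z = z := by rw [smul_smul, inv_mul_cancel₀ hγ, one_smul]
    have hmem : γ⁻¹ • γ • z ∈ circleRing C a ha1 ha2 := by
      rw [heq]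
      exact ⟨zb, hz⟩
    refine ⟨γ⁻¹, inv_ne_zero hγ, hmem, ?_⟩
    have h1 : IsRed C a (γ⁻¹ • γ • z) zb := by rw [heq]; exact hz
    rw [circleRes_eq C a ha1 ha2 (y := ⟨γ⁻¹ • γ • z, hmem⟩) h1]
    exact hzb
  · exact ⟨a, ha, (A.mem_nonunits_iff).mpr ha2⟩
  · -- the comparison
    intro m v hv
    obtain ⟨B, hB0, hB⟩ := Bound.circleRing_bdd ha1 ha2 v hv
    refine ⟨B⁻¹, inv_ne_zero hB0, fun c hc i => ?_⟩
    exact Fermat.Agent.Val.inv_mul_mem_of_valuation_le hB0 (hB c hc i)

end Fermat.Agent.BR.Circle
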