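/-
Program B, node B7.5 (C6-DENSE, part B): density of `K(u)` for the valuation of a circle, from
the level rings of the node.

`C : AnnulusCore A T`.  A *level ring* of the node is a subring `R ⊆ F` containing a constant `ϖ`
with `|ϖ| < 1`, the coordinates `u` and `v = thick / u`, whose elements have integral values on
the tube, and such that every element of `R` is congruent to a constant modulo `(ϖ, u, v) R`
(`TubeLevel C R ϖ`; in the application `R = O_{n,W'}`, the local ring of the model over a finite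
level `W'` at the crossing point).  Then `R = W'[u, v] + (ϖ, u, v)^N` for all `N`, and
`(ϖ, u, v)^N ⊆ c₀^N · circleRing C a` with `|c₀| = max (|ϖ|, |a|, |thick / a|) < 1`: if every
element of `F` is a quotient of elements of level rings and `A` has rank one, `K(u)` is dense
(`denseAt_of_levels`), hence the ring of every circle has best approximations
(`approxAt_of_levels`).
-/
import Mathlib
import Fermat.Agent.BR.Circle.Dense

set_option autoImplicit false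

noncomputable section

namespace Fermat.Agent.BR.Circle

open AlgebraicCurve IsLocalRing Fermat.Agent.Red Fermat.Agent.BR.InertiaRed
  Fermat.Agent.BR.AnnulusRed Fermat.Agent.BR.P1 Fermat.Agent.BR.Centre Polynomial

variable {K : Type} {F : Type*} [Field K] [Field F] [Algebra K F]
variable {A : ValuationSubring K} [IsAlgClosed (ResidueField A)] {T : Set (Place K F)}
  (C : AnnulusCore A T)

local notation "k" => ResidueField A

/-- A level ring of the node with tube `T`. -/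
structure TubeLevel (R : Subring F) (ϖ : K) : Prop where
  ϖ_lt : A.valuation ϖ < 1
  ϖ_mem : algebraMap K F ϖ ∈ R
  u_mem : C.u ∈ R
  v_mem : C.thick • C.u⁻¹ ∈ R
  integral : ∀ y ∈ R, ∀ P ∈ T, ∃ d : K, d ∈ A ∧ IsValueAt P y d
  residue : ∀ y ∈ R, ∃ c : K, algebraMap K F c ∈ R ∧ ∃ r₁ ∈ R, ∃ r₂ ∈ R, ∃ r₃ ∈ R,
    y - algebraMap K F c = algebraMap K F ϖ * r₁ + C.u * r₂ + (C.thick • C.u⁻¹) * r₃

/-- `x ∈ (ϖ, u, v)^N R`, by recursion on `N`. -/
def InPow (R : Subring F) (ϖ : K) : ℕ → F → Prop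
  | 0, x => x ∈ R
  | N + 1, x => ∃ x₁ x₂ x₃ : F, InPow R ϖ N x₁ ∧ InPow R ϖ N x₂ ∧ InPow R ϖ N x₃ ∧
      x = algebraMap K F ϖ * x₁ + C.u * x₂ + (C.thick • C.u⁻¹) * x₃

variable {C}

section Integral

variable {a : K} (ha1 : A.valuation C.thick < A.valuation a) (ha2 : A.valuation a < 1)

include ha1 ha2 in
/-- A function with integral values on the tube lies in the ring of every circle. -/
theorem mem_circleRing_of_integral {y : F}
    (hy : ∀ P ∈ T, ∃ d : K, d ∈ A ∧ IsValueAt P y d) : y ∈ circleRing C a ha1 ha2 := by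
  classical
  rcases eq_or_ne y 0 with rfl | hy0
  · exact (circleRing C a ha1 ha2).zero_mem
  obtain ⟨γ, z, zb, hγ, hzb, hz, rfl⟩ := isGen_of_ne_zero ha1 ha2 hy0
  rw [smul_mem_circleRing_iff ha1 ha2 hz hzb]
  obtain ⟨E, hE⟩ := hz
  obtain ⟨P, hP, hv, hn⟩ := exists_generic_point C a ha1 ha2 (E ∪ (finite_zeros hzb).toFinset)
  rw [Finset.mem_union, not_or, Set.Finite.mem_toFinset, Set.mem_ofPred_eq, not_lt] at hn
  obtain ⟨d, hd, h1, h2⟩ := hE P hP hv hn.1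
  have hres : residue A ⟨d, hd⟩ ≠ 0 := by
    intro h0
    rw [h0, isValueAt_zero_iff, adicValuation_lt_one_iff] at h2
    rcases h2 with h2 | h2
    · exact hzb h2
    · exact absurd h2 (not_lt.mpr hn.2)
  have hd1 : A.valuation d = 1 := by
    have hdu : IsUnit (⟨d, hd⟩ : A) := by
      by_contra hnu
      exact hres ((residue_eq_zero_iff _).mpr ((mem_maximalIdeal _).mpr hnu))
    exact (A.valuation_eq_one_iff ⟨d, hd⟩).mp hdu
  obtain ⟨d', hd', h1'⟩ := hy P hP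
  have h3 : d' = γ * d := h1'.unique (h1.smul γ)
  have h4 : A.valuation d' ≤ 1 := (A.valuation_le_one_iff _).mpr hd'
  rw [h3, map_mul, hd1, mul_one] at h4
  exact h4

end Integral

variable {R : Subring F} {ϖ : K}

omit [IsAlgClosed (ResidueField A)] in
theorem InPow.mem (h : TubeLevel C R ϖ) : ∀ {N : ℕ} {x : F}, InPow C R ϖ N x → x ∈ R
  | 0, _, hx => hx
  | N + 1, _, ⟨x₁, x₂, x₃, h₁, h₂, h₃, hx⟩ => by
    rw [hx]
    exact R.add_mem (R.add_mem (R.mul_mem h.ϖ_mem (InPow.mem h h₁))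
      (R.mul_mem h.u_mem (InPow.mem h h₂))) (R.mul_mem h.v_mem (InPow.mem h h₃))

section Approx

variable {a : K} (ha1 : A.valuation C.thick < A.valuation a) (ha2 : A.valuation a < 1)

/-- The one-step approximation: an element of `(ϖ,u,v)^N R` is a rational function of `u` in `R`
modulo `(ϖ,u,v)^(N+1) R`. -/
theorem InPow.exists_step (h : TubeLevel C R ϖ) :
    ∀ (N : ℕ) (x : F), InPow C R ϖ N x →
      ∃ g : RatFunc K, coordEmb C a ha1 ha2 g ∈ R ∧
        InPow C R ϖ (N + 1) (x - coordEmb C a ha1 ha2 g)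
  | 0, x, hx => by
    obtain ⟨c, hc, r₁, hr₁, r₂, hr₂, r₃, hr₃, heq⟩ := h.residue x hx
    refine ⟨algebraMap K (RatFunc K) c, ?_, r₁, r₂, r₃, hr₁, hr₂, hr₃, ?_⟩
    · rw [AlgHom.commutes]
      exact hc
    · rw [AlgHom.commutes]
      exact heq
  | N + 1, x, ⟨x₁, x₂, x₃, h₁, h₂, h₃, hx⟩ => by
    obtain ⟨g₁, hg₁, hg₁'⟩ := InPow.exists_step h N x₁ h₁
    obtain ⟨g₂, hg₂, hg₂'⟩ := InPow.exists_step h N x₂ h₂
    obtain ⟨g₃, hg₃, hg₃'⟩ := InPow.exists_step h N x₃ h₃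
    have ha : a ≠ 0 := gauge_ne_zero ha1
    have hu0 : C.u ≠ 0 := coord_ne_zero C a ha1 ha2
    have hX : coordEmb C a ha1 ha2 RatFunc.X = a⁻¹ • C.u := coordEmb_X C a ha1 ha2
    have hU : coordEmb C a ha1 ha2 (algebraMap K (RatFunc K) a * RatFunc.X) = C.u := by
      rw [map_mul, AlgHom.commutes, hX, Algebra.smul_def, ← mul_assoc, ← map_mul,
        mul_inv_cancel₀ ha, map_one, one_mul]
    have hV : coordEmb C a ha1 ha2
        (algebraMap K (RatFunc K) (C.thick / a) * RatFunc.X⁻¹) = C.thick • C.u⁻¹ := by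
      have haF : algebraMap K F a ≠ 0 := (_root_.map_ne_zero _).mpr ha
      rw [map_mul, AlgHom.commutes, map_inv₀, hX, Algebra.smul_def, Algebra.smul_def, map_div₀,
        mul_inv, map_inv₀, inv_inv]
      field_simp
    refine ⟨algebraMap K (RatFunc K) ϖ * g₁ + (algebraMap K (RatFunc K) a * RatFunc.X) * g₂ +
      (algebraMap K (RatFunc K) (C.thick / a) * RatFunc.X⁻¹) * g₃, ?_,
      x₁ - coordEmb C a ha1 ha2 g₁, x₂ - coordEmb C a ha1 ha2 g₂,
      x₃ - coordEmb C a ha1 ha2 g₃, hg₁', hg₂', hg₃', ?_⟩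
    · rw [map_add, map_add, map_mul, map_mul, map_mul _ _ g₃, hU, hV, AlgHom.commutes]
      exact R.add_mem (R.add_mem (R.mul_mem h.ϖ_mem hg₁) (R.mul_mem h.u_mem hg₂))
        (R.mul_mem h.v_mem hg₃)
    · rw [map_add, map_add, map_mul, map_mul, map_mul _ _ g₃, hU, hV, AlgHom.commutes, hx]
      ring

/-- Every element of `R` is a rational function of `u` in `R` modulo `(ϖ,u,v)^N R`. -/
theorem TubeLevel.exists_approx (h : TubeLevel C R ϖ) (N : ℕ) {y : F} (hy : y ∈ R) :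
    ∃ g : RatFunc K, coordEmb C a ha1 ha2 g ∈ R ∧
      InPow C R ϖ N (y - coordEmb C a ha1 ha2 g) := by
  induction N with
  | zero =>
    refine ⟨0, ?_, ?_⟩
    · rw [map_zero]; exact R.zero_mem
    · rw [map_zero, sub_zero]; exact hy
  | succ N ih =>
    obtain ⟨g, hg, hg'⟩ := ih
    obtain ⟨g', hg₁, hg₂⟩ := InPow.exists_step ha1 ha2 h N _ hg'
    refine ⟨g + g', ?_, ?_⟩
    · rw [map_add]; exact R.add_mem hg hg₁
    · rw [map_add, ← sub_sub]; exact hg₂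

end Approx

section Bound

variable {a : K} (ha1 : A.valuation C.thick < A.valuation a) (ha2 : A.valuation a < 1)

include ha1 ha2 in
omit [IsAlgClosed (ResidueField A)] in
/-- A constant of absolute value `max (|ϖ|, |a|, |thick / a|) < 1`. -/
theorem exists_levelCst {ϖ : K} (hϖ : A.valuation ϖ < 1) :
    ∃ c₀ : K, c₀ ≠ 0 ∧ A.valuation c₀ < 1 ∧ A.valuation ϖ ≤ A.valuation c₀ ∧
      A.valuation a ≤ A.valuation c₀ ∧ A.valuation (C.thick / a) ≤ A.valuation c₀ := by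
  have ha : a ≠ 0 := gauge_ne_zero ha1
  have hta : A.valuation (C.thick / a) < 1 := by
    rw [map_div₀]
    exact (div_lt_one₀ (lt_of_le_of_lt zero_le ha1)).mpr ha1
  -- the maximum of `a` and `thick / a`
  obtain ⟨c₁, hc₁0, hc₁lt, hc₁a, hc₁t⟩ : ∃ c₁ : K, c₁ ≠ 0 ∧ A.valuation c₁ < 1 ∧
      A.valuation a ≤ A.valuation c₁ ∧ A.valuation (C.thick / a) ≤ A.valuation c₁ := by
    rcases le_total (A.valuation (C.thick / a)) (A.valuation a) with hle | hle
    · exact ⟨a, ha, ha2, le_rfl, hle⟩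
    · refine ⟨C.thick / a, div_ne_zero C.thick_ne ha, hta, hle, le_rfl⟩
  rcases le_total (A.valuation ϖ) (A.valuation c₁) with hle | hle
  · exact ⟨c₁, hc₁0, hc₁lt, hle, hc₁a, hc₁t⟩
  · have hϖ0 : ϖ ≠ 0 := by
      rintro rfl
      rw [map_zero] at hle
      exact (Valuation.ne_zero_iff _).mpr hc₁0 (le_antisymm hle zero_le)
    exact ⟨ϖ, hϖ0, hϖ, le_rfl, hc₁a.trans hle, hc₁t.trans hle⟩

omit [IsAlgClosed (ResidueField A)] in
theorem div_mem_of_valuation_le {x c₀ : K} (_hc₀ : c₀ ≠ 0)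
    (h : A.valuation x ≤ A.valuation c₀) : x / c₀ ∈ A := by
  rw [← A.valuation_le_one_iff, map_div₀]
  exact div_le_one_of_le₀ h zero_le

/-- `(ϖ,u,v)^N R ⊆ c₀^N · circleRing C a`. -/
theorem InPow.smul_mem (h : TubeLevel C R ϖ) {c₀ : K} (hc₀ : c₀ ≠ 0)
    (h1 : A.valuation ϖ ≤ A.valuation c₀) (h2 : A.valuation a ≤ A.valuation c₀)
    (h3 : A.valuation (C.thick / a) ≤ A.valuation c₀) :
    ∀ (N : ℕ) (x : F), InPow C R ϖ N x → (c₀ ^ N)⁻¹ • x ∈ circleRing C a ha1 ha2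
  | 0, x, hx => by
    rw [pow_zero, inv_one, one_smul]
    exact mem_circleRing_of_integral ha1 ha2 (h.integral x hx)
  | N + 1, x, ⟨x₁, x₂, x₃, hx₁, hx₂, hx₃, hx⟩ => by
    have ha : a ≠ 0 := gauge_ne_zero ha1
    have hu0 : C.u ≠ 0 := coord_ne_zero C a ha1 ha2
    have e₁ := InPow.smul_mem h hc₀ h1 h2 h3 N x₁ hx₁
    have e₂ := InPow.smul_mem h hc₀ h1 h2 h3 N x₂ hx₂
    have e₃ := InPow.smul_mem h hc₀ h1 h2 h3 N x₃ hx₃
    have m₁ : algebraMap K F (ϖ / c₀) ∈ circleRing C a ha1 ha2 :=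
      (algebraMap_mem_circleRing_iff C a ha1 ha2 _).mpr (div_mem_of_valuation_le hc₀ h1)
    have m₂ : algebraMap K F (a / c₀) * (a⁻¹ • C.u) ∈ circleRing C a ha1 ha2 :=
      (circleRing C a ha1 ha2).mul_mem _ _
        ((algebraMap_mem_circleRing_iff C a ha1 ha2 _).mpr (div_mem_of_valuation_le hc₀ h2))
        (coord_mem_circleRing C a ha1 ha2)
    have m₃ : algebraMap K F (C.thick / a / c₀) * (a⁻¹ • C.u)⁻¹ ∈ circleRing C a ha1 ha2 :=
      (circleRing C a ha1 ha2).mul_mem _ _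
        ((algebraMap_mem_circleRing_iff C a ha1 ha2 _).mpr (div_mem_of_valuation_le hc₀ h3))
        (coord_inv_mem_circleRing C a ha1 ha2)
    have hsum := (circleRing C a ha1 ha2).add_mem _ _ ((circleRing C a ha1 ha2).add_mem _ _
      ((circleRing C a ha1 ha2).mul_mem _ _ m₁ e₁) ((circleRing C a ha1 ha2).mul_mem _ _ m₂ e₂))
      ((circleRing C a ha1 ha2).mul_mem _ _ m₃ e₃)
    have heq : (c₀ ^ (N + 1))⁻¹ • x =
        algebraMap K F (ϖ / c₀) * (c₀ ^ N)⁻¹ • x₁ +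
          algebraMap K F (a / c₀) * (a⁻¹ • C.u) * (c₀ ^ N)⁻¹ • x₂ +
          algebraMap K F (C.thick / a / c₀) * (a⁻¹ • C.u)⁻¹ * (c₀ ^ N)⁻¹ • x₃ := by
      have hcF : algebraMap K F c₀ ≠ 0 := (_root_.map_ne_zero _).mpr hc₀
      have haF : algebraMap K F a ≠ 0 := (_root_.map_ne_zero _).mpr ha
      rw [hx]
      simp only [Algebra.smul_def, map_div₀, map_inv₀, map_pow, pow_succ, map_mul]
      field_simp
    rw [heq]
    exact hsum

omit [IsAlgClosed (ResidueField A)] in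
/-- Rank one: the powers of `c₀` tend to zero. -/
theorem exists_pow_mul_inv_mem (hA : IsRankOne A) {c₀ : K} (hc₀lt : A.valuation c₀ < 1)
    {δ : K} (hδ : δ ≠ 0) : ∃ N : ℕ, ∀ n, N ≤ n → c₀ ^ n * δ⁻¹ ∈ A := by
  have hc₀A : c₀ ∈ A := (A.valuation_le_one_iff _).mp hc₀lt.le
  by_cases hδA : δ ∈ A
  · have hnu : ¬ IsUnit (⟨c₀, hc₀A⟩ : A) := by
      intro hu
      have := (A.valuation_eq_one_iff ⟨c₀, hc₀A⟩).mp hu
      exact absurd hc₀lt (by rw [this]; exact lt_irrefl _)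
    have hδ0 : (⟨δ, hδA⟩ : A) ≠ 0 := fun h0 => hδ (congrArg Subtype.val h0)
    obtain ⟨N, w, hw⟩ := hA ⟨c₀, hc₀A⟩ hnu ⟨δ, hδA⟩ hδ0
    have hw' : c₀ ^ N = δ * (w : K) := by
      have := congrArg Subtype.val hw
      simpa using this
    refine ⟨N, fun n hn => ?_⟩
    obtain ⟨m, rfl⟩ := Nat.exists_eq_add_of_le hn
    have : c₀ ^ (N + m) * δ⁻¹ = (w : K) * c₀ ^ m := by
      rw [pow_add, hw']
      field_simp
    rw [this]
    exact A.mul_mem _ _ w.2 (A.pow_mem hc₀A m)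
  · have hinv : δ⁻¹ ∈ A := (A.mem_or_inv_mem δ).resolve_left hδA
    exact ⟨0, fun n _ => A.mul_mem _ _ (A.pow_mem hc₀A n) hinv⟩

/-- **Density of `K(u)`** for the valuation of the circle of gauge `a`, from level rings. -/
theorem denseAt_of_levels (hA : IsRankOne A)
    (hcov : ∀ z : F, ∃ (R : Subring F) (ϖ : K), TubeLevel C R ϖ ∧
      ∃ s ∈ R, ∃ t ∈ R, t ≠ 0 ∧ z * t = s) :
    DenseAt C a ha1 ha2 := by
  intro z ε hε
  obtain ⟨R, ϖ, h, s, hs, t, ht, ht0, hzt⟩ := hcov z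
  obtain ⟨c₀, hc₀, hc₀lt, h1, h2, h3⟩ := exists_levelCst ha1 ha2 h.ϖ_lt
  have hc₀A : c₀ ∈ A := (A.valuation_le_one_iff _).mp hc₀lt.le
  -- `t = γ • t₁` with `t₁` a unit of the circle ring
  obtain ⟨γ, t₁, tb, hγ, htb, ht₁, rfl⟩ := isGen_of_ne_zero ha1 ha2 ht0
  have hδ : ε * γ * γ ≠ 0 := mul_ne_zero (mul_ne_zero hε hγ) hγ
  obtain ⟨N₁, hN₁⟩ := exists_pow_mul_inv_mem hA hc₀lt hδ
  obtain ⟨N₂, hN₂⟩ := exists_pow_mul_inv_mem hA hc₀lt hγ
  obtain ⟨N, hNle, hNpos⟩ : ∃ N, N₁ ≤ N ∧ N₂ + 1 ≤ N :=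
    ⟨max N₁ (N₂ + 1), le_max_left _ _, le_max_right _ _⟩
  obtain ⟨gs, hgs, hgs'⟩ := h.exists_approx ha1 ha2 N hs
  obtain ⟨gt, hgt, hgt'⟩ := h.exists_approx ha1 ha2 N ht
  have hos := InPow.smul_mem ha1 ha2 h hc₀ h1 h2 h3 N _ hgs'
  have hot := InPow.smul_mem ha1 ha2 h hc₀ h1 h2 h3 N _ hgt'
  have hemb : coordEmb C a ha1 ha2 (gs / gt) =
      coordEmb C a ha1 ha2 gs / coordEmb C a ha1 ha2 gt := map_div₀ _ _ _
  have hgt0' : gt = 0 → coordEmb C a ha1 ha2 gt = 0 := fun h0 => by rw [h0, map_zero]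
  refine ⟨gs / gt, ?_⟩
  generalize coordEmb C a ha1 ha2 (gs / gt) = G at hemb ⊢
  generalize coordEmb C a ha1 ha2 gs = S at hgs hgs' hos hemb
  generalize coordEmb C a ha1 ha2 gt = Tn at hgt hgt' hot hemb hgt0'
  generalize hos_def : (c₀ ^ N)⁻¹ • (s - S) = os at hos
  generalize hot_def : (c₀ ^ N)⁻¹ • (γ • t₁ - Tn) = ot at hot
  have hcN : c₀ ^ N ≠ 0 := pow_ne_zero _ hc₀
  have hs_eq : s = S + c₀ ^ N • os := by
    rw [← hos_def, smul_smul, mul_inv_cancel₀ hcN, one_smul]; ring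
  have ht_eq : γ • t₁ = Tn + c₀ ^ N • ot := by
    rw [← hot_def, smul_smul, mul_inv_cancel₀ hcN, one_smul]; ring
  -- `μ = c₀^N / γ` is small
  obtain ⟨μ, hμ⟩ : ∃ μ : K, μ = c₀ ^ N * γ⁻¹ := ⟨_, rfl⟩
  have hμlt : A.valuation μ < 1 := by
    obtain ⟨m, hm⟩ := Nat.exists_eq_add_of_le hNpos
    have h4 : c₀ ^ (N₂ + m) * γ⁻¹ ∈ A := hN₂ _ (Nat.le_add_right _ _)
    have h5 : μ = c₀ * (c₀ ^ (N₂ + m) * γ⁻¹) := by
      rw [hμ, hm]; ring
    rw [h5, map_mul]
    calc A.valuation c₀ * A.valuation (c₀ ^ (N₂ + m) * γ⁻¹)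
        ≤ A.valuation c₀ * 1 := mul_le_mul_right ((A.valuation_le_one_iff _).mpr h4) _
      _ = A.valuation c₀ := mul_one _
      _ < 1 := hc₀lt
  have hμA : μ ∈ A := (A.valuation_le_one_iff _).mp hμlt.le
  have hμres : residue A ⟨μ, hμA⟩ = 0 := by
    rw [residue_eq_zero_iff]
    exact (A.valuation_lt_one_iff _).mpr hμlt
  -- `t₁' = t₁ - μ • ot` is a unit of the circle ring, and `Tn = γ • t₁'`
  obtain ⟨otb, hotb⟩ := hot
  have hred' : IsRed C a (t₁ - μ • ot) tb := by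
    have h6 := ht₁.add (hotb.smul hμA).neg
    rw [hμres, map_zero, zero_mul, neg_zero, add_zero, ← sub_eq_add_neg] at h6
    exact h6
  have hTn_eq : Tn = γ • (t₁ - μ • ot) := by
    have h7 : Tn = γ • t₁ - c₀ ^ N • ot := by rw [ht_eq]; ring
    rw [h7, smul_sub, smul_smul, hμ, ← mul_assoc, mul_comm γ, mul_assoc, mul_inv_cancel₀ hγ,
      mul_one]
  have ht₁0 : t₁ ≠ 0 := ht₁.ne_zero ha1 ha2 htb
  have ht₁'0 : t₁ - μ • ot ≠ 0 := hred'.ne_zero ha1 ha2 htb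
  have hTn0 : Tn ≠ 0 := by
    rw [hTn_eq]
    exact smul_ne_zero hγ ht₁'0
  have hgt0 : gt ≠ 0 := fun h0 => hTn0 (hgt0' h0)
  -- memberships
  have hRO : ∀ y ∈ R, y ∈ circleRing C a ha1 ha2 := fun y hy =>
    mem_circleRing_of_integral ha1 ha2 (h.integral y hy)
  have m1 : algebraMap K F (c₀ ^ N * (ε * γ * γ)⁻¹) ∈ circleRing C a ha1 ha2 :=
    (algebraMap_mem_circleRing_iff C a ha1 ha2 _).mpr (hN₁ N hNle)
  have m2 : os * Tn - S * ot ∈ circleRing C a ha1 ha2 :=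
    (circleRing C a ha1 ha2).sub_mem
      ((circleRing C a ha1 ha2).mul_mem _ _ hos (hRO _ hgt))
      ((circleRing C a ha1 ha2).mul_mem _ _ (hRO _ hgs) ⟨otb, hotb⟩)
  have m3 : t₁⁻¹ ∈ circleRing C a ha1 ha2 := ⟨_, ht₁.inv htb⟩
  have m4 : (t₁ - μ • ot)⁻¹ ∈ circleRing C a ha1 ha2 := ⟨_, hred'.inv htb⟩
  have hmem := (circleRing C a ha1 ha2).mul_mem _ _ ((circleRing C a ha1 ha2).mul_mem _ _
    ((circleRing C a ha1 ha2).mul_mem _ _ m1 m2) m3) m4
  -- the identity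
  have hz : z = s / (γ • t₁) := by
    rw [← hzt, mul_div_assoc, div_self ht0, mul_one]
  have heq : (z - G) * (algebraMap K F ε)⁻¹ =
      algebraMap K F (c₀ ^ N * (ε * γ * γ)⁻¹) * (os * Tn - S * ot) * t₁⁻¹ *
        (t₁ - μ • ot)⁻¹ := by
    have hγF : algebraMap K F γ ≠ 0 := (_root_.map_ne_zero _).mpr hγ
    have hεF : algebraMap K F ε ≠ 0 := (_root_.map_ne_zero _).mpr hε
    have hcF : algebraMap K F c₀ ≠ 0 := (_root_.map_ne_zero _).mpr hc₀
    rw [hemb, hz, hs_eq]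
    have hTn' : Tn = algebraMap K F γ * (t₁ - μ • ot) := by
      rw [hTn_eq, Algebra.smul_def]
    have hd1 : γ • t₁ = algebraMap K F γ * t₁ := Algebra.smul_def _ _
    have hot' : algebraMap K F (c₀ ^ N) * ot = algebraMap K F γ * t₁ - Tn := by
      rw [← Algebra.smul_def, ← hd1, ht_eq]; ring
    rw [hd1, Algebra.smul_def (c₀ ^ N) os]
    have hden1 : algebraMap K F γ * t₁ ≠ 0 := mul_ne_zero hγF ht₁0
    rw [div_sub_div _ _ hden1 hTn0, map_mul, map_inv₀, map_mul, map_mul]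
    have hnum : (S + algebraMap K F (c₀ ^ N) * os) * Tn - algebraMap K F γ * t₁ * S =
        algebraMap K F (c₀ ^ N) * (os * Tn - S * ot) := by
      have : algebraMap K F (c₀ ^ N) * (os * Tn - S * ot) =
          algebraMap K F (c₀ ^ N) * os * Tn - S * (algebraMap K F (c₀ ^ N) * ot) := by ring
      rw [this, hot']
      ring
    rw [hnum]
    have hTd : algebraMap K F γ * t₁ * Tn =
        algebraMap K F γ * algebraMap K F γ * t₁ * (t₁ - μ • ot) := by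
      rw [hTn']; ring
    rw [hTd]
    field_simp
  have hfinal : (z - G) * (algebraMap K F ε)⁻¹ ∈ circleRing C a ha1 ha2 := by
    rw [heq]
    exact hmem
  exact hfinal

/-- **(C6) from level rings**: best approximation for the ring of the circle of gauge `a`. -/
theorem approxAt_of_levels (hA : IsRankOne A)
    (hcov : ∀ z : F, ∃ (R : Subring F) (ϖ : K), TubeLevel C R ϖ ∧
      ∃ s ∈ R, ∃ t ∈ R, t ≠ 0 ∧ z * t = s) :
    ApproxAt C a ha1 ha2 :=
  approxAt_of_dense C a ha1 ha2 (denseAt_of_levels ha1 ha2 hA hcov)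

end Bound

end Fermat.Agent.BR.Circle
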