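/-
Program B, node B7.5 (C5): matching and units on the sub-annuli for the rings of the circles.

The six deliverables `MatchFirstAt`, `UnitFirstAt`, `MatchMidAt`, `UnitMidAt`, `MatchLastAt`,
`UnitLastAt` of `Circle/Assembly.lean` (the fields `match_*` / `unit_*` of `Refine.ChainFamily` for
`circleRing` / `circleRes`), from the contracts `AnnulusCore` / `AnnulusChart` alone.

Adapters to the generic engine `BR/Fact` (`Fact.TubeFact.match_unit`, `BR/Refine/FromFact.lean`):
* `AnnulusCore.tubeFact` : `Fact.TubeFact T C.u (TubeUnit A T)`;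
* `circleLevelFact` : `circleRing C a` with `circleRes C a` is a `Fact.LevelFact`;
* `AnnulusChart.tubeFact`, `AnnulusChart.nodeFact` : `Fact.NodeFact S₀ e ch.u ch.thick (NodeUnit S₀ e)`.
-/
import Mathlib
import Fermat.Agent.BR.Circle.Assembly
import Fermat.Agent.BR.Circle.Conserve
import Fermat.Agent.BR.Refine.FromFact

set_option autoImplicit false

namespace Fermat.Agent.BR.Circle

open AlgebraicCurve IsLocalRing Fermat.Agent.Red Fermat.Agent.BR.InertiaRed
  Fermat.Agent.BR.AnnulusRed Fermat.Agent.BR.P1 Fermat.Agent.BR.Centre Fermat.Agent.BR.SS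
  Fermat.Agent.BR.Refine Fermat.Agent.BR.Fact

section Core

variable {K : Type} {F : Type*} [Field K] [Field F] [Algebra K F]
  {A : ValuationSubring K} {T : Set (Place K F)}

/-- The K-level core of an annulus chart is a `Fact.TubeFact` for the class of tube units. -/
theorem AnnulusCore.tubeFact (C : AnnulusCore A T) : TubeFact T C.u (TubeUnit A T) where
  val := fun _ hP => (isValueAt_evalAt_u C hP).1
  val_ne := fun _ hP => evalAt_u_ne_zero C hP
  simple := C.simple
  inj := fun _ hP _ hP' h => evalAt_u_injOn C hP hP' h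
  tu_ord := fun _ hε _ hP => hε.ord_eq_zero hP
  factor := C.factor

variable [IsAlgClosed (ResidueField A)] (C : AnnulusCore A T) (a : K)
  (ha1 : A.valuation C.thick < A.valuation a) (ha2 : A.valuation a < 1)

/-- The ring of the circle of gauge `a` is a gauge component. -/
theorem circleGaugeComp :
    GaugeComp A C.u a (circleRing C a ha1 ha2) (circleRes C a ha1 ha2) where
  a_ne := gauge_ne_zero ha1
  res_eq_zero_iff := circleRes_eq_zero_iff C a ha1 ha2
  const_mem := algebraMap_mem_circleRing_iff C a ha1 ha2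
  const_res := circleRes_algebraMap C a ha1 ha2
  coord_mem := coord_mem_circleRing C a ha1 ha2

/-- The ring of the circle of gauge `a` with its residue map is a `Fact.LevelFact`. -/
theorem circleLevelFact :
    LevelFact C.u (TubeUnit A T) a (circleRing C a ha1 ha2) (circleRes C a ha1 ha2) where
  gauge := circleGaugeComp C a ha1 ha2
  coord_res := circleRes_coord C a ha1 ha2
  tu := fun _ hε => ⟨⟨_, isRed_tubeUnit hε⟩, circleRes_eq C a ha1 ha2 (isRed_tubeUnit hε)⟩

variable (a' : K) (ha1' : A.valuation C.thick < A.valuation a') (ha2' : A.valuation a' < 1)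

/-- **(C5)** matching between two circles of the same annulus. -/
theorem matchMidAt (hlt : A.valuation a' < A.valuation a) :
    MatchMidAt C a ha1 ha2 a' ha1' ha2' := fun y h₁ h₂ hpole =>
  NodeFact.match_mid C.tubeFact (circleLevelFact C a ha1 ha2) (circleLevelFact C a' ha1' ha2')
    hlt y h₁ h₂ hpole

/-- **(C5)** units between two circles of the same annulus. -/
theorem unitMidAt (hlt : A.valuation a' < A.valuation a) :
    UnitMidAt C a ha1 ha2 a' ha1' ha2' := fun y h₁ h₂ hpole hval =>
  NodeFact.unit_mid C.tubeFact (circleLevelFact C a ha1 ha2) (circleLevelFact C a' ha1' ha2')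
    hlt y h₁ h₂ hpole hval

end Core

section Chart

variable {K : Type} {F : Type*} [Field K] [Field F] [Algebra K F]
  {A : ValuationSubring K} [IsAlgClosed (ResidueField A)]
  {ι₀ : Type} {Ft₀ : ι₀ → Type} [∀ v, Field (Ft₀ v)] [∀ v, Algebra (ResidueField A) (Ft₀ v)]
  {ν₀ : Type} {S₀ : SemistableSetup (F := F) A (residue A) ι₀ Ft₀ ν₀} {e : ν₀}
  (ch : AnnulusChart S₀ e)

omit [IsAlgClosed (ResidueField A)] in
/-- An annulus chart gives a `Fact.TubeFact` for the class of node units. -/
theorem AnnulusChart.tubeFact : TubeFact (tube S₀ e) ch.u (NodeUnit S₀ e) where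
  val := ch.toCore.tubeFact.val
  val_ne := ch.toCore.tubeFact.val_ne
  simple := ch.simple
  inj := ch.toCore.tubeFact.inj
  tu_ord := fun _ hε _ hP => hε.1.ord_eq_zero hP
  factor := ch.factor

/-- An annulus chart gives the contract `Fact.NodeFact` at the node. -/
theorem AnnulusChart.nodeFact : NodeFact S₀ e ch.u ch.thick (NodeUnit S₀ e) where
  tubeFact := ch.tubeFact
  thick_ne := ch.thick_ne
  lt_one := fun _ hP => (isValueAt_evalAt_u ch.toCore hP).2.2
  thick_lt := fun _ hP => (isValueAt_evalAt_u ch.toCore hP).2.1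
  u_src := ⟨ch.u_src, by rw [ch.ord_src]; exact one_pos⟩
  v_tgt := ⟨ch.v_tgt, by rw [ch.ord_tgt]; exact one_pos⟩
  tu_src := fun _ hε => hε.2.1
  tu_tgt := fun _ hε => hε.2.2

variable (a : K) (ha1 : A.valuation ch.toCore.thick < A.valuation a) (ha2 : A.valuation a < 1)

/-- The ring of a circle as a `Fact.LevelFact` for the class of node units. -/
theorem AnnulusChart.levelFact :
    LevelFact ch.u (NodeUnit S₀ e) a (circleRing ch.toCore a ha1 ha2)
      (circleRes ch.toCore a ha1 ha2) where
  gauge := circleGaugeComp ch.toCore a ha1 ha2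
  coord_res := circleRes_coord ch.toCore a ha1 ha2
  tu := fun _ hε => (circleLevelFact ch.toCore a ha1 ha2).tu _ hε.1

/-- **(C5)** matching between the component `src e` and the first circle. -/
theorem matchFirstAt : MatchFirstAt ch a ha1 ha2 := fun y h₁ h₂ hpole =>
  ch.nodeFact.match_first (ch.levelFact a ha1 ha2) ha2 y h₁ h₂ hpole

/-- **(C5)** units between the component `src e` and the first circle. -/
theorem unitFirstAt : UnitFirstAt ch a ha1 ha2 := fun y h₁ h₂ hpole hval =>
  ch.nodeFact.unit_first (ch.levelFact a ha1 ha2) ha2 y h₁ h₂ hpole hval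

/-- **(C5)** matching between the last circle and the component `tgt e`. -/
theorem matchLastAt : MatchLastAt ch a ha1 ha2 := fun y h₁ h₂ hpole =>
  ch.nodeFact.match_last (ch.levelFact a ha1 ha2) ha1 y h₁ h₂ hpole

/-- **(C5)** units between the last circle and the component `tgt e`. -/
theorem unitLastAt : UnitLastAt ch a ha1 ha2 := fun y h₁ h₂ hpole hval =>
  ch.nodeFact.unit_last (ch.levelFact a ha1 ha2) ha1 y h₁ h₂ hpole hval

end Chart

section Inputs

variable {K : Type} {F : Type*} [Field K] [Field F] [Algebra K F]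
  {A : ValuationSubring K} [IsAlgClosed (ResidueField A)]
  {ι₀ : Type} {Ft₀ : ι₀ → Type} [∀ v, Field (Ft₀ v)] [∀ v, Algebra (ResidueField A) (Ft₀ v)]
  {ν₀ : Type} {S₀ : SemistableSetup (F := F) A (residue A) ι₀ Ft₀ ν₀}

/-- The inputs of the chain provider from the annulus charts, the separation of the nodes and the
best approximation (C6) alone: (C4) and (C5) are theorems. -/
noncomputable def circleInputsOfCharts (ch : ∀ e, AnnulusChart S₀ e)
    (sep : ∀ e e', e ≠ e' → Separated S₀ e e')
    (approx : ∀ e a ha1 ha2, ApproxAt (ch e).toCore a ha1 ha2) : CircleInputs S₀ where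
  ch := ch
  sep := sep
  approx := approx
  conservation := fun e a ha1 ha2 => circle_conservation (ch e).toCore a ha1 ha2
  match_first := fun e a ha1 ha2 => matchFirstAt (ch e) a ha1 ha2
  unit_first := fun e a ha1 ha2 => unitFirstAt (ch e) a ha1 ha2
  match_mid := fun e a ha1 ha2 a' ha1' ha2' hlt =>
    matchMidAt (ch e).toCore a ha1 ha2 a' ha1' ha2' hlt
  unit_mid := fun e a ha1 ha2 a' ha1' ha2' hlt =>
    unitMidAt (ch e).toCore a ha1 ha2 a' ha1' ha2' hlt
  match_last := fun e a ha1 ha2 => matchLastAt (ch e) a ha1 ha2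
  unit_last := fun e a ha1 ha2 => unitLastAt (ch e) a ha1 ha2

end Inputs

end Fermat.Agent.BR.Circle
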