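/-
Program B (BADRED), block B7.5, the final assembly (g): THE CHAIN PROVIDER FROM THE LEVEL DATA.

Everything the chain provider `Refine.ChainProvider S₀` needs is now a theorem except three
named inputs, per node `e` of the special fibre:

* `L e : S0.AnnulusLevels A (tube S₀ e) (ι e)`  - the directed family of finite levels of the tube of
  the node (`BR/S0/AnnulusLevels`, helper21);
* `X e : BranchData S₀ e (L e)`  - the branch data of the levels (`BR/S0/AnnulusChartOfLevels`,
  helper5);
* `sep`  - the separation of two different nodes (`BR/S0/Separated`, `BR/S0/SeparatedDict`).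

This file only composes:

  (levels, branch data)  --helper5-->  `AnnulusChart S₀ e`
  levels                 --(C6), `BR/S0/AnnulusDense`-->  `ApproxAt`
  charts, sep, approx    --helper1 `circleInputsOfCharts` ((C4), (C5) discharged)-->  `CircleInputs S₀`
  `CircleInputs S₀`      --`BR/Circle/Assembly`-->  `Refine.ChainProvider S₀`.

Exports: `circleInputsOfLevels`, `chainProviderOfLevels`, `chainProviderOfLevels_u` (`rfl` : the
annulus coordinate of the provider at the node `e` is the coordinate `(L e).u` of the levels),
`exists_chainProvider_of_levels` (the shape of the hypothesis `hchain` of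
`S0.Modular.twoCompDeliverable_of_atlas` for an arbitrary group action).
-/
import Mathlib
import Fermat.Agent.BR.Circle.Match
import Fermat.Agent.BR.S0.AnnulusChartOfLevels
import Fermat.Agent.BR.S0.AnnulusDense

set_option autoImplicit false

noncomputable section

namespace Fermat.Agent.BR.Circle

open AlgebraicCurve IsLocalRing Fermat.Agent.Red Fermat.Agent.BR.Centre Fermat.Agent.BR.SS
  Fermat.Agent.BR.Refine Fermat.Agent.BR.S0 Fermat.Agent.BR.S0.AnnulusChartOfLevels

variable {K : Type} {F : Type*} [Field K] [Field F] [Algebra K F]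
  {A : ValuationSubring K} [IsAlgClosed (ResidueField A)]
  {ι₀ : Type} {Ft₀ : ι₀ → Type} [∀ v, Field (Ft₀ v)] [∀ v, Algebra (ResidueField A) (Ft₀ v)]
  {ν₀ : Type} {S₀ : SemistableSetup (F := F) A (residue A) ι₀ Ft₀ ν₀}
  {ι : ν₀ → Type*}

/-- The annulus chart of the node `e` from its levels and their branch data (helper5). -/
def chartOfLevels (L : ∀ e, AnnulusLevels A (tube S₀ e) (ι e))
    (X : ∀ e, BranchData S₀ e (L e)) (e : ν₀) : AnnulusChart S₀ e :=
  (X e).annulusChartOfLevels

@[simp] theorem chartOfLevels_u (L : ∀ e, AnnulusLevels A (tube S₀ e) (ι e))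
    (X : ∀ e, BranchData S₀ e (L e)) (e : ν₀) : (chartOfLevels L X e).u = (L e).u := rfl

@[simp] theorem chartOfLevels_thick (L : ∀ e, AnnulusLevels A (tube S₀ e) (ι e))
    (X : ∀ e, BranchData S₀ e (L e)) (e : ν₀) : (chartOfLevels L X e).thick = (L e).thick := rfl

/-- (C6) for the charts of the levels: best approximation on every circle, by density of `K(u)`
(`BR/S0/AnnulusDense`). -/
theorem approxAt_chartOfLevels (hA : IsRankOne A) (L : ∀ e, AnnulusLevels A (tube S₀ e) (ι e))
    (X : ∀ e, BranchData S₀ e (L e)) (e : ν₀) (a : K)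
    (ha1 : A.valuation (chartOfLevels L X e).toCore.thick < A.valuation a)
    (ha2 : A.valuation a < 1) :
    ApproxAt (chartOfLevels L X e).toCore a ha1 ha2 :=
  AnnulusDense.approxAt_of_annulusLevels hA (L e) (chartOfLevels L X e).toCore rfl rfl a ha1 ha2

/-- **The inputs of the chain provider from the level data**: levels and branch data at every
node, and the separation of the nodes. -/
def circleInputsOfLevels (hA : IsRankOne A) (L : ∀ e, AnnulusLevels A (tube S₀ e) (ι e))
    (X : ∀ e, BranchData S₀ e (L e)) (sep : ∀ e e', e ≠ e' → Separated S₀ e e') :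
    CircleInputs S₀ :=
  circleInputsOfCharts (chartOfLevels L X) sep
    (fun e a ha1 ha2 => approxAt_chartOfLevels hA L X e a ha1 ha2)

/-- **THE CHAIN PROVIDER FROM THE LEVEL DATA.** -/
def chainProviderOfLevels (hA : IsRankOne A) (L : ∀ e, AnnulusLevels A (tube S₀ e) (ι e))
    (X : ∀ e, BranchData S₀ e (L e)) (sep : ∀ e e', e ≠ e' → Separated S₀ e e') :
    ChainProvider S₀ :=
  (circleInputsOfLevels hA L X sep).chainProvider

/-- The annulus coordinate of the provider at the node `e` is the coordinate of the levels. -/
@[simp] theorem chainProviderOfLevels_u (hA : IsRankOne A)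
    (L : ∀ e, AnnulusLevels A (tube S₀ e) (ι e))
    (X : ∀ e, BranchData S₀ e (L e)) (sep : ∀ e e', e ≠ e' → Separated S₀ e e') (e : ν₀) :
    (chainProviderOfLevels hA L X sep).u e = (L e).u := rfl

/-- The shape of the hypothesis `hchain` of `S0.Modular.twoCompDeliverable_of_atlas`: a chain
provider whose annulus coordinates are fixed by the maps `act σ`, `σ` satisfying `I`, as soon as
the coordinates `(L e).u` of the levels are.  (For the inertia group: `I σ := σ ∈ B.inertiaSubgroupIn ℚ`,
`act σ y := arithmeticGalois _ σ • y`; or directly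
`⟨chainProviderOfLevels hA L X sep, fun σ hσ e => hu σ hσ e⟩`.) -/
theorem exists_chainProvider_of_levels (hA : IsRankOne A)
    (L : ∀ e, AnnulusLevels A (tube S₀ e) (ι e))
    (X : ∀ e, BranchData S₀ e (L e)) (sep : ∀ e e', e ≠ e' → Separated S₀ e e')
    {G : Type*} (I : G → Prop) (act : G → F → F)
    (hu : ∀ σ, I σ → ∀ e, act σ (L e).u = (L e).u) :
    ∃ Pr : ChainProvider S₀, ∀ σ, I σ → ∀ e, act σ (Pr.u e) = Pr.u e :=
  ⟨chainProviderOfLevels hA L X sep, fun σ hσ e => hu σ hσ e⟩

end Fermat.Agent.BR.Circle
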